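import Fermat.Prelude.Def_GaloisRep_Flat
import Mathlib.RingTheory.PrincipalIdealDomain
import Mathlib.RingTheory.Localization.FractionRing
import Mathlib.Algebra.CharP.Basic
import Mathlib.Data.Rat.Lemmas
import Mathlib.Tactic.Ring

/-!
# The base ring `ℤ_(ℓ)`
-/

set_option autoImplicit false

namespace FLTA.Smooth

/-- The base ring `ℤ_(ℓ)`. -/
abbrev Zloc (ℓ : ℕ) : Type := ↥(GaloisRep.ratLocalizedAt ℓ)

variable (ℓ : ℕ)

lemma den_inv_mem_zloc (x : Zloc ℓ) : ((x : ℚ).den : ℚ)⁻¹ ∈ GaloisRep.ratLocalizedAt ℓ := by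
  have hx : ((x : ℚ).den).Coprime ℓ := x.2
  show (((x : ℚ).den : ℚ)⁻¹).den.Coprime ℓ
  rw [Rat.inv_natCast_den]
  split_ifs with h
  · exact absurd h (Rat.den_nz _)
  · exact hx

theorem isFractionRing_zloc : IsFractionRing (Zloc ℓ) ℚ := by
  refine IsFractionRing.of_field (Zloc ℓ) ℚ fun z => ?_
  exact ⟨(z.num : Zloc ℓ), (z.den : Zloc ℓ), by
    rw [map_intCast, map_natCast]; exact (Rat.num_div_den z).symm⟩

theorem isPrincipalIdealRing_zloc : IsPrincipalIdealRing (Zloc ℓ) := by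
  refine ⟨fun I => ?_⟩
  obtain ⟨g, hg⟩ := (IsPrincipalIdealRing.principal (I.comap (Int.castRingHom (Zloc ℓ)))).principal
  refine ⟨⟨(g : Zloc ℓ), le_antisymm (fun x hx => ?_) ?_⟩⟩
  · rw [Submodule.mem_span_singleton]
    have hnum : (((x : ℚ).num : ℤ) : Zloc ℓ) ∈ I := by
      have hx' : (((x : ℚ).num : ℤ) : Zloc ℓ) = ((x : ℚ).den : Zloc ℓ) * x := by
        apply Subtype.ext
        push_cast
        exact (Rat.den_mul_eq_num _).symm
      rw [hx']
      exact I.mul_mem_left _ hx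
    have hmem : (x : ℚ).num ∈ I.comap (Int.castRingHom (Zloc ℓ)) := hnum
    rw [hg, Submodule.mem_span_singleton] at hmem
    obtain ⟨a, ha⟩ := hmem
    refine ⟨(a : Zloc ℓ) * ⟨_, den_inv_mem_zloc ℓ x⟩, Subtype.ext ?_⟩
    push_cast [smul_eq_mul]
    have h := congrArg (fun z : ℤ => (z : ℚ)) ha
    simp only [smul_eq_mul, Int.cast_mul] at h
    calc (a : ℚ) * ((x : ℚ).den : ℚ)⁻¹ * (g : ℚ)
        = ((x : ℚ).num : ℚ) / ((x : ℚ).den : ℚ) := by rw [← h]; ring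
      _ = (x : ℚ) := Rat.num_div_den _
  · rw [Submodule.span_le, Set.singleton_subset_iff]
    have h : g ∈ I.comap (Int.castRingHom (Zloc ℓ)) := by
      rw [hg]; exact Submodule.mem_span_singleton_self g
    exact h

/-- A ring homomorphism to a field of characteristic `ℓ` kills exactly the multiples of `ℓ`. -/
theorem map_zloc_eq_zero_iff [Fact ℓ.Prime] {k : Type*} [Field k] [CharP k ℓ]
    (π : Zloc ℓ →+* k) (x : Zloc ℓ) : π x = 0 ↔ (ℓ : Zloc ℓ) ∣ x := by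
  constructor
  · intro hx
    have hnum : (((x : ℚ).num : ℤ) : Zloc ℓ) = ((x : ℚ).den : Zloc ℓ) * x := by
      apply Subtype.ext
      push_cast
      exact (Rat.den_mul_eq_num _).symm
    have h0 : (((x : ℚ).num : ℤ) : k) = 0 := by
      rw [← map_intCast π, hnum, map_mul, hx, mul_zero]
    obtain ⟨c, hc⟩ := (CharP.intCast_eq_zero_iff k ℓ _).mp h0
    refine ⟨(c : Zloc ℓ) * ⟨_, den_inv_mem_zloc ℓ x⟩, Subtype.ext ?_⟩
    push_cast
    conv_lhs => rw [← Rat.num_div_den (x : ℚ), hc]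
    push_cast
    ring
  · rintro ⟨c, rfl⟩
    rw [map_mul, map_natCast, CharP.cast_eq_zero, zero_mul]

theorem not_dvd_one_zloc [Fact ℓ.Prime] : ¬ IsUnit (ℓ : Zloc ℓ) := by
  intro h
  obtain ⟨c, hc⟩ := h.exists_right_inv
  have h1 : (ℓ : ℚ) * (c : ℚ) = 1 := by simpa using congrArg Subtype.val hc
  have h2 : (c : ℚ) = (ℓ : ℚ)⁻¹ := eq_inv_of_mul_eq_one_right h1
  have h3 : ((c : ℚ).den).Coprime ℓ := c.2
  rw [h2, Rat.inv_natCast_den_of_pos (Fact.out : ℓ.Prime).pos] at h3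
  exact (Fact.out : ℓ.Prime).one_lt.ne' ((Nat.coprime_self ℓ).mp h3)

end FLTA.Smooth
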