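import Fermat.Agent.Smooth.ModularData
import Mathlib.RingTheory.DedekindDomain.IntegralClosure
import Mathlib.RingTheory.Polynomial.IsIntegral
import Mathlib.RingTheory.Polynomial.Basic

/-!
# The chart as a normal finite `ℤ_(ℓ)[s]`-algebra
-/

set_option autoImplicit false

noncomputable section

open ModularCurve ModularCurve.IgusaScheme Polynomial

namespace FLTA.Smooth

variable (N : ℕ) [NeZero N] (ℓ : ℕ) [Fact ℓ.Prime]

/-- The parameter as an element of its chart. -/
def paramElem (s : ↥(modularFunctionFieldFull N)) : ↥(chartAlg N ℓ {s}) :=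
  ⟨s, subset_chartAlg N ℓ _ rfl⟩

/-- The base ring `ℤ_(ℓ)[X] → chartAlg N ℓ {s}`, `X ↦ s`. -/
def polyHom (s : ↥(modularFunctionFieldFull N)) :
    Polynomial ↥(GaloisRep.ratLocalizedAt ℓ) →ₐ[↥(GaloisRep.ratLocalizedAt ℓ)]
      ↥(chartAlg N ℓ {s}) :=
  Polynomial.aeval (paramElem N ℓ s)

variable {N ℓ} {s : ↥(modularFunctionFieldFull N)}

theorem coe_polyHom (p : Polynomial ↥(GaloisRep.ratLocalizedAt ℓ)) :
    ((polyHom N ℓ s p : ↥(chartAlg N ℓ {s})) : ↥(modularFunctionFieldFull N)) =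
      Polynomial.aeval s p :=
  (Polynomial.aeval_algHom_apply (chartAlg N ℓ {s}).val (paramElem N ℓ s) p).symm

theorem polyHom_injective (hs : IsChartParam N s) : Function.Injective (polyHom N ℓ s) := by
  intro p q h
  have h1 : Polynomial.aeval s (p - q) = 0 := by
    rw [← coe_polyHom (N := N), map_sub, h, sub_self]; rfl
  rw [← Polynomial.aeval_map_algebraMap ℚ] at h1
  have h2 := transcendental_iff.mp (transcendental_param hs) _ h1
  rw [Polynomial.map_eq_zero_iff Subtype.val_injective] at h2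
  exact sub_eq_zero.mp h2

theorem isIntegral_adjoin_iff (x : ↥(modularFunctionFieldFull N)) :
    IsIntegral (Algebra.adjoin ↥(GaloisRep.ratLocalizedAt ℓ) ({s} : Set _)) x ↔
      ((algebraMap ↥(chartAlg N ℓ {s}) ↥(modularFunctionFieldFull N)).comp
        (polyHom N ℓ s).toRingHom).IsIntegralElem x := by
  set g := (algebraMap ↥(chartAlg N ℓ {s}) ↥(modularFunctionFieldFull N)).comp
        (polyHom N ℓ s).toRingHom with hg
  have hmem : ∀ p, g p ∈ Algebra.adjoin ↥(GaloisRep.ratLocalizedAt ℓ) ({s} : Set _) := fun p => by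
    rw [Algebra.adjoin_singleton_eq_range_aeval]
    exact ⟨p, (coe_polyHom p).symm⟩
  constructor
  · rintro ⟨P, hP, hPx⟩
    have hl : P.map (algebraMap _ ↥(modularFunctionFieldFull N)) ∈ Polynomial.lifts g :=
      (Polynomial.lifts_iff_coeff_lifts _).mpr fun i => by
        obtain ⟨p, hp⟩ := (Algebra.adjoin_singleton_eq_range_aeval _ s).le (P.coeff i).2
        exact ⟨p, by rw [Polynomial.coeff_map]; exact (coe_polyHom p).trans hp⟩
    obtain ⟨Q, hQ, -, hQm⟩ := Polynomial.lifts_and_natDegree_eq_and_monic hl (hP.map _)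
    exact ⟨Q, hQm, by rw [Polynomial.eval₂_eq_eval_map, hQ, Polynomial.eval_map, hPx]⟩
  · rintro ⟨P, hP, hPx⟩
    refine ⟨P.map (g.codRestrict _ hmem), hP.map _, ?_⟩
    rw [Polynomial.eval₂_map]
    exact hPx

open IntermediateField in
theorem polyHom_finite_and_frac (hs : IsChartParam N s) :
    (polyHom N ℓ s).toRingHom.Finite ∧
      IsFractionRing ↥(chartAlg N ℓ {s}) ↥(modularFunctionFieldFull N) ∧
      IsIntegrallyClosed ↥(chartAlg N ℓ {s}) := by
  have := isPrincipalIdealRing_zloc ℓ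
  have := isFractionRing_zloc ℓ
  have := finiteDimensional_adjoin_param hs
  let K := IntermediateField.adjoin ℚ {s}
  let g := (algebraMap ↥(chartAlg N ℓ {s}) ↥(modularFunctionFieldFull N)).comp
        (polyHom N ℓ s).toRingHom
  letI : Algebra (Polynomial ↥(GaloisRep.ratLocalizedAt ℓ)) ↥(chartAlg N ℓ {s}) :=
    (polyHom N ℓ s).toRingHom.toAlgebra
  letI : Algebra (Polynomial ↥(GaloisRep.ratLocalizedAt ℓ)) ↥(modularFunctionFieldFull N) :=
    g.toAlgebra
  haveI : IsScalarTower (Polynomial ↥(GaloisRep.ratLocalizedAt ℓ)) ↥(chartAlg N ℓ {s})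
      ↥(modularFunctionFieldFull N) := IsScalarTower.of_algebraMap_eq' rfl
  let gK : Polynomial ↥(GaloisRep.ratLocalizedAt ℓ) →+* K :=
    ((Polynomial.aeval (AdjoinSimple.gen ℚ s)).toRingHom).comp
      (Polynomial.mapRingHom (GaloisRep.ratLocalizedAt ℓ).subtype)
  letI : Algebra (Polynomial ↥(GaloisRep.ratLocalizedAt ℓ)) K := gK.toAlgebra
  have hgK : ∀ p, (gK p : ↥(modularFunctionFieldFull N)) =
      Polynomial.aeval s (p.map (GaloisRep.ratLocalizedAt ℓ).subtype) := fun p => by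
    exact (Polynomial.aeval_algHom_apply K.val (AdjoinSimple.gen ℚ s) _).symm
  have hgg : ∀ p, g p = (gK p : ↥(modularFunctionFieldFull N)) := fun p => by
    rw [hgK]
    exact (coe_polyHom p).trans (Polynomial.aeval_map_algebraMap ℚ s p).symm
  haveI : IsScalarTower (Polynomial ↥(GaloisRep.ratLocalizedAt ℓ)) K
      ↥(modularFunctionFieldFull N) := IsScalarTower.of_algebraMap_eq' (RingHom.ext hgg)
  haveI : FaithfulSMul (Polynomial ↥(GaloisRep.ratLocalizedAt ℓ)) K :=
    (faithfulSMul_iff_algebraMap_injective _ _).mpr fun p q h => polyHom_injective hs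
      (Subtype.val_injective ((hgg p).trans ((congrArg Subtype.val h).trans (hgg q).symm)))
  haveI : IsFractionRing (Polynomial ↥(GaloisRep.ratLocalizedAt ℓ)) K := by
    refine IsFractionRing.of_field _ _ fun z => ?_
    obtain ⟨a, b, hab⟩ := (mem_adjoin_simple_iff ℚ _).mp z.2
    obtain ⟨ca, hca⟩ := IsLocalization.integerNormalization_map_to_map
      (nonZeroDivisors ↥(GaloisRep.ratLocalizedAt ℓ)) a
    obtain ⟨cb, hcb⟩ := IsLocalization.integerNormalization_map_to_map
      (nonZeroDivisors ↥(GaloisRep.ratLocalizedAt ℓ)) b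
    set a' := IsLocalization.integerNormalization (nonZeroDivisors ↥(GaloisRep.ratLocalizedAt ℓ)) a
    set b' := IsLocalization.integerNormalization (nonZeroDivisors ↥(GaloisRep.ratLocalizedAt ℓ)) b
    refine ⟨C (cb : ↥(GaloisRep.ratLocalizedAt ℓ)) * a', C (ca : ↥(GaloisRep.ratLocalizedAt ℓ)) * b',
      ?_⟩
    apply Subtype.val_injective
    rw [IntermediateField.coe_div]
    show _ = (gK _ : ↥(modularFunctionFieldFull N)) / (gK _ : ↥(modularFunctionFieldFull N))
    rw [hgK, hgK, hab, Polynomial.map_mul, Polynomial.map_mul]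
    change _ = aeval s ((Polynomial.map _ (C _)) * a'.map (algebraMap _ ℚ)) /
      aeval s ((Polynomial.map _ (C _)) * b'.map (algebraMap _ ℚ))
    have hsm : ∀ (c : ↥(GaloisRep.ratLocalizedAt ℓ)) (r : ℚ[X]), c • r = C (c : ℚ) * r :=
      fun c r => Polynomial.ext fun i => by
        rw [Polynomial.coeff_smul, Polynomial.coeff_C_mul, Algebra.smul_def]; rfl
    rw [hca, hcb, hsm, hsm, Polynomial.map_C,
      Polynomial.map_C, map_mul, map_mul, map_mul, map_mul, aeval_C, aeval_C]
    have hca0 : ((ca : ↥(GaloisRep.ratLocalizedAt ℓ)) : ℚ) ≠ 0 := fun h =>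
      nonZeroDivisors.coe_ne_zero ca (Subtype.ext h)
    have hcb0 : ((cb : ↥(GaloisRep.ratLocalizedAt ℓ)) : ℚ) ≠ 0 := fun h =>
      nonZeroDivisors.coe_ne_zero cb (Subtype.ext h)
    simp only [Subring.subtype_apply, Polynomial.aeval_C]
    set A := algebraMap ℚ ↥(modularFunctionFieldFull N) (ca : ↥(GaloisRep.ratLocalizedAt ℓ)) with hA
    set B := algebraMap ℚ ↥(modularFunctionFieldFull N) (cb : ↥(GaloisRep.ratLocalizedAt ℓ)) with hB
    have hA0 : A ≠ 0 := (_root_.map_ne_zero _).mpr hca0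
    have hB0 : B ≠ 0 := (_root_.map_ne_zero _).mpr hcb0
    field_simp
  haveI : IsIntegralClosure ↥(chartAlg N ℓ {s}) (Polynomial ↥(GaloisRep.ratLocalizedAt ℓ))
      ↥(modularFunctionFieldFull N) :=
    ⟨Subtype.val_injective, fun {x} => by
      rw [IsIntegral, show algebraMap (Polynomial ↥(GaloisRep.ratLocalizedAt ℓ))
        ↥(modularFunctionFieldFull N) = g from rfl, ← isIntegral_adjoin_iff,
        ← mem_chartAlg_iff N ℓ]
      exact ⟨fun h => ⟨⟨x, h⟩, rfl⟩, by rintro ⟨y, rfl⟩; exact y.2⟩⟩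
  haveI hfin := IsIntegralClosure.finite (Polynomial ↥(GaloisRep.ratLocalizedAt ℓ)) K
    ↥(modularFunctionFieldFull N) ↥(chartAlg N ℓ {s})
  haveI := IsIntegralClosure.isFractionRing_of_finite_extension
    (Polynomial ↥(GaloisRep.ratLocalizedAt ℓ)) K
    ↥(modularFunctionFieldFull N) ↥(chartAlg N ℓ {s})
  refine ⟨hfin, inferInstance, ?_⟩
  exact (isIntegrallyClosed_iff ↥(modularFunctionFieldFull N)).mpr fun {x} hx =>
    (IsIntegralClosure.isIntegral_iff (A := ↥(chartAlg N ℓ {s}))).mp (isIntegral_trans (R := Polynomial ↥(GaloisRep.ratLocalizedAt ℓ)) x hx)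

/-- The chart is module-finite over `ℤ_(ℓ)[s]`. -/
theorem polyHom_finite (hs : IsChartParam N s) : (polyHom N ℓ s).toRingHom.Finite :=
  (polyHom_finite_and_frac hs).1

theorem isFractionRing_chartAlg (hs : IsChartParam N s) :
    IsFractionRing ↥(chartAlg N ℓ {s}) ↥(modularFunctionFieldFull N) :=
  (polyHom_finite_and_frac hs).2.1

theorem isIntegrallyClosed_chart (hs : IsChartParam N s) :
    IsIntegrallyClosed ↥(chartAlg N ℓ {s}) :=
  (polyHom_finite_and_frac hs).2.2

theorem isNoetherianRing_chartAlg (hs : IsChartParam N s) :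
    IsNoetherianRing ↥(chartAlg N ℓ {s}) := by
  have := isPrincipalIdealRing_zloc ℓ
  letI : Algebra (Polynomial ↥(GaloisRep.ratLocalizedAt ℓ)) ↥(chartAlg N ℓ {s}) :=
    (polyHom N ℓ s).toRingHom.toAlgebra
  haveI : Module.Finite (Polynomial ↥(GaloisRep.ratLocalizedAt ℓ)) ↥(chartAlg N ℓ {s}) :=
    polyHom_finite hs
  exact isNoetherian_of_tower (Polynomial ↥(GaloisRep.ratLocalizedAt ℓ))
    (inferInstanceAs (IsNoetherian (Polynomial ↥(GaloisRep.ratLocalizedAt ℓ)) ↥(chartAlg N ℓ {s})))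

end FLTA.Smooth
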