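import Fermat.Agent.Smooth.Defs
import Fermat.Agent.Smooth.ChartRing

/-!
# Reduction of a chart into the function field mod `ℓ`
-/

set_option autoImplicit false

noncomputable section

open ModularCurve ModularCurve.IgusaScheme Polynomial

namespace FLTA.Smooth

variable {N : ℕ} [NeZero N] {ℓ : ℕ} [Fact ℓ.Prime] {s : ↥(modularFunctionFieldFull N)}

/-- `q`-expansions of chart elements are `ℓ`-integral. -/
theorem exists_qLift (hs : IsChartParam N s) (y : ↥(chartAlg N ℓ {s})) :
    ∃ z : LaurentSeries ↥(GaloisRep.ratLocalizedAt ℓ),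
      coeffMap (GaloisRep.ratLocalizedAt ℓ).subtype z = ((y : ↥(modularFunctionFieldFull N)) :
        LaurentSeries ℚ) := by
  refine exists_lift_of_mem_chartAlg ℓ N (fun x hx => ?_) _ y.2
  rw [Set.mem_singleton_iff] at hx
  subst hx
  rcases hs with rfl | rfl
  · exact exists_lift_jFull ℓ N
  · exact exists_lift_inv_jFull ℓ N

/-- The integral `q`-expansion of a chart element. -/
def qLift (hs : IsChartParam N s) :
    ↥(chartAlg N ℓ {s}) →+* LaurentSeries ↥(GaloisRep.ratLocalizedAt ℓ) where
  toFun y := (exists_qLift hs y).choose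
  map_one' := seriesIncl_injective ℓ ((exists_qLift hs 1).choose_spec.trans (map_one _).symm)
  map_mul' a b := seriesIncl_injective ℓ ((exists_qLift hs (a * b)).choose_spec.trans (by
    rw [map_mul]
    exact congrArg₂ (· * ·) (exists_qLift hs a).choose_spec.symm
      (exists_qLift hs b).choose_spec.symm))
  map_zero' := seriesIncl_injective ℓ ((exists_qLift hs 0).choose_spec.trans (map_zero _).symm)
  map_add' a b := seriesIncl_injective ℓ ((exists_qLift hs (a + b)).choose_spec.trans (by
    rw [map_add]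
    exact congrArg₂ (· + ·) (exists_qLift hs a).choose_spec.symm
      (exists_qLift hs b).choose_spec.symm))

theorem coeffMap_qLift (hs : IsChartParam N s) (y : ↥(chartAlg N ℓ {s})) :
    coeffMap (GaloisRep.ratLocalizedAt ℓ).subtype (qLift hs y) =
      ((y : ↥(modularFunctionFieldFull N)) : LaurentSeries ℚ) :=
  (exists_qLift hs y).choose_spec

variable {k : Type} [Field k] (π : ↥(GaloisRep.ratLocalizedAt ℓ) →+* k)

/-- The reduced `q`-expansion of a chart element. -/
def redSeries (hs : IsChartParam N s) : ↥(chartAlg N ℓ {s}) →+* LaurentSeries k :=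
  (coeffMap π).comp (qLift hs)

theorem reductions_eq_range (hs : IsChartParam N s) :
    reductions N ℓ π {s} = Set.range (redSeries π hs) := by
  ext v
  constructor
  · rintro ⟨y, hy, z, hz, rfl⟩
    exact ⟨⟨y, hy⟩, congrArg (coeffMap π)
      (seriesIncl_injective ℓ ((coeffMap_qLift hs ⟨y, hy⟩).trans hz.symm))⟩
  · rintro ⟨y, rfl⟩
    exact ⟨y, y.2, qLift hs y, coeffMap_qLift hs y, rfl⟩

theorem qLift_eq_seriesTo (hs : IsChartParam N s) (y : ↥(chartAlg N ℓ {s})) (z : LaurentSeries ℤ)
    (hz : ((y : ↥(modularFunctionFieldFull N)) : LaurentSeries ℚ) = seriesTo ℚ z) :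
    qLift hs y = seriesTo ↥(GaloisRep.ratLocalizedAt ℓ) z :=
  seriesIncl_injective ℓ (by rw [seriesIncl, coeffMap_qLift, coeffMap_seriesTo, hz])

theorem redSeries_eq_seriesTo (hs : IsChartParam N s) (y : ↥(chartAlg N ℓ {s}))
    (z : LaurentSeries ℤ)
    (hz : ((y : ↥(modularFunctionFieldFull N)) : LaurentSeries ℚ) = seriesTo ℚ z) :
    redSeries π hs y = seriesTo k z := by
  rw [redSeries, RingHom.comp_apply, qLift_eq_seriesTo hs y z hz, coeffMap_seriesTo]

theorem redSeries_paramElem (hs : IsChartParam N s) (e : ChartEquation N s) :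
    redSeries π hs (paramElem N ℓ s) = seriesTo k e.σ :=
  redSeries_eq_seriesTo π hs _ _ e.coe_s

theorem redSeries_algebraMap (hs : IsChartParam N s) (c : ↥(GaloisRep.ratLocalizedAt ℓ)) :
    redSeries π hs (algebraMap _ _ c) = algebraMap k (LaurentSeries k) (π c) := by
  have h : qLift hs (algebraMap _ _ c) = HahnSeries.single 0 c := seriesIncl_injective ℓ (by
    rw [seriesIncl, coeffMap_qLift]
    refine Eq.trans ?_ (seriesIncl_single_zero ℓ c).symm
    exact RingHom.congr_fun (Subsingleton.elim
      ((algebraMap ↥(modularFunctionFieldFull N) (LaurentSeries ℚ)).comp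
        (algebraMap ℚ ↥(modularFunctionFieldFull N))) (algebraMap ℚ (LaurentSeries ℚ))) (c : ℚ))
  rw [redSeries, RingHom.comp_apply, h, coeffMap_single, algebraMap_laurentSeries_eq_single]

theorem redSeries_polyHom (hs : IsChartParam N s)
    (p : Polynomial ↥(GaloisRep.ratLocalizedAt ℓ)) :
    redSeries π hs (polyHom N ℓ s p) =
      Polynomial.aeval (redSeries π hs (paramElem N ℓ s)) (p.map π) := by
  rw [polyHom, Polynomial.aeval_def, Polynomial.hom_eval₂, Polynomial.aeval_def,
    Polynomial.eval₂_map]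
  exact congrArg (fun f => Polynomial.eval₂ f (redSeries π hs (paramElem N ℓ s)) p)
    (RingHom.ext fun c => redSeries_algebraMap π hs c)

theorem eval₂_polyHom_θ (e : ChartEquation N s) :
    (e.Q.map (Polynomial.mapRingHom (Int.castRingHom ↥(GaloisRep.ratLocalizedAt ℓ)))).eval₂
      ((algebraMap ↥(chartAlg N ℓ {s}) ↥(modularFunctionFieldFull N)).comp
        (polyHom N ℓ s).toRingHom) e.θ = 0 := by
  apply (algebraMap ↥(modularFunctionFieldFull N) (LaurentSeries ℚ)).injective
  rw [Polynomial.eval₂_map, Polynomial.hom_eval₂, map_zero]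
  have h := congrArg (seriesTo ℚ) e.eval_eq_zero
  rw [Polynomial.hom_eval₂, map_zero, ← e.coe_θ] at h
  refine Eq.trans ?_ h
  refine congrArg (fun f => Polynomial.eval₂ f (e.θ : LaurentSeries ℚ) e.Q)
    (Polynomial.ringHom_ext' (Subsingleton.elim _ _) ?_)
  simp only [RingHom.comp_apply, Polynomial.coe_mapRingHom, Polynomial.map_X, AlgHom.toRingHom_eq_coe,
    RingHom.coe_coe, Polynomial.coe_eval₂RingHom, Polynomial.eval₂_X, polyHom, Polynomial.aeval_X]
  exact e.coe_s

/-- The generator as a chart element. -/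
def thetaElem (e : ChartEquation N s) : ↥(chartAlg N ℓ {s}) :=
  ⟨e.θ, (mem_chartAlg_iff N ℓ).mpr ((isIntegral_adjoin_iff e.θ).mpr
    ⟨_, e.monic.map _, eval₂_polyHom_θ e⟩)⟩

theorem redSeries_thetaElem (hs : IsChartParam N s) (e : ChartEquation N s) :
    redSeries π hs (thetaElem e) = seriesTo k e.τ :=
  redSeries_eq_seriesTo π hs _ _ e.coe_θ

/-- Finitely many rational polynomials have a common multiplier into `ℤ_(ℓ)[X]`. -/
theorem exists_common_multiplier {ι : Type*} (t : Finset ι) (q : ι → ℚ[X]) :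
    ∃ c : ↥(GaloisRep.ratLocalizedAt ℓ), c ≠ 0 ∧ ∀ i ∈ t,
      ∃ p : Polynomial ↥(GaloisRep.ratLocalizedAt ℓ),
        p.map (GaloisRep.ratLocalizedAt ℓ).subtype = C (c : ℚ) * q i := by
  classical
  have := isFractionRing_zloc ℓ
  induction t using Finset.induction_on with
  | empty => exact ⟨1, one_ne_zero, fun i hi => absurd hi (Finset.notMem_empty i)⟩
  | insert a t ha ih =>
    obtain ⟨c, hc0, hc⟩ := ih
    obtain ⟨b, hb⟩ := IsLocalization.integerNormalization_map_to_map
      (nonZeroDivisors ↥(GaloisRep.ratLocalizedAt ℓ)) (q a)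
    set pa := IsLocalization.integerNormalization (nonZeroDivisors ↥(GaloisRep.ratLocalizedAt ℓ)) (q a)
    refine ⟨c * b, mul_ne_zero hc0 (nonZeroDivisors.coe_ne_zero b), fun i hi => ?_⟩
    rcases Finset.mem_insert.mp hi with rfl | hi
    · refine ⟨C c * pa, ?_⟩
      rw [Polynomial.map_mul, Polynomial.map_C, Subring.subtype_apply, Subring.coe_mul, map_mul,
        mul_assoc]
      refine congrArg (C (c : ℚ) * ·) (hb.trans (Polynomial.ext fun n => ?_))
      rw [Polynomial.coeff_smul, Polynomial.coeff_C_mul, Submonoid.smul_def, Algebra.smul_def]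
      rfl
    · obtain ⟨p, hp⟩ := hc i hi
      refine ⟨C (b : ↥(GaloisRep.ratLocalizedAt ℓ)) * p, ?_⟩
      rw [Polynomial.map_mul, Polynomial.map_C, hp, Subring.subtype_apply, Subring.coe_mul,
        map_mul]
      ring

set_option maxHeartbeats 800000 in
open IntermediateField in
/-- Some relation `a y = g(θ)`. -/
theorem exists_relation (hs : IsChartParam N s) (e : ChartEquation N s)
    (y : ↥(chartAlg N ℓ {s})) :
    ∃ (a : Polynomial ↥(GaloisRep.ratLocalizedAt ℓ))
      (g : Fin (dedekindPsi N) → Polynomial ↥(GaloisRep.ratLocalizedAt ℓ)),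
      a ≠ 0 ∧ polyHom N ℓ s a * y =
        ∑ i, polyHom N ℓ s (g i) * thetaElem e ^ (i : ℕ) := by
  classical
  have := finiteDimensional_adjoin_param hs
  let K := IntermediateField.adjoin ℚ {s}
  let θ := e.θ
  have hev : ∀ p : Polynomial ℤ, ((evalZ (AdjoinSimple.gen ℚ s) p : K) :
      ↥(modularFunctionFieldFull N)) = evalZ s p := fun p => by
    exact RingHom.congr_fun (ChartEquation.evalZ_map (algebraMap K ↥(modularFunctionFieldFull N))
      (AdjoinSimple.gen ℚ s)) p
  let QK : K[X] := e.Q.map (evalZ (AdjoinSimple.gen ℚ s))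
  have hQm : QK.Monic := e.monic.map _
  have hQdeg : QK.natDegree = dedekindPsi N := by
    rw [e.monic.natDegree_map, e.natDegree_eq]
  have hQ0 : Polynomial.aeval θ QK = 0 := by
    apply (algebraMap ↥(modularFunctionFieldFull N) (LaurentSeries ℚ)).injective
    rw [Polynomial.aeval_def, Polynomial.eval₂_map, Polynomial.hom_eval₂, map_zero]
    have h := congrArg (seriesTo ℚ) e.eval_eq_zero
    rw [Polynomial.hom_eval₂, map_zero, ← e.coe_θ] at h
    refine Eq.trans ?_ h
    refine congrArg (fun f => Polynomial.eval₂ f (e.θ : LaurentSeries ℚ) e.Q)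
      (Polynomial.ringHom_ext' (Subsingleton.elim _ _) ?_)
    simp only [RingHom.comp_apply, Polynomial.coe_eval₂RingHom, Polynomial.eval₂_X]
    exact e.coe_s
  have htop : Algebra.adjoin K {θ} = ⊤ := by
    have h1 : IntermediateField.adjoin K {θ} = ⊤ := by
      refine eq_top_iff.mpr fun x _ => ?_
      have hx : x ∈ IntermediateField.adjoin ℚ {s, θ} := by
        rw [adjoin_param_θ e]; trivial
      have hle : IntermediateField.adjoin ℚ {s, θ} ≤
          (IntermediateField.adjoin K {θ}).restrictScalars ℚ := by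
        refine IntermediateField.adjoin_le_iff.mpr ?_
        rintro z (rfl | rfl)
        · exact (IntermediateField.adjoin K {θ}).algebraMap_mem (AdjoinSimple.gen ℚ z)
        · exact IntermediateField.mem_adjoin_simple_self K θ
      exact hle hx
    rw [← IntermediateField.adjoin_simple_toSubalgebra_of_isAlgebraic
      (IsIntegral.isAlgebraic ⟨QK, hQm, hQ0⟩), h1, IntermediateField.top_toSubalgebra]
  have hy : (y : ↥(modularFunctionFieldFull N)) ∈ Algebra.adjoin K {θ} := by rw [htop]; trivial
  rw [Algebra.adjoin_singleton_eq_range_aeval] at hy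
  obtain ⟨p, hp⟩ := hy
  have hyp : (y : ↥(modularFunctionFieldFull N)) = Polynomial.aeval θ (p %ₘ QK) :=
    hp.symm.trans (Polynomial.aeval_modByMonic_eq_self_of_root hQ0).symm
  have hrdeg : (p %ₘ QK).natDegree < dedekindPsi N :=
    hQdeg ▸ Polynomial.natDegree_modByMonic_lt p hQm (fun h => by
      have h0 := congrArg Polynomial.natDegree h
      rw [hQdeg, Polynomial.natDegree_one] at h0
      have hpos : 1 ≤ dedekindPsi N := by
        have h1 : (1 : ℕ) ∈ N.divisors.filter Squarefree :=
          Finset.mem_filter.mpr ⟨Nat.one_mem_divisors.mpr (NeZero.ne N), squarefree_one⟩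
        exact le_trans (by simp [NeZero.pos N, Nat.one_le_iff_ne_zero, NeZero.ne N])
          (Finset.single_le_sum (f := fun d => N / d) (fun _ _ => Nat.zero_le _) h1)
      omega)
  choose A B hAB using fun i : Fin (dedekindPsi N) =>
    (mem_adjoin_simple_iff ℚ _).mp ((p %ₘ QK).coeff i).2
  let B' : Fin (dedekindPsi N) → ℚ[X] := fun i => if Polynomial.aeval s (B i) = 0 then 1 else B i
  let A' : Fin (dedekindPsi N) → ℚ[X] := fun i => if Polynomial.aeval s (B i) = 0 then 0 else A i
  have hB' : ∀ i : Fin (dedekindPsi N), Polynomial.aeval s (B' i) ≠ 0 := fun i => by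
    simp only [B']; split_ifs with h <;> simp [h]
  have hAB' : ∀ i : Fin (dedekindPsi N), ((p %ₘ QK).coeff i : ↥(modularFunctionFieldFull N)) * Polynomial.aeval s (B' i) =
      Polynomial.aeval s (A' i) := fun i => by
    simp only [A', B', hAB i]; split_ifs with h
    · simp [h]
    · exact div_mul_cancel₀ _ h
  let D : ℚ[X] := ∏ i, B' i
  let G : Fin (dedekindPsi N) → ℚ[X] := fun i => A' i * ∏ j ∈ Finset.univ.erase i, B' j
  obtain ⟨c, hc0, hc⟩ := exists_common_multiplier (ℓ := ℓ) (Finset.univ : Finset (Option (Fin (dedekindPsi N))))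
    (fun o => o.elim D G)
  choose P hP using fun o => hc o (Finset.mem_univ o)
  have hD : Polynomial.aeval s D ≠ 0 := by
    rw [map_prod]; exact Finset.prod_ne_zero_iff.mpr fun i _ => hB' i
  have hcoe : ∀ o, ((polyHom N ℓ s (P o) : ↥(chartAlg N ℓ {s})) : ↥(modularFunctionFieldFull N)) =
      Polynomial.aeval s (C (c : ℚ)) * Polynomial.aeval s (o.elim D G) := fun o => by
    rw [coe_polyHom, ← Polynomial.aeval_map_algebraMap ℚ, ← map_mul, ← hP o]
    rfl
  refine ⟨P none, fun i => P (some i), fun h => ?_, ?_⟩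
  · have := hcoe none
    rw [h, map_zero] at this
    rcases mul_eq_zero.mp this.symm with h1 | h1
    · rw [Polynomial.aeval_C, _root_.map_eq_zero] at h1
      exact hc0 (Subtype.ext h1)
    · exact hD h1
  · apply Subtype.val_injective
    show ((polyHom N ℓ s (P none) : ↥(chartAlg N ℓ {s})) : ↥(modularFunctionFieldFull N)) *
        (y : ↥(modularFunctionFieldFull N)) = _
    refine Eq.trans ?_ (map_sum (chartAlg N ℓ {s}).val _ _).symm
    rw [hcoe, hyp, Polynomial.aeval_eq_sum_range' hrdeg, ← Fin.sum_univ_eq_sum_range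
      (fun i => (p %ₘ QK).coeff i • θ ^ i), Finset.mul_sum]
    refine Finset.sum_congr rfl fun i _ => ?_
    show _ = ((polyHom N ℓ s (P (some i)) : ↥(chartAlg N ℓ {s})) :
      ↥(modularFunctionFieldFull N)) * θ ^ (i : ℕ)
    rw [hcoe, Algebra.smul_def]
    show Polynomial.aeval s (C (c : ℚ)) * Polynomial.aeval s D *
      (((p %ₘ QK).coeff i : ↥(modularFunctionFieldFull N)) * θ ^ (i : ℕ)) =
      Polynomial.aeval s (C (c : ℚ)) * Polynomial.aeval s (G i) * θ ^ (i : ℕ)
    simp only [D, G]
    rw [← Finset.mul_prod_erase _ _ (Finset.mem_univ i), map_mul, map_mul, ← hAB' i]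
    ring

theorem exists_primitive_relation [CharP k ℓ] (hs : IsChartParam N s) (e : ChartEquation N s)
    (y : ↥(chartAlg N ℓ {s})) :
    ∃ (a : Polynomial ↥(GaloisRep.ratLocalizedAt ℓ))
      (g : Fin (dedekindPsi N) → Polynomial ↥(GaloisRep.ratLocalizedAt ℓ)),
      (a.map π ≠ 0 ∨ ∃ i, (g i).map π ≠ 0) ∧ polyHom N ℓ s a * y =
        ∑ i, polyHom N ℓ s (g i) * thetaElem e ^ (i : ℕ) := by
  have := isPrincipalIdealRing_zloc ℓ
  obtain ⟨a, g, ha, hag⟩ := exists_relation hs e y
  revert g
  induction a using WellFounded.induction (wellFounded_dvdNotUnit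
    (α := Polynomial ↥(GaloisRep.ratLocalizedAt ℓ))) with
  | h a ih =>
    intro g hag
    by_cases hgood : a.map π ≠ 0 ∨ ∃ i, (g i).map π ≠ 0
    · exact ⟨a, g, hgood, hag⟩
    push Not at hgood
    have hdvd : ∀ p : Polynomial ↥(GaloisRep.ratLocalizedAt ℓ), p.map π = 0 →
        C (ℓ : ↥(GaloisRep.ratLocalizedAt ℓ)) ∣ p := fun p hp =>
      (Polynomial.C_dvd_iff_dvd_coeff _ _).mpr fun i =>
        (map_zloc_eq_zero_iff ℓ π _).mp (by
          have := congrArg (fun q => Polynomial.coeff q i) hp
          simpa using this)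
    obtain ⟨a', rfl⟩ := hdvd a hgood.1
    choose g' hg' using fun i => hdvd (g i) (hgood.2 i)
    have ha' : a' ≠ 0 := right_ne_zero_of_mul ha
    refine ih a' ⟨ha', C (ℓ : ↥(GaloisRep.ratLocalizedAt ℓ)), ?_, mul_comm _ _⟩ ha' g' ?_
    · rw [Polynomial.isUnit_C]; exact not_dvd_one_zloc ℓ
    · have hinj := polyHom_injective (N := N) (ℓ := ℓ) hs
      have h0 : polyHom N ℓ s (C (ℓ : ↥(GaloisRep.ratLocalizedAt ℓ))) ≠ 0 := fun h => by
        have := hinj (h.trans (map_zero _).symm)
        exact left_ne_zero_of_mul ha this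
      refine mul_left_cancel₀ h0 ?_
      rw [← mul_assoc, ← map_mul, hag, Finset.mul_sum]
      exact Finset.sum_congr rfl fun i _ => by rw [hg' i, map_mul, mul_assoc]

variable [CharP k ℓ]

omit [NeZero N] [Fact ℓ.Prime] in
theorem natCast_ne_zero_of_not_dvd (hN : ¬ ℓ ∣ N) : (N : k) ≠ 0 := fun h =>
  hN ((CharP.cast_eq_zero_iff k ℓ N).mp h)

theorem redSeries_mem (hN : ¬ ℓ ∣ N) (hs : IsChartParam N s) (y : ↥(chartAlg N ℓ {s})) :
    redSeries π hs y ∈ modularFunctionFieldFullC k N := by
  obtain ⟨e⟩ := nonempty_chartEquation hs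
  have hNk : (N : k) ≠ 0 := natCast_ne_zero_of_not_dvd hN
  obtain ⟨a, g, hgood, hag⟩ := exists_primitive_relation π hs e y
  have h := congrArg (redSeries π hs) hag
  simp only [map_mul, map_sum, map_pow, redSeries_polyHom, redSeries_paramElem π hs e,
    redSeries_thetaElem π hs e] at h
  have hmem : ∀ p : Polynomial k, Polynomial.aeval (seriesTo k e.σ) p ∈
      modularFunctionFieldFullC k N := fun p => by
    have hx : seriesTo k e.σ ∈ (modularFunctionFieldFullC k N).toSubalgebra := e.σ_mem k
    exact Algebra.adjoin_le (Set.singleton_subset_iff.mpr hx)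
      (Algebra.adjoin_singleton_eq_range_aeval k (seriesTo k e.σ) ▸ ⟨p, rfl⟩ :
        Polynomial.aeval (seriesTo k e.σ) p ∈ Algebra.adjoin k {seriesTo k e.σ})
  have ha : a.map π ≠ 0 := by
    intro ha0
    rw [ha0, map_zero, zero_mul] at h
    obtain ⟨i, hi⟩ := hgood.resolve_left (not_not_intro ha0)
    have hlin := linearIndependent_pow (K := e.tField k) (e.θElem k hNk)
    have hdeg : (minpoly (e.tField k) (e.θElem k hNk)).natDegree = dedekindPsi N := by
      rw [e.minpoly_θElem k hNk, e.eqOver_natDegree k]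
    have hlin' := hlin.comp (Fin.cast hdeg.symm) (Fin.cast_injective _)
    let c : Fin (dedekindPsi N) → e.tField k := fun i =>
      Polynomial.aeval (IntermediateField.AdjoinSimple.gen k (e.tElem k)) ((g i).map π)
    have hc : ∀ i, (((c i : ↥(modularFunctionFieldFullC k N))) : LaurentSeries k) =
        Polynomial.aeval (seriesTo k e.σ) ((g i).map π) := fun i =>
      (Polynomial.aeval_algHom_apply
        ((modularFunctionFieldFullC k N).val.comp (e.tField k).val) _ _).symm
    have h0 : ∑ i, c i • (e.θElem k hNk) ^ (i : ℕ) = 0 := by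
      apply Subtype.val_injective
      refine Eq.trans ?_ h.symm
      refine (map_sum (modularFunctionFieldFullC k N).val _ _).trans ?_
      exact Finset.sum_congr rfl fun i _ => by
        rw [Algebra.smul_def, map_mul, map_pow]
        exact congrArg₂ (· * ·) (hc i) rfl
    have hci := Fintype.linearIndependent_iff.mp hlin' c h0 i
    have := transcendental_iff.mp (e.transcendental_σ k) ((g i).map π) (by rw [← hc i, hci]; rfl)
    exact hi this
  have hne : Polynomial.aeval (seriesTo k e.σ) (a.map π) ≠ 0 := fun h0 =>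
    ha (transcendental_iff.mp (e.transcendental_σ k) _ h0)
  have hy : redSeries π hs y = _ / _ := eq_div_of_mul_eq hne ((mul_comm _ _).trans h)
  rw [hy]
  exact div_mem (sum_mem fun i _ => mul_mem (hmem _) (pow_mem (e.τ_mem k hNk) _)) (hmem _)

/-- Reduction of a chart into the function field in characteristic `ℓ`. -/
def redHom (hN : ¬ ℓ ∣ N) (hs : IsChartParam N s) :
    ↥(chartAlg N ℓ {s}) →+* ↥(modularFunctionFieldFullC k N) :=
  (redSeries π hs).codRestrict _ (redSeries_mem π hN hs)

/-- The reduced parameter. -/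
def redParam (hN : ¬ ℓ ∣ N) (hs : IsChartParam N s) : ↥(modularFunctionFieldFullC k N) :=
  redHom π hN hs (paramElem N ℓ s)

theorem redParam_eq_tElem (hN : ¬ ℓ ∣ N) (hs : IsChartParam N s) (e : ChartEquation N s) :
    redParam π hN hs = e.tElem k :=
  Subtype.ext (redSeries_paramElem π hs e)

theorem coe_redParam_fin (hN : ¬ ℓ ∣ N) :
    (redParam π hN (isChartParam_jFull N) : LaurentSeries k) = jqModC k :=
  (redSeries_eq_seriesTo π _ (paramElem N ℓ (jFull N)) (jqModC ℤ)
    (by rw [seriesTo_jqModC, jqModC_rat]; rfl)).trans (seriesTo_jqModC k)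

theorem coe_redParam_inf (hN : ¬ ℓ ∣ N) :
    (redParam π hN (isChartParam_inv_jFull N) : LaurentSeries k) = (jqModC k)⁻¹ :=
  (redSeries_eq_seriesTo π _ (paramElem N ℓ (jFull N)⁻¹) invJSeries
    (by rw [seriesTo_invJSeries, jqModC_rat]; exact IntermediateField.coe_inv _ _)).trans
      (seriesTo_invJSeries k)

theorem redHom_polyHom (hN : ¬ ℓ ∣ N) (hs : IsChartParam N s)
    (p : Polynomial ↥(GaloisRep.ratLocalizedAt ℓ)) :
    redHom π hN hs (polyHom N ℓ s p) = Polynomial.aeval (redParam π hN hs) (p.map π) :=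
  Subtype.ext ((redSeries_polyHom π hs p).trans
    (Polynomial.aeval_algHom_apply (modularFunctionFieldFullC k N).val (redParam π hN hs) _))

theorem redParam_transcendental (hN : ¬ ℓ ∣ N) (hs : IsChartParam N s) :
    Transcendental k (redParam π hN hs) := by
  obtain ⟨e⟩ := nonempty_chartEquation hs
  rw [redParam_eq_tElem π hN hs e]
  exact e.transcendental_tElem k

/-- The span of the reduction of a chart, as a subalgebra of the function field mod `ℓ`. -/
def redAlg (hN : ¬ ℓ ∣ N) (hs : IsChartParam N s) :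
    Subalgebra k ↥(modularFunctionFieldFullC k N) :=
  Algebra.adjoin k (Set.range (redHom π hN hs))

theorem toSubmodule_redAlg (hN : ¬ ℓ ∣ N) (hs : IsChartParam N s) :
    Subalgebra.toSubmodule (redAlg π hN hs) = Submodule.span k (Set.range (redHom π hN hs)) := by
  rw [redAlg, Algebra.adjoin_eq_span]
  exact congrArg (Submodule.span k)
    ((congrArg SetLike.coe (MonoidHom.mrange (redHom π hN hs).toMonoidHom).closure_eq).trans
      (MonoidHom.coe_mrange _))

theorem smul_laurentSeries_eq_algebraMap_mul (c : k) (x : LaurentSeries k) :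
    c • x = algebraMap k (LaurentSeries k) c * x := by
  rw [algebraMap_laurentSeries_eq_single, HahnSeries.single_zero_mul_eq_smul]

/-- The inclusion of the function field, linear for the coefficientwise structure. -/
def fullValLinear : ↥(modularFunctionFieldFullC k N) →ₗ[k] LaurentSeries k where
  toFun x := x
  map_add' _ _ := rfl
  map_smul' c x := by
    rw [RingHom.id_apply, smul_laurentSeries_eq_algebraMap_mul, Algebra.smul_def]
    rfl

theorem coe_mem_span_reductions_iff (hN : ¬ ℓ ∣ N) (hs : IsChartParam N s)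
    (x : ↥(modularFunctionFieldFullC k N)) :
    (x : LaurentSeries k) ∈ Submodule.span k (reductions N ℓ π {s}) ↔ x ∈ redAlg π hN hs := by
  rw [← Subalgebra.mem_toSubmodule, toSubmodule_redAlg, reductions_eq_range π hs]
  have hr : Set.range (redSeries π hs) =
      fullValLinear '' Set.range (redHom π hN hs) := by
    rw [← Set.range_comp]; rfl
  rw [hr]
  refine ((SetLike.ext_iff.mp (Submodule.map_span fullValLinear
    (Set.range (redHom π hN hs))).symm (x : LaurentSeries k))).trans
    ⟨?_, fun h => ⟨x, h, rfl⟩⟩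
  rintro ⟨z, hz, hzx⟩
  exact (Subtype.ext hzx : z = x) ▸ hz

/-- The polynomial ring `ℤ_(ℓ)[X]` mapped onto the mod `ℓ` base field `k(t)`. -/
def redPolyHom (hN : ¬ ℓ ∣ N) (hs : IsChartParam N s) :
    Polynomial ↥(GaloisRep.ratLocalizedAt ℓ) →+* IntermediateField.adjoin k {redParam π hN hs} :=
  ((Polynomial.aeval (IntermediateField.AdjoinSimple.gen k (redParam π hN hs))).toRingHom).comp
    (Polynomial.mapRingHom π)

end FLTA.Smooth
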