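import Fermat.Agent.Smooth.ModularEquationField
import Fermat.Agent.Curves.BasicModular
import Mathlib.FieldTheory.Minpoly.IsIntegrallyClosed

/-!
# Existence of chart equations and the level-`N` field in characteristic `0`
-/

set_option autoImplicit false

noncomputable section

open ModularCurve ModularCurve.IgusaScheme Polynomial IntermediateField

namespace FLTA.Smooth

variable (N : ℕ) [NeZero N]

/-- `ℤ[X] → ℚ(j)` is the inclusion of a ring into its fraction field. -/
theorem isFractionRing_evalZ :
    letI : Algebra (Polynomial ℤ) (Igusa.jField ℚ) :=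
      (evalZ (AdjoinSimple.gen ℚ (jqModC ℚ))).toAlgebra
    IsFractionRing (Polynomial ℤ) (Igusa.jField ℚ) := by
  letI : Algebra (Polynomial ℤ) (Igusa.jField ℚ) :=
    (evalZ (AdjoinSimple.gen ℚ (jqModC ℚ))).toAlgebra
  have hval : ∀ p : Polynomial ℤ,
      (((algebraMap (Polynomial ℤ) (Igusa.jField ℚ) p) : Igusa.jField ℚ) : LaurentSeries ℚ) =
        Polynomial.aeval (jqModC ℚ) (p.map (Int.castRingHom ℚ)) := fun p => by
    rw [Polynomial.aeval_def, Polynomial.eval₂_map]
    exact (Polynomial.hom_eval₂ p _ (algebraMap (Igusa.jField ℚ) (LaurentSeries ℚ)) _).trans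
      (congrArg (fun f => Polynomial.eval₂ f (jqModC ℚ) p) (Subsingleton.elim _ _))
  have : FaithfulSMul (Polynomial ℤ) (Igusa.jField ℚ) :=
    (faithfulSMul_iff_algebraMap_injective _ _).mpr ((injective_iff_map_eq_zero _).mpr fun p hp => by
      have h := hval p
      rw [hp] at h
      have h2 := transcendental_iff.mp (transcendental_jqModC_self ℚ) _ h.symm
      exact Polynomial.map_injective _ Int.cast_injective (h2.trans (Polynomial.map_zero _).symm))
  refine IsFractionRing.of_field _ _ fun z => ?_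
  obtain ⟨a, b, hab⟩ := (mem_adjoin_simple_iff ℚ _).mp z.2
  obtain ⟨ca, hca⟩ := IsLocalization.integerNormalization_map_to_map (nonZeroDivisors ℤ) a
  obtain ⟨cb, hcb⟩ := IsLocalization.integerNormalization_map_to_map (nonZeroDivisors ℤ) b
  refine ⟨Polynomial.C (cb : ℤ) * IsLocalization.integerNormalization (nonZeroDivisors ℤ) a,
    Polynomial.C (ca : ℤ) * IsLocalization.integerNormalization (nonZeroDivisors ℤ) b, ?_⟩
  apply Subtype.val_injective
  rw [IntermediateField.coe_div, hval, hval, hab, Polynomial.map_mul, Polynomial.map_mul,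
    ← algebraMap_int_eq, hca, hcb]
  have hsm : ∀ (c : ℤ) (r : ℚ[X]), c • r = Polynomial.C (c : ℚ) * r := fun c r => by
    rw [zsmul_eq_mul, map_intCast]
  rw [hsm, hsm, Polynomial.map_C, Polynomial.map_C,
    map_mul, map_mul, map_mul, map_mul, aeval_C, aeval_C, aeval_C, aeval_C]
  simp only [algebraMap_int_eq, eq_intCast]
  have hca0 : algebraMap ℚ (LaurentSeries ℚ) ((ca : ℤ) : ℚ) ≠ 0 :=
    (_root_.map_ne_zero _).mpr (Int.cast_ne_zero.mpr (nonZeroDivisors.coe_ne_zero ca))
  have hcb0 : algebraMap ℚ (LaurentSeries ℚ) ((cb : ℤ) : ℚ) ≠ 0 :=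
    (_root_.map_ne_zero _).mpr (Int.cast_ne_zero.mpr (nonZeroDivisors.coe_ne_zero cb))
  generalize algebraMap ℚ (LaurentSeries ℚ) ((ca : ℤ) : ℚ) = A at hca0 ⊢
  generalize algebraMap ℚ (LaurentSeries ℚ) ((cb : ℤ) : ℚ) = B at hcb0 ⊢
  field_simp

theorem natDegree_minpoly_jqN (K : Type) [Field K] (hN : (N : K) ≠ 0)
    (hint : IsIntegral (Igusa.jField K) (jqNModC K N)) :
    (minpoly (Igusa.jField K) (jqNModC K N)).natDegree = dedekindPsi N := by
  rw [← IntermediateField.adjoin.finrank hint, ← Igusa.finrank_fullOver K N hN]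
  have h : IntermediateField.adjoin (Igusa.jField K) {jqNModC K N} = Igusa.fullOver K N := by
    apply IntermediateField.restrictScalars_injective K
    have h2 : (Igusa.fullOver K N).restrictScalars K = modularFunctionFieldFullC K N := by
      ext x
      exact Igusa.mem_fullOver_iff K N
    rw [IntermediateField.restrictScalars_adjoin_eq_sup, h2, ← adjoin_jqModC_pair K N hN,
      ← IntermediateField.adjoin_union, ← Set.insert_eq]
  rw [h]

theorem nonempty_modularData : Nonempty (ModularPolynomialData N) := by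
  let R := Polynomial ℤ
  let K := Igusa.jField ℚ
  letI : Algebra R K := (evalZ (AdjoinSimple.gen ℚ (jqModC ℚ))).toAlgebra
  letI : Algebra R (LaurentSeries ℚ) := evalAtJ.toAlgebra
  have : IsFractionRing R K := isFractionRing_evalZ
  have : IsScalarTower R K (LaurentSeries ℚ) :=
    IsScalarTower.of_algebraMap_eq' (Polynomial.ringHom_ext' (Subsingleton.elim _ _) (by
      show evalAtJ Polynomial.X = ((evalZ (AdjoinSimple.gen ℚ (jqModC ℚ)) Polynomial.X : K) :
        LaurentSeries ℚ)
      rw [evalAtJ_X, Polynomial.coe_eval₂RingHom, Polynomial.eval₂_X]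
      exact jqModC_rat.symm))
  have hint : IsIntegral R (jqN N) := by
    obtain ⟨P, hP, h0⟩ := FLTA.Curves.isIntegralElem_qExpand_jqModC N
    refine ⟨P, hP, ?_⟩
    have h := congrArg (seriesTo ℚ) h0
    rw [Polynomial.hom_eval₂, map_zero] at h
    refine Eq.trans ?_ h
    refine congrArg₂ (fun f x => Polynomial.eval₂ f x P)
      (Polynomial.ringHom_ext' (Subsingleton.elim _ _) ?_) ?_
    · show evalAtJ Polynomial.X = seriesTo ℚ (Polynomial.aeval (jqModC ℤ) Polynomial.X)
      simp [seriesTo_jqModC, jqModC_rat]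
    · exact (seriesTo_jqNModC ℚ N).symm.trans rfl
  have hN : (N : ℚ) ≠ 0 := Nat.cast_ne_zero.mpr (NeZero.ne N)
  have hdeg : (minpoly K (jqN N)).natDegree = dedekindPsi N :=
    natDegree_minpoly_jqN N ℚ hN hint.tower_top
  refine ⟨⟨minpoly R (jqN N), minpoly.monic hint, ?_, minpoly.aeval R (jqN N)⟩⟩
  rw [← hdeg, minpoly.isIntegrallyClosed_eq_field_fractions' K hint,
    (minpoly.monic hint).natDegree_map]

variable {N}

theorem nonempty_chartEquation {s : ↥(modularFunctionFieldFull N)} (hs : IsChartParam N s) :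
    Nonempty (ChartEquation N s) := by
  obtain ⟨d⟩ := nonempty_modularData N
  rcases hs with rfl | rfl
  · exact ⟨chartEquationFin N d⟩
  · exact ⟨chartEquationInf N d⟩

variable {s : ↥(modularFunctionFieldFull N)} (hs : IsChartParam N s)

include hs in
theorem finiteDimensional_adjoin_param :
    FiniteDimensional (IntermediateField.adjoin ℚ {s}) ↥(modularFunctionFieldFull N) := by
  obtain ⟨e⟩ := nonempty_chartEquation hs
  have h := e.finiteDimensional_tField ℚ (Nat.cast_ne_zero.mpr (NeZero.ne N))
  have ht : e.tElem ℚ = s := Subtype.ext e.coe_s.symm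
  unfold ChartEquation.tField at h
  rw [ht] at h
  convert h <;> first | rfl | exact heq_of_eq (Subsingleton.elim (α := Algebra ℚ ↥(modularFunctionFieldFull N)) _ _)

include hs in
theorem finrank_adjoin_param :
    Module.finrank (IntermediateField.adjoin ℚ {s}) ↥(modularFunctionFieldFull N) =
      dedekindPsi N := by
  obtain ⟨e⟩ := nonempty_chartEquation hs
  have h := e.finrank_tField ℚ (Nat.cast_ne_zero.mpr (NeZero.ne N))
  have ht : e.tElem ℚ = s := Subtype.ext e.coe_s.symm
  unfold ChartEquation.tField at h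
  rw [ht] at h
  convert h <;> first | rfl | exact heq_of_eq (Subsingleton.elim (α := Algebra ℚ ↥(modularFunctionFieldFull N)) _ _)

theorem adjoin_param_θ (e : ChartEquation N s) :
    IntermediateField.adjoin ℚ {s, e.θ} = ⊤ := by
  have hN : (N : ℚ) ≠ 0 := Nat.cast_ne_zero.mpr (NeZero.ne N)
  have h := e.adjoin_tElem_θElem ℚ hN
  have ht : e.tElem ℚ = s := Subtype.ext e.coe_s.symm
  have hθ : e.θElem ℚ hN = e.θ := Subtype.ext e.coe_θ.symm
  rw [ht, hθ] at h
  convert h <;> first | rfl | exact heq_of_eq (Subsingleton.elim (α := Algebra ℚ ↥(modularFunctionFieldFull N)) _ _)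

include hs in
theorem transcendental_param : Transcendental ℚ s := by
  obtain ⟨e⟩ := nonempty_chartEquation hs
  have ht : e.tElem ℚ = s := Subtype.ext e.coe_s.symm
  have h := e.transcendental_tElem ℚ
  rw [ht] at h
  convert h <;> first | rfl | exact heq_of_eq (Subsingleton.elim (α := Algebra ℚ ↥(modularFunctionFieldFull N)) _ _)

end FLTA.Smooth
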