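import Fermat.Prelude.Def_ModularCurve_IgusaScheme
import Fermat.Prelude.Def_ModularCurve_X0ModL

/-!
# Reductions of `q`-expansions of chart elements
-/

set_option autoImplicit false

noncomputable section

open ModularCurve ModularCurve.IgusaScheme

namespace FLTA.Smooth

variable (N : ℕ) [NeZero N] (ℓ : ℕ) [Fact ℓ.Prime]
variable {k : Type*} [Field k] (π : ↥(GaloisRep.ratLocalizedAt ℓ) →+* k)

/-- The reductions of the `q`-expansions of the elements of `chartAlg N ℓ S`. -/
def reductions (S : Set ↥(modularFunctionFieldFull N)) : Set (LaurentSeries k) :=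
  {v | ∃ y ∈ chartAlg N ℓ S, ∃ z : LaurentSeries ↥(GaloisRep.ratLocalizedAt ℓ),
    coeffMap (GaloisRep.ratLocalizedAt ℓ).subtype z = (y : LaurentSeries ℚ) ∧ coeffMap π z = v}

end FLTA.Smooth
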