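import Fermat.Agent.Smooth.MainFin

/-!
# Normality of the chart at infinity mod `ℓ`

An element integral over `k[t]`, `t = 1 / j`, lies in the span of the reductions after
multiplication by a power of `1 - 1728 t` (cyclic cover of degree `N`, trace descent) and after
multiplication by a power of `t` (finite chart).
-/

set_option autoImplicit false

noncomputable section

open Polynomial ModularCurve ModularCurve.IgusaScheme

namespace FLTA.Smooth

/-- An element integral over `k[T]` becomes integral over `k[J]` after multiplication by a power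
of `J`, when `T * J = 1`. -/
theorem exists_pow_mul_isIntegral_inv {k E : Type*} [Field k] [CommRing E] [Algebra k E] {T J x : E}
    (hTJ : T * J = 1) (hx : IsIntegral (Algebra.adjoin k ({T} : Set E)) x) :
    ∃ a : ℕ, IsIntegral (Algebra.adjoin k ({J} : Set E)) (J ^ a * x) := by
  classical
  obtain ⟨p, hp, hpx⟩ := hx
  have hP : ∀ c : Algebra.adjoin k ({T} : Set E), ∃ P : k[X], aeval T P = (c : E) := fun c =>
    (Algebra.adjoin_singleton_eq_range_aeval k T).le c.2
  choose P hP using hP
  set n := p.natDegree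
  set a := ∑ i ∈ Finset.range (n + 1), (P (p.coeff i)).natDegree with ha
  refine ⟨a, ?_⟩
  set q := p.map (algebraMap (Algebra.adjoin k ({T} : Set E)) E) with hq
  have hqm : q.Monic := hp.map _
  have hx0 : aeval x q = 0 := by rw [hq, aeval_def, eval₂_map]; exact hpx
  have hroot : aeval (J ^ a * x) (q.scaleRoots (J ^ a)) = 0 := by
    simpa using scaleRoots_aeval_eq_zero (r := J ^ a) hx0
  have hpow : ∀ r m : ℕ, r ≤ m → T ^ r * J ^ m = J ^ (m - r) := fun r m hrm => by
    obtain ⟨d, rfl⟩ := Nat.exists_eq_add_of_le hrm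
    rw [pow_add, ← mul_assoc, ← mul_pow, hTJ, one_pow, one_mul, Nat.add_sub_cancel_left]
  have hlifts : q.scaleRoots (J ^ a) ∈
      Polynomial.lifts (algebraMap (Algebra.adjoin k ({J} : Set E)) E) := by
    rw [Polynomial.lifts_iff_coeff_lifts]
    intro i
    rw [coeff_scaleRoots, hq, coeff_map, ← pow_mul]
    suffices h : (p.coeff i : E) * J ^ (a * ((p.map (algebraMap _ E)).natDegree - i)) ∈
        Algebra.adjoin k ({J} : Set E) from ⟨⟨_, h⟩, rfl⟩
    have hJ : ∀ m : ℕ, J ^ m ∈ Algebra.adjoin k ({J} : Set E) := fun m =>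
      pow_mem (Algebra.self_mem_adjoin_singleton k J) m
    by_cases hdeg : i < (p.map (algebraMap (Algebra.adjoin k ({T} : Set E)) E)).natDegree
    · have hin : i < n + 1 := Nat.lt_succ_of_le (hdeg.le.trans natDegree_map_le)
      have hle : (P (p.coeff i)).natDegree ≤
          a * ((p.map (algebraMap (Algebra.adjoin k ({T} : Set E)) E)).natDegree - i) :=
        (Finset.single_le_sum (f := fun i => (P (p.coeff i)).natDegree)
          (fun _ _ => Nat.zero_le _) (Finset.mem_range.mpr hin)).trans
          (Nat.le_mul_of_pos_right _ (by omega))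
      rw [← hP (p.coeff i), aeval_eq_sum_range, Finset.sum_mul]
      refine Subalgebra.sum_mem _ fun r hr => ?_
      rw [smul_mul_assoc, hpow r _ (le_trans (Finset.mem_range_succ_iff.mp hr) hle)]
      exact Subalgebra.smul_mem _ (hJ _) _
    · rcases eq_or_lt_of_le (not_lt.mp hdeg) with h | h
      · subst h
        have h1 : (p.coeff (p.map (algebraMap (Algebra.adjoin k ({T} : Set E)) E)).natDegree : E)
            = 1 := by
          have := (hp.map (algebraMap (Algebra.adjoin k ({T} : Set E)) E)).coeff_natDegree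
          rwa [coeff_map] at this
        rw [h1, one_mul]
        exact hJ _
      · have h0 : (p.coeff i : E) = 0 := by
          have := coeff_eq_zero_of_natDegree_lt h
          rwa [coeff_map] at this
        rw [h0, zero_mul]
        exact Subalgebra.zero_mem _
  obtain ⟨Q, hQ, -, hQm⟩ := lifts_and_natDegree_eq_and_monic hlifts
    ((monic_scaleRoots_iff _).mpr hqm)
  refine ⟨Q, hQm, ?_⟩
  rw [← hQ, aeval_def, eval₂_map] at hroot
  exact hroot

variable (N : ℕ) [NeZero N] (ℓ : ℕ) [Fact ℓ.Prime]
variable {k : Type} [Field k] (π : ↥(GaloisRep.ratLocalizedAt ℓ) →+* k) [CharP k ℓ]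

/-- A reduction from the finite chart lands in the chart at infinity after multiplication by a
power of `t`. -/
theorem exists_pow_mul_mem_span_reductions_inf (hN : ¬ ℓ ∣ N) {v : LaurentSeries k}
    (hv : v ∈ Submodule.span k (reductions N ℓ π {jFull N})) :
    ∃ b : ℕ, (redParam π hN (isChartParam_inv_jFull N) : LaurentSeries k) ^ b * v ∈
      Submodule.span k (reductions N ℓ π {(jFull N)⁻¹}) := by
  have hs := isChartParam_inv_jFull N
  set T : LaurentSeries k := redSeries π hs (paramElem N ℓ (jFull N)⁻¹) with hT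
  show ∃ b : ℕ, T ^ b * v ∈ _
  set W := Submodule.span k (reductions N ℓ π {(jFull N)⁻¹}) with hW
  have hsm : ∀ (c : k) (u v : LaurentSeries k), u * (c • v) = c • (u * v) := fun c u v => by
    rw [← HahnSeries.C_mul_eq_smul, ← HahnSeries.C_mul_eq_smul]; ring
  have hmul : ∀ (b : ℕ) {w : LaurentSeries k}, w ∈ W → T ^ b * w ∈ W := by
    intro b w hw
    rw [hW, reductions_eq_range π hs] at hw ⊢
    induction hw using Submodule.span_induction with
    | zero => simp
    | add x y _ _ hx hy => rw [mul_add]; exact add_mem hx hy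
    | smul c x _ hx =>
      rw [hsm]; exact Submodule.smul_mem _ c hx
    | mem x hx =>
      obtain ⟨y, rfl⟩ := hx
      exact Submodule.subset_span ⟨paramElem N ℓ (jFull N)⁻¹ ^ b * y, by rw [map_mul, map_pow]⟩
  induction hv using Submodule.span_induction with
  | zero => exact ⟨0, by simp⟩
  | smul c x _ hx =>
    obtain ⟨b, hb⟩ := hx
    exact ⟨b, by
      rw [hsm]; exact Submodule.smul_mem _ c hb⟩
  | add x y _ _ hx hy =>
    obtain ⟨b, hb⟩ := hx
    obtain ⟨c, hc⟩ := hy
    refine ⟨b + c, ?_⟩
    rw [mul_add]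
    refine add_mem ?_ ?_
    · rw [pow_add, mul_comm (T ^ b), mul_assoc]
      exact hmul c hb
    · rw [pow_add, mul_assoc]
      exact hmul b hc
  | mem x hx =>
    obtain ⟨f, hf, z, hz, rfl⟩ := hx
    have hf' : f ∈ chartAlg N ℓ (insert ((jFull N)⁻¹)⁻¹ {(jFull N)⁻¹}) :=
      chartAlg_mono N ℓ (Set.singleton_subset_iff.mpr
        (Set.mem_insert_iff.mpr (Or.inl (inv_inv _).symm))) hf
    obtain ⟨b, hb⟩ := exists_pow_mul_mem_chartAlg (Set.mem_singleton (jFull N)⁻¹)
      (inv_ne_zero (jFull_ne_zero N)) hf'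
    refine ⟨b, Submodule.subset_span ?_⟩
    rw [reductions_eq_range π hs]
    refine ⟨⟨_, hb⟩, ?_⟩
    have hlift : qLift hs ⟨_, hb⟩ = qLift hs (paramElem N ℓ (jFull N)⁻¹) ^ b * z :=
      seriesIncl_injective ℓ (by
        rw [map_mul, map_pow]
        refine (coeffMap_qLift hs ⟨_, hb⟩).trans ?_
        rw [seriesIncl, coeffMap_qLift, hz, paramElem]
        simp only [MulMemClass.coe_mul, SubmonoidClass.coe_pow])
    show coeffMap π (qLift hs ⟨_, hb⟩) = T ^ b * coeffMap π z
    rw [hlift, map_mul, map_pow]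
    rfl

variable [IsAlgClosed k]

set_option maxHeartbeats 1000000
set_option synthInstance.maxHeartbeats 400000

/-- Trace descent from the cyclic cover: a multiple by a power of `1 - 1728 t` is a reduction. -/
theorem exists_cusp_pow_mul_mem_redAlg (hN : ¬ ℓ ∣ N)
    {y : ↥(modularFunctionFieldFullC k N)}
    (hint : IsIntegral (Algebra.adjoin k {redParam π hN (isChartParam_inv_jFull N)}) y) :
    ∃ i : ℕ, (1 - 1728 * redParam π hN (isChartParam_inv_jFull N)) ^ i * y ∈
      redAlg π hN (isChartParam_inv_jFull N) := by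
  classical
  have hs := isChartParam_inv_jFull N
  haveI := isIntegrallyClosed_chart (ℓ := ℓ) hs
  haveI := isFractionRing_chartAlg (ℓ := ℓ) hs
  obtain ⟨L, _, _, iF, θ, Q, num, den, hh, g, x', S, hemb, hcusp, hg⟩ :=
    hasCover_inf (k := k) π hN
  subst hcusp hg
  let K' := ↥(modularFunctionFieldFullC k N)
  set t : K' := redParam π hN hs
  set g : (↥(chartAlg N ℓ {(jFull N)⁻¹}))[X] := X ^ N - C (paramElem N ℓ (jFull N)⁻¹) with hg
  set E := AdjoinRoot (g.map (redHom π hN hs))
  have hgmap : g.map (redHom π hN hs) = X ^ N - C t := by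
    rw [hg, Polynomial.map_sub, Polynomial.map_pow, map_X, map_C]
    rfl
  have hroot : AdjoinRoot.root (g.map (redHom π hN hs)) ^ N = algebraMap K' E t := by
    have h1 : aeval (AdjoinRoot.root (g.map (redHom π hN hs))) (g.map (redHom π hN hs)) = 0 := by
      rw [AdjoinRoot.aeval_eq, AdjoinRoot.mk_self]
    have h2 := congrArg (aeval (AdjoinRoot.root (g.map (redHom π hN hs)))) hgmap
    rw [h1, map_sub, map_pow, aeval_X, aeval_C] at h2
    exact sub_eq_zero.mp h2.symm
  -- integrality over the fibre ring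
  have hfib : letI := (CoverSetting.fibreToRed S).toAlgebra;
      IsIntegral (FibreRing π (Purity.cuspH (Zloc ℓ) N)) (algebraMap K' E y) := by
    obtain ⟨rt, hrt⟩ := CoverSetting.exists_fibre_eq_t S
    obtain ⟨p, hp, hpy⟩ := hint
    letI := (CoverSetting.fibreToRed S).toAlgebra
    have hmem : ∀ c : Algebra.adjoin k ({t} : Set K'),
        algebraMap K' E (c : K') ∈ (CoverSetting.fibreToRed S).range := by
      intro c
      obtain ⟨P, hP⟩ := (Algebra.adjoin_singleton_eq_range_aeval k t).le c.2
      refine ⟨P.eval₂ ((algebraMap k[X] (FibreRing π (Purity.cuspH (Zloc ℓ) N))).comp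
        Polynomial.C) rt, ?_⟩
      rw [← hP, hom_eval₂, hrt]
      refine Eq.trans ?_ (Polynomial.hom_eval₂ P (algebraMap k K') (algebraMap K' E) t).symm
      refine congrArg (fun φ => P.eval₂ φ (algebraMap K' E t)) (RingHom.ext fun a => ?_)
      rw [RingHom.comp_apply, RingHom.comp_apply, CoverSetting.fibreToRed_algebraMap, aeval_C,
        RingHom.comp_apply]
      exact IsScalarTower.algebraMap_apply k K' E a
    have hlifts : p.map ((algebraMap K' E).comp (algebraMap (Algebra.adjoin k ({t} : Set K')) K')) ∈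
        Polynomial.lifts
          (algebraMap (FibreRing π (Purity.cuspH (Zloc ℓ) N)) E) := by
      rw [Polynomial.lifts_iff_coeff_lifts]
      intro i
      rw [coeff_map]
      exact hmem (p.coeff i)
    obtain ⟨q, hqp, -, hqm⟩ := Polynomial.lifts_and_natDegree_eq_and_monic hlifts (hp.map _)
    refine ⟨q, hqm, ?_⟩
    rw [← eval_map, hqp, eval_map, ← hom_eval₂, hpy, map_zero]
  obtain ⟨i, hi⟩ := CoverSetting.exists_pow_mul_mem_of_isIntegral_fibre S hemb hfib
  refine ⟨i, ?_⟩
  have heq : aeval (AdjoinRoot.root (g.map (redHom π hN hs)))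
      ((Purity.cuspH (Zloc ℓ) N).map π) ^ i * algebraMap K' E y =
      algebraMap K' E ((1 - 1728 * t) ^ i * y) := by
    rw [Purity.map_cuspH, Purity.cuspH, map_sub, map_one, map_mul, map_pow, aeval_X, hroot,
      map_ofNat, map_mul, map_pow, map_sub, map_one, map_mul, map_ofNat]
  rw [heq] at hi
  have htr := trace_mem_span_range S.root _ ((CoverSetting.mem_coverSpan_iff S).mp hi)
  haveI := Module.Finite.of_basis (redBasis S.root)
  rw [Algebra.trace_algebraMap, Module.finrank_eq_card_basis (redBasis S.root), Fintype.card_fin,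
    show g.natDegree = N from natDegree_X_pow_sub_C] at htr
  have hNk : (N : k) ≠ 0 := natCast_ne_zero_of_not_dvd hN
  have hz : (1 - 1728 * t) ^ i * y =
      (N : k)⁻¹ • (N • ((1 - 1728 * t) ^ i * y)) := by
    rw [← Nat.cast_smul_eq_nsmul k, smul_smul, inv_mul_cancel₀ hNk, one_smul]
  rw [hz, ← Subalgebra.mem_toSubmodule, toSubmodule_redAlg]
  exact Submodule.smul_mem _ _ htr

/-- Normality of the chart at infinity mod `ℓ`. -/
theorem mem_span_reductions_inf_main (hN : ¬ ℓ ∣ N) {x : LaurentSeries k}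
    (hx : x ∈ modularFunctionFieldFullC k N)
    (hint : IsIntegral (Algebra.adjoin k {(jqModC k)⁻¹}) x) :
    x ∈ Submodule.span k (reductions N ℓ π {(jFull N)⁻¹}) := by
  have hs := isChartParam_inv_jFull N
  set t := redParam π hN hs with ht
  set y : ↥(modularFunctionFieldFullC k N) := ⟨x, hx⟩
  have htcoe : (t : LaurentSeries k) = (jqModC k)⁻¹ := coe_redParam_inf π hN
  have hint' : IsIntegral (Algebra.adjoin k {t}) y := by
    refine isIntegral_redParam_iff N ℓ π hN hs _ ?_
    rwa [coe_redParam_inf π hN]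
  obtain ⟨i, hi⟩ := exists_cusp_pow_mul_mem_redAlg N ℓ π hN hint'
  have hj0 : jqModC k ≠ 0 := jqModC_ne_zero_of_nontrivial k
  obtain ⟨a, ha⟩ := exists_pow_mul_isIntegral_inv (inv_mul_cancel₀ hj0) hint
  obtain ⟨b, hb⟩ := exists_pow_mul_mem_span_reductions_inf N ℓ π hN
    (mem_span_reductions_fin_main N ℓ π hN
      (mul_mem (pow_mem (jqModC_mem_full k N) a) hx) ha)
  have htred : t ∈ redAlg π hN hs := Algebra.subset_adjoin ⟨paramElem N ℓ _, rfl⟩
  have hb' : t ^ b * y ∈ redAlg π hN hs := by
    have h1 : t ^ b * (⟨jqModC k, jqModC_mem_full k N⟩ ^ a * y) ∈ redAlg π hN hs := by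
      refine (coe_mem_span_reductions_iff π hN hs _).mp ?_
      simpa using hb
    have h2 : t ^ a * (t ^ b * (⟨jqModC k, jqModC_mem_full k N⟩ ^ a * y)) = t ^ b * y := by
      have h3 : t * ⟨jqModC k, jqModC_mem_full k N⟩ = 1 :=
        Subtype.ext (by rw [MulMemClass.coe_mul, htcoe]; exact inv_mul_cancel₀ hj0)
      rw [mul_left_comm (t ^ a), ← mul_assoc (t ^ a), ← mul_pow, h3, one_pow, one_mul]
    exact h2 ▸ mul_mem (pow_mem htred a) h1
  obtain ⟨c, d, hcd⟩ : IsCoprime ((X : k[X]) ^ b) ((1 - 1728 * X) ^ i) :=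
    IsCoprime.pow ⟨1728, 1, by ring⟩
  have h1 := congrArg (aeval t) hcd
  simp only [map_add, map_mul, map_pow, map_sub, map_one, aeval_X, map_ofNat] at h1
  have haev : ∀ p : k[X], aeval t p ∈ redAlg π hN hs := fun p => by
    have : aeval t p ∈ Algebra.adjoin k {t} := aeval_mem_adjoin_singleton k t
    exact Algebra.adjoin_le (Set.singleton_subset_iff.mpr htred) this
  refine (coe_mem_span_reductions_iff π hN hs y).mpr ?_
  have hy : y = aeval t c * (t ^ b * y) + aeval t d * ((1 - 1728 * t) ^ i * y) := by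
    rw [← mul_assoc, ← mul_assoc, ← add_mul, h1, one_mul]
  rw [hy]
  exact add_mem (mul_mem (haev c) hb') (mul_mem (haev d) hi)

end FLTA.Smooth
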