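import Fermat.Agent.Smooth.Defs
import Fermat.Agent.Smooth.MainInf
import Mathlib.FieldTheory.IsAlgClosed.Basic
import Mathlib.RingTheory.IntegralClosure.IntegrallyClosed

/-!
# Good reduction of `X₀(N)` at `ℓ ∤ N`: interface

The span over `k` of the reductions of the chart `chartAlg N ℓ {j}` (resp. `{j⁻¹}`) is the integral
closure of `k[j]` (resp. `k[j⁻¹]`) in the characteristic `ℓ` function field.
-/

set_option autoImplicit false

noncomputable section

open ModularCurve ModularCurve.IgusaScheme

namespace FLTA.Smooth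

variable (N : ℕ) [NeZero N] (ℓ : ℕ) [Fact ℓ.Prime]
variable {k : Type} [Field k] (π : ↥(GaloisRep.ratLocalizedAt ℓ) →+* k)

variable [IsAlgClosed k] [CharP k ℓ]

/-- Normality of the finite chart mod `ℓ`. -/
theorem mem_span_reductions_fin (hN : ¬ ℓ ∣ N) {x : LaurentSeries k}
    (hx : x ∈ modularFunctionFieldFullC k N)
    (hint : IsIntegral (Algebra.adjoin k {jqModC k}) x) :
    x ∈ Submodule.span k (reductions N ℓ π {jFull N}) :=
  mem_span_reductions_fin_main N ℓ π hN hx hint

/-- Normality of the chart at infinity mod `ℓ`. -/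
theorem mem_span_reductions_inf (hN : ¬ ℓ ∣ N) {x : LaurentSeries k}
    (hx : x ∈ modularFunctionFieldFullC k N)
    (hint : IsIntegral (Algebra.adjoin k {(jqModC k)⁻¹}) x) :
    x ∈ Submodule.span k (reductions N ℓ π {(jFull N)⁻¹}) :=
  mem_span_reductions_inf_main N ℓ π hN hx hint

/-- A chart is integrally closed in the function field. -/
theorem isIntegrallyClosed_chartAlg (S : Set ↥(modularFunctionFieldFull N)) :
    IsIntegrallyClosedIn ↥(chartAlg N ℓ S) ↥(modularFunctionFieldFull N) :=
  inferInstanceAs (IsIntegrallyClosedIn ↥(integralClosure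
    ↥(Algebra.adjoin ↥(GaloisRep.ratLocalizedAt ℓ) S) ↥(modularFunctionFieldFull N)).toSubring
    ↥(modularFunctionFieldFull N))

end FLTA.Smooth
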