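import Fermat.Agent.Smooth.CoverLine
import Fermat.Agent.Smooth.Purity.Covers

/-!
# The three covers of the charts

The Legendre line (`ℓ` odd) or the Hesse line (`ℓ = 2`) over the finite chart, and the cyclic
cover `x ^ N = 1 / j` over the chart at infinity.
-/

set_option autoImplicit false

noncomputable section

open Polynomial ModularCurve ModularCurve.IgusaScheme

namespace FLTA.Smooth

variable {N : ℕ} [NeZero N] {ℓ : ℕ} [Fact ℓ.Prime]
variable {k : Type} [Field k] [IsAlgClosed k] [CharP k ℓ]
  (π : ↥(GaloisRep.ratLocalizedAt ℓ) →+* k)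

/-- Everything a cover of a chart has to provide. -/
def HasCover (hN : ¬ ℓ ∣ N) {s : ↥(modularFunctionFieldFull N)} (hs : IsChartParam N s)
    (P : (Zloc ℓ)[X] → (↥(chartAlg N ℓ {s}))[X] → Prop) : Prop :=
  haveI := isIntegrallyClosed_chart (ℓ := ℓ) hs
  haveI := isFractionRing_chartAlg (ℓ := ℓ) hs
  ∃ (L : Type) (_ : Field L) (_ : CharZero L) (iF : Algebra ↥(modularFunctionFieldFull N) L)
    (θ : ↥(chartAlg N ℓ {s})) (Q : ((Zloc ℓ)[X])[X]) (num den hh : (Zloc ℓ)[X])
    (g : (↥(chartAlg N ℓ {s}))[X]) (x : L),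
    CoverSetting (F := ↥(modularFunctionFieldFull N)) π (polyHom N ℓ s).toRingHom θ Q num den hh g x
        (redHom π hN hs) (redParam π hN hs) ∧
      HasEmbeddings (polyHom N ℓ s).toRingHom x hh
        (Module.finrank (IntermediateField.adjoin ℚ ({x} : Set L)) L) ∧
      P hh g

omit [Fact ℓ.Prime] [IsAlgClosed k] in
theorem natCast_ne_zero_of_not_dvd_char {m : ℕ} (h : ¬ ℓ ∣ m) : ((m : ℕ) : k) ≠ 0 :=
  fun h0 => h ((CharP.cast_eq_zero_iff k ℓ m).mp h0)

omit [Fact ℓ.Prime] in
theorem exists_inv_natCast_zloc {m : ℕ} (hm : m ≠ 0) (h : m.Coprime ℓ) :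
    ∃ u : Zloc ℓ, (m : Zloc ℓ) * u = 1 := by
  refine ⟨⟨((m : ℚ))⁻¹, ?_⟩, Subtype.ext ?_⟩
  · show ((m : ℚ)⁻¹).den.Coprime ℓ
    rw [Rat.inv_natCast_den, if_neg hm]
    exact h
  · push_cast
    exact mul_inv_cancel₀ (Nat.cast_ne_zero.mpr hm)

set_option maxHeartbeats 1000000 in
/-- The finite chart: `h` is invertible on the cover. -/
theorem hasCover_fin (hN : ¬ ℓ ∣ N) :
    HasCover π hN (isChartParam_jFull N) fun hh g =>
      ∃ w, g ∣ hh.map ((polyHom N ℓ (jFull N)).toRingHom.comp C) * w - 1 := by
  have := isIntegrallyClosed_chart (ℓ := ℓ) (isChartParam_jFull N)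
  have := isFractionRing_chartAlg (ℓ := ℓ) (isChartParam_jFull N)
  have hℓ : ℓ.Prime := Fact.out
  by_cases h2 : ℓ = 2
  · -- the Hesse line
    have h3k : (3 : k) ≠ 0 := by
      have := natCast_ne_zero_of_not_dvd_char (k := k) (m := 3) (ℓ := ℓ) (by subst h2; norm_num)
      simpa using this
    obtain ⟨u0, hu0⟩ := exists_inv_natCast_zloc (m := 729) (ℓ := ℓ) (by norm_num)
      (by subst h2; norm_num)
    have hu : (729 : ↥(chartAlg N ℓ {jFull N})) * chartC N ℓ (jFull N) u0 = 1 := by
      rw [show (729 : ↥(chartAlg N ℓ {jFull N})) = chartC N ℓ (jFull N) (729 : Zloc ℓ) from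
        (map_ofNat _ 729).symm, ← map_mul]
      exact (congrArg _ hu0).trans (map_one _)
    have hpoly : coverPoly (jFull N) (Purity.hesNum (Zloc ℓ)) (Purity.hesDen _) =
        Purity.hesPoly (paramElem N ℓ (jFull N)) := by
      simp [coverPoly, Purity.hesPoly]
    obtain ⟨hm, hd⟩ := Purity.natDegree_hesPoly (paramElem N ℓ (jFull N))
    obtain ⟨L, _, _, iF, θ, Q, g, x, S, hg⟩ := exists_coverSetting π hN (isChartParam_jFull N)
      (Purity.hesNum _) (Purity.hesDen _) (Purity.hesDen _) 1 isUnit_one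
      (by rw [map_one, one_mul, hpoly]; exact hm)
      (by rw [map_one, one_mul, hpoly, hd]; norm_num)
      (by
        intro c hc
        simp only [Purity.map_hesDen, Purity.map_hesNum] at hc ⊢
        simp only [Purity.hesDen, eval_sub, eval_pow, eval_X, eval_ofNat, sub_eq_zero] at hc
        simp only [Purity.hesNum, eval_mul, eval_sub, eval_pow, eval_X, eval_ofNat, hc]
        rw [show (27 : k) * (27 - 24) ^ 3 = 3 ^ 6 by norm_num]
        exact pow_ne_zero _ h3k)
      (by simpa using Purity.hesWronskian_ne_zero h3k)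
      ⟨1, (pow_one _).symm⟩
      (by
        rw [Purity.map_hesDen, Purity.hesDen, ← map_ofNat C 27]
        exact X_pow_sub_C_ne_zero (by norm_num) _)
    refine ⟨L, inferInstance, inferInstance, iF, θ, Q, _, _, _, g, x, S,
      hasEmbeddings_of_line S ?_, ?_⟩
    · intro _ _ hgen hrel x₀ hx₀
      simp only [Purity.map_hesDen, Purity.map_hesNum] at hrel hx₀
      refine Purity.exists_embeddings (algebraMap ↥(modularFunctionFieldFull N) L) hgen
        (Purity.hesNum ℚ) (Purity.hesDen ℚ) hrel ?_ ?_ x₀ hx₀ ?_ ?_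
      · exact fun h => absurd (congrArg (eval (-1)) h) (by simp [Purity.hesNum]; norm_num)
      · have h12 : (Purity.hesNum ℚ).natDegree = 12 := by
          unfold Purity.hesNum; compute_degree!
        have h3' : (Purity.hesDen ℚ).natDegree = 3 := by
          unfold Purity.hesDen; compute_degree!
        rw [h12, h3']; norm_num
      · exact fun _ => ⟨1, X * (X ^ 3 - 24), by rw [map_one, one_mul, Purity.hesNum_eq_cube]⟩
      · exact fun _ => ⟨1, X ^ 6 - 36 * X ^ 3 + 216, by rw [map_one, one_mul, Purity.hesNum_sub]⟩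
    · obtain ⟨w, hw⟩ := Purity.exists_inv_hesDen hu (paramElem N ℓ (jFull N))
      refine ⟨w, ?_⟩
      rw [map_one, one_mul, hpoly] at hg
      rw [Purity.map_hesDen]
      exact hg.trans hw
  · -- the Legendre line
    have h2k : (2 : k) ≠ 0 := by
      have := natCast_ne_zero_of_not_dvd_char (k := k) (m := 2) (ℓ := ℓ)
        (fun h => h2 ((Nat.prime_dvd_prime_iff_eq hℓ Nat.prime_two).mp h))
      simpa using this
    obtain ⟨u0, hu0⟩ := exists_inv_natCast_zloc (m := 256) (ℓ := ℓ) (by norm_num)
      (by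
        rw [show (256 : ℕ) = 2 ^ 8 by norm_num]
        exact Nat.Coprime.pow_left 8 ((Nat.coprime_primes Nat.prime_two hℓ).mpr (Ne.symm h2)))
    set u := chartC N ℓ (jFull N) u0
    have hu : (256 : ↥(chartAlg N ℓ {jFull N})) * u = 1 := by
      rw [show (256 : ↥(chartAlg N ℓ {jFull N})) = chartC N ℓ (jFull N) (256 : Zloc ℓ) from
        (map_ofNat _ 256).symm, ← map_mul]
      exact (congrArg _ hu0).trans (map_one _)
    have huu : IsUnit u := IsUnit.of_mul_eq_one 256 (by rw [mul_comm]; exact hu)
    have hpoly : coverPoly (jFull N) (Purity.legNum (Zloc ℓ)) (Purity.legDen _) =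
        Purity.legPoly (paramElem N ℓ (jFull N)) := by
      simp [coverPoly, Purity.legPoly]
    obtain ⟨hm, hd⟩ := Purity.natDegree_legPoly hu (paramElem N ℓ (jFull N))
    obtain ⟨L, _, _, iF, θ, Q, g, x, S, hg⟩ := exists_coverSetting π hN (isChartParam_jFull N)
      (Purity.legNum _) (Purity.legDen _) (Purity.legH _) u huu
      (by rw [hpoly]; exact hm) (by rw [hpoly, hd]; norm_num)
      (by
        intro c hc
        simp only [Purity.map_legDen, Purity.map_legNum] at hc ⊢
        simp only [Purity.legDen, eval_mul, eval_sub, eval_pow, eval_X, eval_one,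
          pow_eq_zero_iff two_ne_zero, mul_eq_zero, sub_eq_zero] at hc
        simp only [Purity.legNum, eval_mul, eval_add, eval_sub, eval_pow, eval_X, eval_one,
          eval_ofNat]
        have h256 : (256 : k) ≠ 0 := by
          rw [show (256 : k) = 2 ^ 8 by norm_num]; exact pow_ne_zero _ h2k
        rcases hc with hc | hc <;> subst hc <;> simpa using h256)
      (by simpa using Purity.legWronskian_ne_zero h2k)
      ⟨2, by simp [Purity.legDen, Purity.legH]⟩
      (by
        rw [Purity.map_legH, Purity.legH, ← C_1]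
        exact mul_ne_zero X_ne_zero (X_sub_C_ne_zero 1))
    refine ⟨L, inferInstance, inferInstance, iF, θ, Q, _, _, _, g, x, S,
      hasEmbeddings_of_line S ?_, ?_⟩
    · intro _ _ hgen hrel x₀ hx₀
      simp only [Purity.map_legDen, Purity.map_legNum, Purity.map_legH] at hrel hx₀
      refine Purity.exists_embeddings (algebraMap ↥(modularFunctionFieldFull N) L) hgen
        (Purity.legNum ℚ) (Purity.legDen ℚ) hrel ?_ ?_ x₀ ?_ ?_ ?_
      · exact fun h => absurd (congrArg (eval 0) h) (by simp [Purity.legNum])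
      · have h6 : (Purity.legNum ℚ).natDegree = 6 := by
          unfold Purity.legNum; compute_degree!
        have h4 : (Purity.legDen ℚ).natDegree = 4 := by
          unfold Purity.legDen; compute_degree!
        rw [h6, h4]; norm_num
      · rw [show Purity.legDen ℚ = Purity.legH ℚ ^ 2 from rfl, map_pow]
        exact pow_ne_zero _ hx₀
      · exact fun _ => ⟨256, X ^ 2 - X + 1, by rw [map_ofNat, Purity.legNum_eq_cube]⟩
      · exact fun _ => ⟨64, (X + 1) * (X - 2) * (2 * X - 1), by
          rw [map_ofNat, Purity.legNum_sub]⟩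
    · obtain ⟨w, hw⟩ := Purity.exists_inv_legH hu (paramElem N ℓ (jFull N))
      refine ⟨w, ?_⟩
      rw [hpoly] at hg
      rw [Purity.map_legH]
      exact hg.trans (((huu.map C).mul_left_dvd).mpr hw)

omit [Fact ℓ.Prime] in
/-- A monic factor of positive degree of `X ^ N - 1/j` over the function field has degree `N`. -/
theorem natDegree_factor_cusp {h : (↥(modularFunctionFieldFull N))[X]} (hm : h.Monic)
    (hdvd : h ∣ X ^ N - C (jFull N)⁻¹) (hpos : 0 < h.natDegree) : h.natDegree = N := by
  classical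
  set F := ↥(modularFunctionFieldFull N)
  have hne : (X ^ N - C (jFull N)⁻¹ : F[X]) ≠ 0 := X_pow_sub_C_ne_zero (NeZero.pos N) _
  have hle : h.natDegree ≤ N := (natDegree_le_of_dvd hdvd hne).trans_eq natDegree_X_pow_sub_C
  set Ω := AlgebraicClosure F
  have hs : (h.map (algebraMap F Ω)).Splits := IsAlgClosed.splits _
  have hroot : ∀ a ∈ (h.map (algebraMap F Ω)).roots, a ^ N = algebraMap F Ω (jFull N)⁻¹ := by
    intro a ha
    have h1 := (mem_roots'.mp ha).2
    have h2 := h1.dvd (Polynomial.map_dvd (algebraMap F Ω) hdvd)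
    simpa [sub_eq_zero] using h2
  have hprod := hs.coeff_zero_eq_prod_roots_of_monic (hm.map _)
  rw [coeff_map, hm.natDegree_map] at hprod
  have hpow : (h.coeff 0) ^ N = (-1) ^ (h.natDegree * N) * ((jFull N)⁻¹) ^ h.natDegree := by
    apply (algebraMap F Ω).injective
    rw [map_pow, hprod, mul_pow, ← pow_mul, map_mul, map_pow, map_pow, map_neg, map_one]
    congr 1
    conv_lhs => rw [← Multiset.map_id' (h.map (algebraMap F Ω)).roots]
    rw [← Multiset.prod_map_pow, Multiset.map_congr rfl hroot, Multiset.map_const',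
      Multiset.prod_replicate, ← hs.natDegree_eq_card_roots, hm.natDegree_map]
  set a : LaurentSeries ℚ := ((h.coeff 0 : F) : LaurentSeries ℚ)
  have hlaur : a ^ N * jq ^ h.natDegree = (-1) ^ (h.natDegree * N) := by
    have := congrArg (fun z : F => z * jFull N ^ h.natDegree) hpow
    rw [mul_assoc, ← mul_pow, inv_mul_cancel₀ (jFull_ne_zero N), one_pow, mul_one] at this
    have := congrArg (algebraMap F (LaurentSeries ℚ)) this
    rw [map_mul, map_pow, map_pow, map_pow, map_neg, map_one] at this
    exact this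
  have hj : jq.order = -1 := by
    refine le_antisymm (HahnSeries.order_le_of_coeff_ne_zero (by simp)) ?_
    by_contra hlt
    exact jq_ne_zero (HahnSeries.coeff_order_eq_zero.mp (coeff_jq_of_lt (not_le.mp hlt)))
  have ha : a ≠ 0 := fun h0 => by
    rw [h0, zero_pow (NeZero.ne N), zero_mul] at hlaur
    exact pow_ne_zero (h.natDegree * N) (neg_ne_zero.mpr one_ne_zero) hlaur.symm
  have hord := congrArg HahnSeries.order hlaur
  rw [HahnSeries.order_mul (pow_ne_zero _ ha) (pow_ne_zero _ jq_ne_zero), HahnSeries.order_pow,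
    HahnSeries.order_pow, HahnSeries.order_pow, hj, HahnSeries.order_neg, HahnSeries.order_one,
    smul_zero, nsmul_eq_mul, nsmul_eq_mul, mul_neg, mul_one, ← sub_eq_add_neg, sub_eq_zero] at hord
  have hd : N ∣ h.natDegree := Int.natCast_dvd_natCast.mp (Dvd.intro a.order hord)
  exact le_antisymm hle (Nat.le_of_dvd hpos hd)

set_option maxHeartbeats 1000000 in
/-- The chart at infinity: the cyclic cover of degree `N`, with `h = 1 - 1728 X ^ N`. -/
theorem hasCover_inf (hN : ¬ ℓ ∣ N) :
    HasCover π hN (isChartParam_inv_jFull N) fun hh g =>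
      hh = Purity.cuspH (Zloc ℓ) N ∧
        g = X ^ N - C (paramElem N ℓ (jFull N)⁻¹) := by
  have := isIntegrallyClosed_chart (ℓ := ℓ) (isChartParam_inv_jFull N)
  have := isFractionRing_chartAlg (ℓ := ℓ) (isChartParam_inv_jFull N)
  have hpoly : coverPoly (jFull N)⁻¹ (X ^ N : (Zloc ℓ)[X]) 1 =
      X ^ N - C (paramElem N ℓ (jFull N)⁻¹) := by simp [coverPoly]
  have hNk : (N : k) ≠ 0 := natCast_ne_zero_of_not_dvd_char hN
  obtain ⟨L, _, _, iF, θ, Q, g, x, S, hg⟩ := exists_coverSetting π hN (isChartParam_inv_jFull N)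
    (X ^ N) 1 (Purity.cuspH _ N) 1 isUnit_one
    (by rw [map_one, one_mul, hpoly]; exact monic_X_pow_sub_C _ (NeZero.ne N))
    (by rw [map_one, one_mul, hpoly, natDegree_X_pow_sub_C]; exact NeZero.pos N)
    (by intro c hc; simp at hc)
    (by
      intro h0
      have h1 := congrArg (eval 1) h0
      simp [derivative_X_pow, hNk] at h1)
    ⟨0, (pow_zero _).symm⟩
    (by
      intro h0
      have h1 := congrArg (eval 0) h0
      simp [Purity.cuspH, NeZero.ne N] at h1)
  refine ⟨L, inferInstance, inferInstance, iF, θ, Q, _, _, _, g, x, S,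
    hasEmbeddings_of_line S ?_, rfl, ?_⟩
  · intro _ _ hgen hrel x₀ hx₀
    simp only [Polynomial.map_pow, map_X, Polynomial.map_one, map_one, mul_one,
      Purity.map_cuspH] at hrel hx₀
    have hj : algebraMap ↥(modularFunctionFieldFull N) L (jFull N) *
        algebraMap CoverField L (algebraMap ℚ[X] CoverField (X ^ N)) = 1 := by
      rw [← hrel, ← map_mul, mul_inv_cancel₀ (jFull_ne_zero N), map_one]
    by_cases hx : x₀ = 0
    · subst hx
      exact Purity.exists_embeddings_cusp _ hgen hj
    · refine Purity.exists_embeddings (algebraMap ↥(modularFunctionFieldFull N) L) hgen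
        1 (X ^ N) ?_ one_ne_zero ?_ x₀ ?_ ?_ ?_
      · rw [hj, map_one, map_one]
      · rw [natDegree_one, natDegree_X_pow]
        exact (NeZero.ne N).symm
      · simp [hx]
      · intro h1
        simp at h1
      · intro h1
        exact absurd h1 hx₀
  · rw [map_one, one_mul, hpoly] at hg
    set A := ↥(chartAlg N ℓ {(jFull N)⁻¹})
    set φ := algebraMap A ↥(modularFunctionFieldFull N)
    have hgm : g.Monic := S.root.monic
    have hd := natDegree_factor_cusp (hgm.map φ) (by
      have := Polynomial.map_dvd φ hg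
      rwa [Polynomial.map_sub, Polynomial.map_pow, map_X, map_C] at this)
      (by rw [hgm.natDegree_map]; exact S.natDegree_pos)
    rw [hgm.natDegree_map] at hd
    exact (eq_of_monic_of_dvd_of_natDegree_le hgm (monic_X_pow_sub_C _ (NeZero.ne N)) hg
      (by rw [natDegree_X_pow_sub_C, hd])).symm

end FLTA.Smooth
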