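import Fermat.Agent.Smooth.CoverBuild

/-!
# The cover as a finite extension of `ℚ(x)`
-/

set_option autoImplicit false

noncomputable section

open Polynomial ModularCurve ModularCurve.IgusaScheme

namespace FLTA.Smooth

variable {N : ℕ} [NeZero N] {ℓ : ℕ} [Fact ℓ.Prime]
variable {k : Type} [Field k] [IsAlgClosed k] [CharP k ℓ]
  {π : ↥(GaloisRep.ratLocalizedAt ℓ) →+* k}

set_option maxHeartbeats 800000 in
set_option synthInstance.maxHeartbeats 200000 in
/-- Reduce `HasEmbeddings` to a statement about `L` over `ℚ(x)`. -/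
theorem hasEmbeddings_of_line {hN : ¬ ℓ ∣ N} {s : ↥(modularFunctionFieldFull N)}
    {hs : IsChartParam N s} [IsIntegrallyClosed ↥(chartAlg N ℓ {s})]
    [IsFractionRing ↥(chartAlg N ℓ {s}) ↥(modularFunctionFieldFull N)]
    {L : Type} [Field L] [CharZero L] [Algebra ↥(modularFunctionFieldFull N) L]
    {θ : ↥(chartAlg N ℓ {s})} {Q : ((Zloc ℓ)[X])[X]} {num den hh : (Zloc ℓ)[X]}
    {g : (↥(chartAlg N ℓ {s}))[X]} {x : L}
    (S : CoverSetting (F := ↥(modularFunctionFieldFull N)) π (polyHom N ℓ s).toRingHom θ Q num den hh g x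
      (redHom π hN hs) (redParam π hN hs))
    (H : ∀ [Algebra CoverField L] [FiniteDimensional CoverField L],
      IntermediateField.adjoin CoverField
        (Set.range (algebraMap ↥(modularFunctionFieldFull N) L)) = ⊤ →
      algebraMap ↥(modularFunctionFieldFull N) L s * algebraMap CoverField L
          (algebraMap ℚ[X] CoverField (den.map (GaloisRep.ratLocalizedAt ℓ).subtype)) =
        algebraMap CoverField L
          (algebraMap ℚ[X] CoverField (num.map (GaloisRep.ratLocalizedAt ℓ).subtype)) →
      ∀ x₀ : ℂ, aeval x₀ (hh.map (GaloisRep.ratLocalizedAt ℓ).subtype) ≠ 0 →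
        ∃ σ : Fin (Module.finrank CoverField L) → (L →+* LaurentSeries ℂ), Function.Injective σ ∧
          ∀ i (p : ℚ[X]), σ i (algebraMap CoverField L (algebraMap ℚ[X] CoverField p)) =
            Purity.evalAt (algebraMap ℚ ℂ) x₀ p) :
    HasEmbeddings (polyHom N ℓ s).toRingHom x hh
      (Module.finrank (IntermediateField.adjoin ℚ ({x} : Set L)) L) := by
  classical
  set sA := (polyHom N ℓ s).toRingHom with hsA
  set sub := (GaloisRep.ratLocalizedAt ℓ).subtype
  set ev : ℚ[X] →+* L := eval₂RingHom (algebraMap ℚ L) x with hev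
  have hevX : ∀ p : (Zloc ℓ)[X], ev (p.map sub) = evalX sA x p := by
    intro p
    show _ = evalX sA x p
    rw [hev, coe_eval₂RingHom, eval₂_map]
    refine congrArg (fun f => eval₂ f x p) (RingHom.ext fun a => ?_)
    simp only [RingHom.comp_apply, hsA, AlgHom.toRingHom_eq_coe, RingHom.coe_coe,
      polyHom, aeval_C]
    rw [IsScalarTower.algebraMap_apply (↥(chartAlg N ℓ {s})) ↥(modularFunctionFieldFull N) L,
      ← IsScalarTower.algebraMap_apply ↥(GaloisRep.ratLocalizedAt ℓ) ↥(chartAlg N ℓ {s})
        ↥(modularFunctionFieldFull N),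
      IsScalarTower.algebraMap_apply ↥(GaloisRep.ratLocalizedAt ℓ) ℚ ↥(modularFunctionFieldFull N)]
    exact (RingHom.congr_fun (RingHom.ext_rat
      ((algebraMap ↥(modularFunctionFieldFull N) L).comp (algebraMap ℚ ↥(modularFunctionFieldFull N)))
      (algebraMap ℚ L)) _).symm
  have hinj : Function.Injective ev := by
    have := isFractionRing_zloc ℓ
    rw [injective_iff_map_eq_zero]
    intro p hp
    obtain ⟨b, hb, hbp⟩ :=
      IsLocalization.integerNormalization_spec (nonZeroDivisors (Zloc ℓ)) p
    set q := IsLocalization.integerNormalization (nonZeroDivisors (Zloc ℓ)) p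
    have hq : q.map sub = C (sub b) * p := by
      rw [show sub = algebraMap (Zloc ℓ) ℚ from rfl, hbp, ← algebraMap_smul ℚ b p,
        Polynomial.smul_eq_C_mul]
    have hq0 : q = 0 := by
      apply CoverSetting.evalX_injective S
      rw [map_zero, ← hevX, hq, map_mul, hp, mul_zero]
    rw [hq0, Polynomial.map_zero] at hq
    rcases mul_eq_zero.mp hq.symm with h | h
    · have h0 : sub b = 0 := by simpa using h
      exact absurd (Subtype.val_injective h0 : b = 0) (nonZeroDivisors.ne_zero hb)
    · exact h
  let iK : CoverField →+* L := IsFractionRing.lift hinj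
  let : Algebra CoverField L := iK.toAlgebra
  have hK : ∀ p : ℚ[X], algebraMap CoverField L (algebraMap ℚ[X] CoverField p) = ev p :=
    fun p => IsFractionRing.lift_algebraMap hinj p
  -- the subfield of `F` over which everything is rational in `x`
  set T : IntermediateField CoverField L :=
    IntermediateField.adjoin CoverField {algebraMap ↥(modularFunctionFieldFull N) L θ}
  have hxK : x ∈ Set.range (algebraMap CoverField L) :=
    ⟨algebraMap ℚ[X] CoverField X, by rw [hK, hev]; simp⟩
  have hden : evalX sA x den ≠ 0 := by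
    obtain ⟨i, hi⟩ := S.den_pow
    refine CoverSetting.evalB_ne_zero_of_map_ne_zero S ?_
    rw [hi, Polynomial.map_pow]
    exact pow_ne_zero _ S.hbar
  have hrel' : algebraMap ↥(modularFunctionFieldFull N) L s * ev (den.map sub) = ev (num.map sub) := by
    rw [hevX, hevX, S.rel, hsA, polyHom_X]
    rfl
  have hsK : algebraMap ↥(modularFunctionFieldFull N) L s ∈ Set.range (algebraMap CoverField L) := by
    refine ⟨algebraMap ℚ[X] CoverField (num.map sub) / algebraMap ℚ[X] CoverField (den.map sub), ?_⟩
    rw [map_div₀, hK, hK, ← hrel', mul_div_cancel_right₀ _ (by rwa [hevX])]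
  have hFT : ∀ z : ↥(modularFunctionFieldFull N),
      algebraMap ↥(modularFunctionFieldFull N) L z ∈ T := by
    intro z
    have hz : z ∈ Subfield.closure ({algebraMap _ ↥(modularFunctionFieldFull N) (sA X),
        algebraMap _ ↥(modularFunctionFieldFull N) θ} : Set ↥(modularFunctionFieldFull N)) :=
      S.gen_zero.symm ▸ Subfield.mem_top z
    refine (Subfield.closure_le (t := T.toSubfield.comap
      (algebraMap ↥(modularFunctionFieldFull N) L))).mpr ?_ hz
    rintro y (rfl | rfl)
    · obtain ⟨c, hc⟩ := hsK
      show algebraMap ↥(modularFunctionFieldFull N) L _ ∈ T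
      rw [hsA, polyHom_X]
      exact hc ▸ T.algebraMap_mem c
    · exact IntermediateField.subset_adjoin _ _ rfl
  have hgen : IntermediateField.adjoin CoverField
      (Set.range (algebraMap ↥(modularFunctionFieldFull N) L)) = ⊤ ∧ T = ⊤ := by
    have hT : T = ⊤ := by
      rw [eq_top_iff]
      intro y _
      have hy : y ∈ IntermediateField.adjoin ↥(modularFunctionFieldFull N) ({x} : Set L) :=
        S.root.adjoin_eq.symm ▸ IntermediateField.mem_top
      rw [← IntermediateField.mem_toSubfield, IntermediateField.adjoin_toSubfield] at hy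
      refine (Subfield.closure_le (t := T.toSubfield)).mpr ?_ hy
      rintro w (⟨z, rfl⟩ | rfl)
      · exact hFT z
      · obtain ⟨c, hc⟩ := hxK
        exact hc ▸ T.algebraMap_mem c
    refine ⟨?_, hT⟩
    rw [eq_top_iff, ← hT, IntermediateField.adjoin_le_iff, Set.singleton_subset_iff]
    exact IntermediateField.subset_adjoin _ _ ⟨θ, rfl⟩
  have hfin : FiniteDimensional CoverField L := by
    have hθ : IsIntegral CoverField (algebraMap ↥(modularFunctionFieldFull N) L θ) := by
      let f : (Zloc ℓ)[X] →+* CoverField :=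
        eval₂RingHom ((algebraMap ℚ[X] CoverField).comp (C.comp sub))
          (algebraMap ℚ[X] CoverField (num.map sub) / algebraMap ℚ[X] CoverField (den.map sub))
      have hf : (algebraMap CoverField L).comp f =
          ((algebraMap ↥(modularFunctionFieldFull N) L).comp
            (algebraMap ↥(chartAlg N ℓ {s}) ↥(modularFunctionFieldFull N))).comp sA := by
        refine Polynomial.ringHom_ext (fun a => ?_) ?_
        · simp only [f, RingHom.comp_apply, coe_eval₂RingHom, eval₂_C, hK]
          rw [← Polynomial.map_C, hevX, ← IsScalarTower.algebraMap_apply]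
          simp [evalX]
        · simp only [f, RingHom.comp_apply, coe_eval₂RingHom, eval₂_X, map_div₀, hK]
          rw [← hrel', mul_div_cancel_right₀ _ (by rwa [hevX]), hsA, polyHom_X]
          rfl
      refine ⟨Q.map f, S.Q_monic.map _, ?_⟩
      rw [eval₂_map, hf]
      exact (hom_eval₂ Q sA ((algebraMap ↥(modularFunctionFieldFull N) L).comp
        (algebraMap ↥(chartAlg N ℓ {s}) ↥(modularFunctionFieldFull N))) θ).symm.trans
          (by rw [S.Q_root, map_zero])
    have := IntermediateField.adjoin.finiteDimensional hθ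
    have : FiniteDimensional CoverField ↥(⊤ : IntermediateField CoverField L) := hgen.2 ▸ this
    exact IntermediateField.topEquiv.toLinearEquiv.finiteDimensional
  have hmem : ∀ c : CoverField, algebraMap CoverField L c ∈
      IntermediateField.adjoin ℚ ({x} : Set L) := by
    intro c
    obtain ⟨p, q, _, rfl⟩ := IsFractionRing.div_surjective (A := ℚ[X]) c
    rw [map_div₀, hK, hK]
    have hp : ∀ r : ℚ[X], ev r ∈ IntermediateField.adjoin ℚ ({x} : Set L) := fun r => by
      rw [show ev r = aeval x r from rfl]
      exact IntermediateField.algebra_adjoin_le_adjoin ℚ _ (aeval_mem_adjoin_singleton ℚ x)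
    exact div_mem (hp p) (hp q)
  let e : CoverField ≃+* ↥(IntermediateField.adjoin ℚ ({x} : Set L)) :=
    RingEquiv.ofBijective ((algebraMap CoverField L).codRestrict _ hmem) ⟨fun a b hab =>
      (algebraMap CoverField L).injective (congrArg Subtype.val hab), fun z => by
      have hz : (z : L) ∈ (algebraMap CoverField L).fieldRange := by
        have h1 := z.2
        rw [← IntermediateField.mem_toSubfield, IntermediateField.adjoin_toSubfield] at h1
        refine Subfield.closure_le.mpr ?_ h1
        rintro w (⟨q, rfl⟩ | rfl)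
        · exact ⟨algebraMap ℚ[X] CoverField (C q), by rw [hK, hev]; simp⟩
        · exact hxK
      obtain ⟨c, hc⟩ := hz
      exact ⟨c, Subtype.ext hc⟩⟩
  have hdim : Module.finrank CoverField L =
      Module.finrank ↥(IntermediateField.adjoin ℚ ({x} : Set L)) L :=
    Algebra.finrank_eq_of_equiv_equiv e (RingEquiv.refl L) rfl
  intro x₀ hx₀
  have hx₀' : aeval x₀ (hh.map sub) ≠ 0 := by rwa [aeval_def, eval₂_map]
  obtain ⟨σ, hσi, hσ⟩ := H hgen.1 (by rw [hK, hK]; exact hrel') x₀ hx₀'
  refine ⟨σ ∘ Fin.cast hdim.symm, hσi.comp (Fin.cast_injective _), fun i p => ?_⟩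
  rw [Function.comp_apply, ← hevX, ← hK, hσ, Purity.evalAt_map]
  rfl

end FLTA.Smooth
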