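import Fermat.Agent.Smooth.CoverPurityAux
import Mathlib.FieldTheory.IntermediateField.Adjoin.Basic

/-!
# Purity applied to a cover
-/

set_option autoImplicit false

noncomputable section

open Polynomial

namespace FLTA.Smooth

variable {ℓ : ℕ} {k A F L K' : Type*} [Field k] [CommRing A] [IsDomain A] [IsIntegrallyClosed A]
  [Field F] [Algebra A F] [IsFractionRing A F] [CharZero F]
  [Field L] [Algebra F L] [Algebra A L] [IsScalarTower A F L]
  [Field K'] [Algebra k K']
  {π : Zloc ℓ →+* k} {sA : (Zloc ℓ)[X] →+* A} {θ : A} {Q : ((Zloc ℓ)[X])[X]}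
  {num den hh : (Zloc ℓ)[X]} {g : A[X]} {x : L} {red : A →+* K'} {t : K'}

theorem CoverSetting.algebraMap_mem_of_gen
    (S : CoverSetting (F := F) π sA θ Q num den hh g x red t) (T : Subfield L)
    (hs : algebraMap A L (sA X) ∈ T) (hθ : algebraMap A L θ ∈ T) (z : F) :
    algebraMap F L z ∈ T := by
  have h : Subfield.closure ({algebraMap A F (sA X), algebraMap A F θ} : Set F) ≤
      T.comap (algebraMap F L) := by
    rw [Subfield.closure_le]
    rintro w (rfl | rfl) <;>
      simpa [← IsScalarTower.algebraMap_apply A F L]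
  exact h (S.gen_zero ▸ Subfield.mem_top z)

theorem CoverSetting.mem_of_gen
    (S : CoverSetting (F := F) π sA θ Q num den hh g x red t) (T : Subfield L)
    (hs : algebraMap A L (sA X) ∈ T) (hθ : algebraMap A L θ ∈ T) (hx : x ∈ T) (z : L) :
    z ∈ T := by
  have hz : z ∈ (IntermediateField.adjoin F ({x} : Set L)).toSubfield := by
    rw [S.root.adjoin_eq]; trivial
  rw [IntermediateField.adjoin_toSubfield] at hz
  refine Subfield.closure_le.mpr ?_ hz
  rintro w (⟨v, rfl⟩ | hw)
  · exact S.algebraMap_mem_of_gen T hs hθ v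
  · rw [Set.mem_singleton_iff.mp hw]; exact hx

variable [Fact ℓ.Prime] [CharP k ℓ] [IsAlgClosed k]

theorem CoverSetting.num_ne_C_mul_den
    (S : CoverSetting (F := F) π sA θ Q num den hh g x red t) (c : k) :
    num.map π ≠ C c * den.map π := by
  intro h
  haveI := CoverSetting.nontrivial_red S
  have hrel : CoverSetting.evalB S num =
      algebraMap A (integralClosure A L) (sA X) * CoverSetting.evalB S den := by
    apply Subtype.ext
    simp only [Subalgebra.coe_mul, CoverSetting.coe_evalB S]
    rw [S.rel]; rfl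
  have h1 := congrArg (coverRed S.root) hrel
  rw [map_mul, CoverSetting.coverRed_evalB S, CoverSetting.coverRed_evalB S, coverRed_algebraMap,
    S.red_sA, map_X, aeval_X, h, map_mul, aeval_C] at h1
  have hden : den.map π ≠ 0 := by
    obtain ⟨i, hi⟩ := S.den_pow
    rw [hi, Polynomial.map_pow]
    exact pow_ne_zero _ S.hbar
  have h2 := (CoverSetting.isUnit_aeval_root S hden).mul_left_injective h1
  rw [IsScalarTower.algebraMap_apply k K' (AdjoinRoot (g.map red))] at h2
  have h3 := (algebraMap K' (AdjoinRoot (g.map red))).injective h2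
  exact S.trans (h3 ▸ isAlgebraic_algebraMap c)

/-- Purity on a cover: a basis with unit discriminant, with the degree bound used in the special
fibre. -/
theorem CoverSetting.exists_basis [CharZero L]
    (S : CoverSetting (F := F) π sA θ Q num den hh g x red t)
    (hemb : HasEmbeddings sA x hh
      (Module.finrank (IntermediateField.adjoin ℚ ({x} : Set L)) L))
    (q : ((Zloc ℓ)[X])[X])
    (hq : ∀ p : ((Zloc ℓ)[X])[X], p.degree < q.degree →
        p.eval₂ ((algebraMap A L).comp sA) x = 0 → p = 0) :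
    letI := S.baseToField.toAlgebra
    ∃ (n : ℕ) (e : Module.Basis (Fin n) (CoverBaseRing ℓ hh)
        (integralClosure (CoverBaseRing ℓ hh) L)),
      IsUnit (Algebra.discr (CoverBaseRing ℓ hh) e) ∧
        n * q.natDegree ≤ g.natDegree * Q.natDegree := by
  classical
  letI := S.baseToField.toAlgebra
  haveI := isPrincipalIdealRing_zloc ℓ
  have hϖ : Prime (ℓ : Zloc ℓ) := by
    refine ⟨Nat.cast_ne_zero.mpr (Fact.out : ℓ.Prime).ne_zero, not_dvd_one_zloc ℓ, fun a b hab => ?_⟩
    simp only [← map_zloc_eq_zero_iff ℓ π, map_mul, mul_eq_zero] at hab ⊢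
    exact hab
  have hh0 : ¬ C (ℓ : Zloc ℓ) ∣ hh := by
    rintro ⟨u, hu⟩
    exact S.hbar (by
      rw [hu, Polynomial.map_mul, map_C, map_natCast, CharP.cast_eq_zero, map_zero, zero_mul])
  have hMle := Purity.fibreSubmonoid_le_nonZeroDivisors hϖ hh0
  haveI : IsDomain (CoverBaseRing ℓ hh) := IsLocalization.isDomain_localization hMle
  set fx : (Zloc ℓ)[X] →+* L := evalX sA x with hfx
  set fs : (Zloc ℓ)[X] →+* L := (algebraMap A L).comp sA with hfs
  have hfxX : fx X = x := by simp [hfx, evalX]
  have hfxC : ∀ a, fx (C a) = fs (C a) := by simp [hfx, hfs, evalX]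
  have hAL : Function.Injective (algebraMap A L) := by
    rw [IsScalarTower.algebraMap_eq A F L]
    exact (algebraMap F L).injective.comp (IsFractionRing.injective A F)
  have hfsinj : Function.Injective fs := hAL.comp (CoverSetting.sA_injective S)
  have hfxinj : Function.Injective fx := CoverSetting.evalX_injective S
  have hden : fx den ≠ 0 := by
    obtain ⟨i, hi⟩ := S.den_pow
    rw [hi, map_pow]
    exact pow_ne_zero _ (CoverSetting.evalB_ne_zero_of_map_ne_zero S S.hbar)
  have hsdiv : fs X = fx num / fx den := by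
    rw [eq_div_iff hden, hfx, S.rel, hfs, RingHom.comp_apply]
  -- the two rational function fields
  let K := IntermediateField.adjoin ℚ ({x} : Set L)
  let K₀ := IntermediateField.adjoin ℚ ({fs X} : Set L)
  have hfxK : ∀ p, fx p ∈ K := fun p => by
    have h := polyHom_mem_adjoin fx p
    rwa [hfxX] at h
  have hle : K₀ ≤ K := by
    rw [IntermediateField.adjoin_le_iff, Set.singleton_subset_iff, hsdiv]
    exact div_mem (hfxK num) (hfxK den)
  -- the base ring inside `K`
  have hmem : ∀ r : CoverBaseRing ℓ hh, S.baseToField r ∈ K := by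
    intro r
    obtain ⟨p, y, rfl⟩ := IsLocalization.exists_mk'_eq (Purity.fibreSubmonoid (ℓ : Zloc ℓ) hh) r
    have h1 : S.baseToField (IsLocalization.mk' _ p y) * fx y = fx p := by
      rw [hfx, ← S.baseToField_algebraMap, ← S.baseToField_algebraMap, ← map_mul,
        IsLocalization.mk'_spec]
    rw [eq_div_iff (S.isUnit_evalX y).ne_zero |>.mpr h1]
    exact div_mem (hfxK p) (hfxK y)
  let FR : CoverBaseRing ℓ hh →+* K := S.baseToField.codRestrict K hmem
  letI : Algebra (CoverBaseRing ℓ hh) K := FR.toAlgebra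
  haveI : IsScalarTower (CoverBaseRing ℓ hh) K L :=
    IsScalarTower.of_algebraMap_eq (R := CoverBaseRing ℓ hh) (S := K) (A := L) fun r => rfl
  haveI : IsFractionRing (CoverBaseRing ℓ hh) K :=
    isFractionRing_baseRing fx hfxinj hfxX (Purity.fibreSubmonoid (ℓ : Zloc ℓ) hh) FR
      (fun p => S.baseToField_algebraMap p)
  -- the degree of `L` over `K₀`
  set θL := algebraMap A L θ with hθL
  let σ₀ : (Zloc ℓ)[X] →+* K₀ := polyToAdjoin fs
  have hσ₀ : (algebraMap K₀ L).comp σ₀ = fs := RingHom.ext fun _ => rfl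
  have hQroot : Q.eval₂ fs θL = 0 := by
    rw [hfs, hθL, ← hom_eval₂, S.Q_root, map_zero]
  have hθint : IsIntegral K₀ θL :=
    ⟨Q.map σ₀, S.Q_monic.map _, by rw [eval₂_map, hσ₀, hQroot]⟩
  let M : IntermediateField K₀ L := IntermediateField.adjoin K₀ ({θL} : Set L)
  have hsK₀ : fs X ∈ K₀ := IntermediateField.mem_adjoin_simple_self ℚ _
  have hM : ∀ z, algebraMap F L z ∈ M.toSubfield := S.algebraMap_mem_of_gen M.toSubfield
    (M.algebraMap_mem ⟨fs X, hsK₀⟩) (IntermediateField.mem_adjoin_simple_self K₀ _)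
  haveI : FiniteDimensional K₀ M := IntermediateField.adjoin.finiteDimensional hθint
  have hM1 : Module.finrank K₀ M ≤ Q.natDegree := by
    rw [IntermediateField.adjoin.finrank hθint]
    refine (natDegree_le_of_dvd (minpoly.dvd K₀ θL (p := Q.map σ₀) ?_) (S.Q_monic.map σ₀).ne_zero).trans
      natDegree_map_le
    rw [aeval_def, eval₂_map, hσ₀, hQroot]
  let σA : A →+* M := (algebraMap A L).codRestrict M fun a => by
    rw [IsScalarTower.algebraMap_apply A F L]; exact hM _
  have hgroot : aeval x (g.map σA) = 0 := by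
    rw [aeval_def, eval₂_map]
    exact S.root.aeval_eq
  have hxint : IsIntegral M x := ⟨g.map σA, S.root.monic.map _, hgroot⟩
  have hxtop : IntermediateField.adjoin M ({x} : Set L) = ⊤ := by
    refine eq_top_iff.mpr fun z _ => ?_
    refine S.mem_of_gen (IntermediateField.adjoin M ({x} : Set L)).toSubfield ?_ ?_
      (IntermediateField.mem_adjoin_simple_self M x) z
    · exact (IntermediateField.adjoin M ({x} : Set L)).algebraMap_mem
        ⟨_, M.algebraMap_mem ⟨fs X, hsK₀⟩⟩
    · exact (IntermediateField.adjoin M ({x} : Set L)).algebraMap_mem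
        ⟨θL, IntermediateField.mem_adjoin_simple_self K₀ _⟩
  haveI : FiniteDimensional M L := by
    have := IntermediateField.adjoin.finiteDimensional hxint
    rw [hxtop] at this
    exact Module.Finite.equiv IntermediateField.topEquiv.toLinearEquiv
  have hM2 : Module.finrank M L ≤ g.natDegree := by
    rw [← IntermediateField.finrank_top' (F := M) (E := L), ← hxtop,
      IntermediateField.adjoin.finrank hxint]
    exact (natDegree_le_of_dvd (minpoly.dvd M x hgroot) (S.root.monic.map σA).ne_zero).trans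
      natDegree_map_le
  haveI : FiniteDimensional K₀ L := Module.Finite.trans M L
  have hK₀L : Module.finrank K₀ L ≤ g.natDegree * Q.natDegree := by
    rw [← Module.finrank_mul_finrank K₀ M L, mul_comm]
    exact Nat.mul_le_mul hM2 hM1
  letI : Algebra K₀ K := (IntermediateField.inclusion hle).toRingHom.toAlgebra
  haveI : IsScalarTower K₀ K L := IsScalarTower.of_algebraMap_eq fun _ => rfl
  haveI : FiniteDimensional K₀ K := FiniteDimensional.left K₀ K L
  haveI : FiniteDimensional K L := FiniteDimensional.right K₀ K L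
  have hd : q.natDegree ≤ Module.finrank K₀ K := by
    letI : Algebra (Zloc ℓ)[X] K₀ := σ₀.toAlgebra
    letI : Algebra (Zloc ℓ)[X] L := fs.toAlgebra
    haveI : IsScalarTower (Zloc ℓ)[X] K₀ L := IsScalarTower.of_algebraMap_eq fun _ => rfl
    haveI : IsFractionRing (Zloc ℓ)[X] K₀ := isFractionRing_polyToAdjoin fs hfsinj
    have hxK : x ∈ K := IntermediateField.mem_adjoin_simple_self ℚ x
    have hli : LinearIndependent (Zloc ℓ)[X] fun i : Fin q.natDegree => x ^ (i : ℕ) := by
      rw [Fintype.linearIndependent_iff]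
      intro c hc i
      have hlt : (∑ j : Fin q.natDegree, C (c j) * X ^ (j : ℕ) : ((Zloc ℓ)[X])[X]).degree
          < q.degree := by
        refine lt_of_lt_of_le (degree_sum_fin_lt c) ?_
        rw [degree_eq_natDegree]
        intro h0
        rw [h0, natDegree_zero] at i
        exact i.elim0
      have hzero := hq _ hlt (by
        rw [eval₂_finsetSum]
        simpa [Algebra.smul_def, RingHom.algebraMap_toAlgebra, hfs] using hc)
      have h2 := congrArg (fun p : ((Zloc ℓ)[X])[X] => p.coeff i) hzero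
      simpa [finset_sum_coeff, coeff_C_mul, coeff_X_pow, Fin.val_inj] using h2
    rw [LinearIndependent.iff_fractionRing (Zloc ℓ)[X] K₀] at hli
    have hliK : LinearIndependent K₀ fun i : Fin q.natDegree => (⟨x, hxK⟩ : K) ^ (i : ℕ) := by
      refine LinearIndependent.of_comp (IsScalarTower.toAlgHom K₀ K L).toLinearMap ?_
      simpa [Function.comp_def] using hli
    simpa using hliK.fintype_card_le_finrank
  have hn : Module.finrank K L * q.natDegree ≤ g.natDegree * Q.natDegree := by
    refine le_trans ?_ hK₀L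
    rw [← Module.finrank_mul_finrank K₀ K L, mul_comm (Module.finrank K₀ K)]
    exact Nat.mul_le_mul_left _ hd
  -- separability modulo `ℓ`
  obtain ⟨i, hi⟩ := S.den_pow
  have hdenmem : den ∈ Purity.fibreSubmonoid (ℓ : Zloc ℓ) hh :=
    hi ▸ pow_mem Purity.self_mem_fibreSubmonoid i
  obtain ⟨u, hu⟩ := (IsLocalization.map_units (CoverBaseRing ℓ hh)
    (⟨den, hdenmem⟩ : Purity.fibreSubmonoid (ℓ : Zloc ℓ) hh)).exists_left_inv
  let ψ : (Zloc ℓ)[X] →+* CoverBaseRing ℓ hh :=
    eval₂RingHom ((algebraMap (Zloc ℓ)[X] (CoverBaseRing ℓ hh)).comp C)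
      (algebraMap _ (CoverBaseRing ℓ hh) num * u)
  have hψ : S.baseToField.comp ψ = fs := by
    refine Polynomial.ringHom_ext (fun a => ?_) ?_
    · simp only [ψ, RingHom.comp_apply, coe_eval₂RingHom, eval₂_C]
      rw [S.baseToField_algebraMap, ← hfx, hfxC]
    · simp only [ψ, RingHom.comp_apply, coe_eval₂RingHom, eval₂_X, map_mul]
      have h1 := congrArg S.baseToField hu
      rw [map_mul, map_one, S.baseToField_algebraMap] at h1
      rw [hsdiv, eq_div_iff hden, S.baseToField_algebraMap, ← hfx, mul_assoc, h1, mul_one]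
  have hdenπ : den.map π ≠ 0 := by
    rw [hi, Polynomial.map_pow]; exact pow_ne_zero _ S.hbar
  obtain ⟨b, c, hc, a, ha⟩ := exists_bezout_cover (R := CoverBaseRing ℓ hh) π Q num den hh S.hbar
    hdenπ S.num_ne_C_mul_den S.sep ψ (fun a => by simp [ψ])
    (by simp only [ψ, coe_eval₂RingHom, eval₂_X]; rw [mul_assoc, hu, mul_one])
  have hgen : IntermediateField.adjoin K ({θL} : Set L) = ⊤ := by
    refine eq_top_iff.mpr fun z _ => ?_
    refine S.mem_of_gen (IntermediateField.adjoin K ({θL} : Set L)).toSubfield ?_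
      (IntermediateField.mem_adjoin_simple_self K _) ?_ z
    · exact (IntermediateField.adjoin K ({θL} : Set L)).algebraMap_mem ⟨fs X, hle hsK₀⟩
    · exact (IntermediateField.adjoin K ({θL} : Set L)).algebraMap_mem
        ⟨x, IntermediateField.mem_adjoin_simple_self ℚ x⟩
  have hroot : aeval θL (Q.map ψ) = 0 := by
    rw [aeval_def, eval₂_map]
    exact (congrArg (fun f => Q.eval₂ f θL) hψ).trans hQroot
  obtain ⟨e, he⟩ := Purity.exists_basis_isUnit_discr_line K L hϖ hh0
    ((algebraMap ℚ ℂ).comp (GaloisRep.ratLocalizedAt ℓ).subtype)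
    ((algebraMap ℚ ℂ).injective.comp Subtype.val_injective)
    ⟨θL, Q.map ψ, b, c, hgen, S.Q_monic.map _, hroot, hc, a, ha⟩
    (fun x₀ hx₀ => by
      obtain ⟨σ, hσ, hσ'⟩ := hemb x₀ hx₀
      refine ⟨σ, hσ, fun j p => ?_⟩
      rw [← hσ' j p, ← S.baseToField_algebraMap]
      rfl)
    (B := integralClosure (CoverBaseRing ℓ hh) L)
  exact ⟨Module.finrank K L, e, he, hn⟩

end FLTA.Smooth
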