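import Mathlib.FieldTheory.Separable
import Mathlib.Algebra.CharP.Algebra
import Mathlib.Algebra.BigOperators.Field
import Mathlib.Tactic.FieldSimp
import Mathlib.FieldTheory.Perfect
import Mathlib.FieldTheory.KummerPolynomial
import Mathlib.FieldTheory.IntermediateField.Adjoin.Basic
import Mathlib.FieldTheory.Minpoly.Field
import Mathlib.RingTheory.IntegralClosure.IsIntegralClosure.Basic

/-!
# Separability over `k(x)`

For a perfect field `k` of characteristic `p`: if `x` is not a `p`-th power in `E`, every element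
of `E` algebraic over `k(x)` is separable over `k(x)`.
-/

set_option autoImplicit false

open Polynomial IntermediateField

namespace FLTA.Smooth

variable {k E : Type*} [Field k] [Field E] [Algebra k E] (p : ℕ) [Fact p.Prime] [CharP E p]

theorem eq_zero_of_sum_pow_mul_eq_zero {x : E} (hx : ∀ z : E, z ^ p ≠ x) (R : Fin p → E)
    (h : ∑ r : Fin p, x ^ (r : ℕ) * R r ^ p = 0) (r : Fin p) : R r = 0 := by
  have hp : p.Prime := Fact.out
  have : ExpChar E p := ExpChar.prime hp
  set Ep := (frobenius E p).fieldRange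
  let a : Ep := ⟨x ^ p, x, rfl⟩
  have hirr : Irreducible (X ^ p - C a : Ep[X]) := by
    refine X_pow_sub_C_irreducible_of_prime hp fun b hb => ?_
    obtain ⟨z, hz⟩ := b.2
    have h1 : (b : E) ^ p = x ^ p := congrArg Subtype.val hb
    exact hx z (hz.trans (frobenius_inj E p h1))
  let f : Ep[X] := ∑ r : Fin p, C ⟨R r ^ p, R r, rfl⟩ * X ^ (r : ℕ)
  have hmono : (X ^ p - C a : Ep[X]).Monic := monic_X_pow_sub_C _ hp.ne_zero
  have hmin : minpoly Ep x = X ^ p - C a :=
    (minpoly.eq_of_irreducible_of_monic hirr (by simp [a]; exact sub_self _) hmono).symm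
  have hdeg : f.degree < (p : ℕ) := degree_sum_fin_lt fun r : Fin p => (⟨R r ^ p, R r, rfl⟩ : Ep)
  have hf0 : f = 0 := by
    by_contra hne
    have haev : aeval x f = 0 := by
      simp only [f, map_sum, map_mul, aeval_C, map_pow, aeval_X]
      rw [← h]
      exact Finset.sum_congr rfl fun i _ => mul_comm _ _
    have := minpoly.degree_le_of_ne_zero Ep x hne haev
    rw [hmin, degree_X_pow_sub_C hp.pos] at this
    exact absurd hdeg (not_lt.mpr this)
  have hc := congrArg (fun g : Ep[X] => g.coeff (r : ℕ)) hf0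
  simp only [f, finsetSum_coeff, coeff_C_mul_X_pow, coeff_zero] at hc
  rw [Finset.sum_eq_single r (fun b _ hb => if_neg fun h => hb (Fin.ext h.symm))
    (fun hh => absurd (Finset.mem_univ r) hh), if_pos rfl] at hc
  exact eq_zero_of_pow_eq_zero (congrArg Subtype.val hc)

theorem exists_sum_pow_mul_of_mem_adjoin [PerfectField k] [CharP k p] {x c : E}
    (hc : c ∈ k⟮x⟯) :
    ∃ d : Fin p → k⟮x⟯, c = ∑ r : Fin p, x ^ (r : ℕ) * (d r : E) ^ p := by
  have hp : p.Prime := Fact.out
  have : ExpChar E p := ExpChar.prime hp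
  have : ExpChar k p := ExpChar.prime hp
  have : PerfectRing k p := PerfectField.toPerfectRing p
  have hpoly : ∀ F : k[X], ∃ d : Fin p → k⟮x⟯,
      aeval x F = ∑ r : Fin p, x ^ (r : ℕ) * (d r : E) ^ p := by
    intro F
    induction F using Polynomial.induction_on' with
    | add F G hF hG =>
      obtain ⟨d, hd⟩ := hF
      obtain ⟨e, he⟩ := hG
      refine ⟨d + e, ?_⟩
      rw [map_add, hd, he, ← Finset.sum_add_distrib]
      refine Finset.sum_congr rfl fun r _ => ?_
      rw [Pi.add_apply, IntermediateField.coe_add, add_pow_char, mul_add]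
    | monomial n c =>
      obtain ⟨e, rfl⟩ := (frobeniusEquiv k p).surjective c
      let r₀ : Fin p := ⟨n % p, Nat.mod_lt _ hp.pos⟩
      refine ⟨fun r => if r = r₀ then
        algebraMap k k⟮x⟯ e * (AdjoinSimple.gen k x) ^ (n / p) else 0, ?_⟩
      rw [Finset.sum_eq_single r₀
        (fun b _ hb => by simp [if_neg hb, zero_pow hp.ne_zero])
        (fun hh => absurd (Finset.mem_univ r₀) hh)]
      dsimp only
      rw [if_pos rfl]
      simp only [aeval_monomial, frobeniusEquiv_apply, frobenius_def, map_pow,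
        IntermediateField.coe_mul, IntermediateField.coe_pow, AdjoinSimple.coe_gen, mul_pow]
      rw [← pow_mul, show x ^ n = x ^ (n % p) * x ^ (n / p * p) by
        rw [← pow_add, mul_comm, Nat.mod_add_div]]
      change _ = x ^ (n % p) * ((algebraMap k E e) ^ p * x ^ (n / p * p))
      ring
  obtain ⟨F, G, rfl⟩ := (mem_adjoin_simple_iff k c).mp hc
  obtain ⟨d, hd⟩ := hpoly (F * G ^ (p - 1))
  rcases eq_or_ne (aeval x G) 0 with h0 | h0
  · exact ⟨0, by simp [h0, zero_pow hp.ne_zero]⟩
  let g : k⟮x⟯ := ⟨aeval x G, algebra_adjoin_le_adjoin k _ (by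
    rw [Algebra.adjoin_singleton_eq_range_aeval]; exact ⟨G, rfl⟩)⟩
  refine ⟨fun r => d r / g, ?_⟩
  have key : aeval x F / aeval x G = aeval x (F * G ^ (p - 1)) / aeval x G ^ p := by
    rw [map_mul, map_pow, ← pow_sub_one_mul hp.ne_zero (aeval x G)]
    field_simp
  rw [key, hd, Finset.sum_div]
  refine Finset.sum_congr rfl fun r _ => ?_
  rw [IntermediateField.coe_div, div_pow, mul_div_assoc]

/-- **Separability criterion**: in characteristic `p`, over a perfect constant field, the
extension of `k(x)` is separable as soon as `x` is not a `p`-th power. -/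
theorem isSeparable_of_forall_pow_ne [PerfectField k] [CharP k p] {x : E}
    (hx : ∀ z : E, z ^ p ≠ x) {y : E} (hy : IsIntegral k⟮x⟯ y) : IsSeparable k⟮x⟯ y := by
  have hp : p.Prime := Fact.out
  have : ExpChar E p := ExpChar.prime hp
  have : CharP k⟮x⟯ p := charP_of_injective_algebraMap (algebraMap k k⟮x⟯).injective p
  rcases separable_or p (minpoly.irreducible hy) with hsep | ⟨-, g, -, hg⟩
  · exact hsep
  exfalso
  choose d hd using fun i => exists_sum_pow_mul_of_mem_adjoin p (g.coeff i).2
  set n := g.natDegree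
  have hdeg : (minpoly k⟮x⟯ y).natDegree = n * p := by rw [← hg, natDegree_expand]
  have hn : n ≠ 0 := by
    intro h0
    exact (minpoly.natDegree_pos hy).ne' (by rw [hdeg, h0, zero_mul])
  have hzero : ∑ r : Fin p,
      x ^ (r : ℕ) * (∑ i ∈ Finset.range (n + 1), (d i r : E) * y ^ i) ^ p = 0 := by
    have h := minpoly.aeval k⟮x⟯ y
    rw [← hg, expand_aeval, aeval_eq_sum_range] at h
    simp only [Algebra.smul_def] at h
    rw [← h]
    simp_rw [sum_pow_char, Finset.mul_sum, mul_pow, ← pow_mul]
    rw [Finset.sum_comm]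
    refine Finset.sum_congr rfl fun i _ => ?_
    rw [show (algebraMap k⟮x⟯ E) (g.coeff i) = (g.coeff i : E) from rfl, hd i, Finset.sum_mul]
    exact Finset.sum_congr rfl fun r _ => by rw [mul_comm i p]; ring
  have hall : ∀ i ∈ Finset.range (n + 1), ∀ r, d i r = 0 := by
    intro i hi r
    have hR := eq_zero_of_sum_pow_mul_eq_zero p hx _ hzero r
    have hlt : n + 1 ≤ (minpoly k⟮x⟯ y).natDegree := by
      rw [hdeg]
      have := hp.two_le
      nlinarith [Nat.pos_of_ne_zero hn]
    have hind := (linearIndependent_pow (K := k⟮x⟯) y).comp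
      (Fin.castLE hlt) (Fin.castLE_injective hlt)
    have := Fintype.linearIndependent_iff.mp hind (fun j : Fin (n + 1) => d j r) (by
      rw [← Fin.sum_univ_eq_sum_range (fun i => (d i r : E) * y ^ i)] at hR
      simpa [Algebra.smul_def] using hR) ⟨i, Finset.mem_range.mp hi⟩
    exact this
  have hlead : g.coeff n = 1 := by
    have := minpoly.monic hy
    rw [← hg, monic_expand_iff hp.pos] at this
    exact this.leadingCoeff
  have := hd n
  rw [hlead] at this
  simp [hall n (Finset.self_mem_range_succ n), zero_pow hp.ne_zero] at this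

end FLTA.Smooth
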