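import Fermat.Prelude.Def_ModularCurve_LaurentCoeff
import Mathlib.RingTheory.PowerSeries.Ideal
import Mathlib.RingTheory.Localization.FractionRing
import Mathlib.RingTheory.IntegralClosure.IntegrallyClosed
import Mathlib.RingTheory.Polynomial.RationalRoot

/-!
# Integrality of coefficients of Laurent series

If `O` is a principal ideal domain, `O((q))` is integrally closed: a Laurent series over a field
containing `O` which is a ratio of series over `O` and integral over `O((q))` has coefficients in
`O`.
-/

set_option autoImplicit false

noncomputable section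

open ModularCurve

namespace FLTA.Smooth

variable {O K : Type*} [CommRing O] [IsDomain O] [Field K] {ι : O →+* K}

omit [IsDomain O] in
theorem coeffMap_injective (hι : Function.Injective ι) : Function.Injective (coeffMap ι) := by
  intro x y h
  ext n
  exact hι (by simpa using congrArg (fun z : LaurentSeries K => z.coeff n) h)

variable [IsPrincipalIdealRing O]

theorem isIntegrallyClosed_laurentSeries : IsIntegrallyClosed (LaurentSeries O) :=
  isIntegrallyClosed_of_isLocalization (LaurentSeries O)
    (Submonoid.powers (PowerSeries.X : PowerSeries O))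
    (powers_le_nonZeroDivisors_of_noZeroDivisors PowerSeries.X_ne_zero)

/-- A ratio of `O`-integral series which is integral over `O((q))` is `O`-integral. -/
theorem exists_coeffMap_eq (hι : Function.Injective ι) {y : LaurentSeries K}
    (hfrac : ∃ a b : LaurentSeries O, b ≠ 0 ∧ y * coeffMap ι b = coeffMap ι a)
    (hint : (coeffMap ι).IsIntegralElem y) :
    ∃ z : LaurentSeries O, coeffMap ι z = y := by
  obtain ⟨a, b, hb, hab⟩ := hfrac
  obtain ⟨P, hP, hPy⟩ := hint
  have : IsIntegrallyClosed (LaurentSeries O) := isIntegrallyClosed_laurentSeries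
  have hinj := coeffMap_injective (ι := ι) hι
  let ψ : FractionRing (LaurentSeries O) →+* LaurentSeries K :=
    IsFractionRing.lift (A := LaurentSeries O) hinj
  have hψ : ∀ x, ψ (algebraMap (LaurentSeries O) _ x) = coeffMap ι x := fun x =>
    IsFractionRing.lift_algebraMap hinj x
  set z : FractionRing (LaurentSeries O) :=
    algebraMap (LaurentSeries O) _ a / algebraMap (LaurentSeries O) _ b with hz
  have hb' : coeffMap ι b ≠ 0 := fun h => hb (hinj (h.trans (map_zero _).symm))
  have hψz : ψ z = y := by
    rw [hz, map_div₀, hψ, hψ, div_eq_iff hb', hab]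
  have hzint : IsIntegral (LaurentSeries O) z := by
    refine ⟨P, hP, ψ.injective ?_⟩
    have hc : ψ.comp (algebraMap (LaurentSeries O) _) = coeffMap ι := RingHom.ext hψ
    rw [Polynomial.hom_eval₂, map_zero, hψz, hc, hPy]
  obtain ⟨x, hx⟩ := IsIntegrallyClosed.isIntegral_iff.mp hzint
  exact ⟨x, by rw [← hψ, hx, hψz]⟩

end FLTA.Smooth
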