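import Fermat.Prelude.Def_ModularCurve_IgusaScheme
import Fermat.Prelude.Def_ModularCurve_X0ModL
import Fermat.Agent.Smooth.IntegralSeries
import Fermat.Agent.Smooth.LocalizedBase

/-!
# Integral `q`-expansions of the charts of `X₀(N)`
-/

set_option autoImplicit false

noncomputable section

open ModularCurve ModularCurve.IgusaScheme

namespace FLTA.Smooth

theorem isUnit_jqModC (R : Type*) [CommRing R] : IsUnit (jqModC R) := by
  rw [jqModC]
  refine IsUnit.mul ?_ ?_
  · exact IsUnit.of_mul_eq_one (HahnSeries.single (1 : ℤ) (1 : R)) (by simp)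
  · refine IsUnit.map _ (PowerSeries.isUnit_iff_constantCoeff.mpr ?_)
    rw [← PowerSeries.coeff_zero_eq_constantCoeff, PowerSeries.coeff_map,
      PowerSeries.coeff_zero_eq_constantCoeff, constantCoeff_jNum, map_one]
    exact isUnit_one

theorem coeffMap_inv_jqModC {R K : Type*} [CommRing R] [Field K] (f : R →+* K) :
    coeffMap f ((isUnit_jqModC R).unit⁻¹ : (LaurentSeries R)ˣ) = (jqModC K)⁻¹ := by
  refine eq_inv_of_mul_eq_one_right ?_
  rw [← coeffMap_jqModC f, ← map_mul, IsUnit.mul_val_inv, map_one]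

variable (ℓ : ℕ)

/-- The inclusion `ℤ_(ℓ)((q)) → ℚ((q))`. -/
abbrev seriesIncl : LaurentSeries (Zloc ℓ) →+* LaurentSeries ℚ :=
  coeffMap (GaloisRep.ratLocalizedAt ℓ).subtype

theorem seriesIncl_injective : Function.Injective (seriesIncl ℓ) :=
  coeffMap_injective Subtype.val_injective

theorem seriesIncl_single_zero (c : Zloc ℓ) :
    seriesIncl ℓ (HahnSeries.single 0 c) = algebraMap ℚ (LaurentSeries ℚ) (c : ℚ) := by
  rw [algebraMap_apply_eq_single]
  exact coeffMap_single _ _ _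

/-- Ratios of `ℤ_(ℓ)`-integral Laurent series. -/
def integralRatios : Subfield (LaurentSeries ℚ) :=
  Subfield.closure (Set.range (seriesIncl ℓ))

theorem exists_frac_of_mem_integralRatios {y : LaurentSeries ℚ} (hy : y ∈ integralRatios ℓ) :
    ∃ a b : LaurentSeries (Zloc ℓ), b ≠ 0 ∧ y * seriesIncl ℓ b = seriesIncl ℓ a := by
  obtain ⟨z, hz, w, hw, rfl⟩ := Subfield.mem_closure_iff.mp hy
  have hrange : Subring.closure (Set.range (seriesIncl ℓ)) ≤ (seriesIncl ℓ).range :=
    Subring.closure_le.mpr (by rintro _ ⟨x, rfl⟩; exact ⟨x, rfl⟩)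
  obtain ⟨a, rfl⟩ := hrange hz
  obtain ⟨b, rfl⟩ := hrange hw
  rcases eq_or_ne b 0 with rfl | hb
  · exact ⟨0, 1, one_ne_zero, by simp⟩
  · exact ⟨a, b, hb, div_mul_cancel₀ _ fun h => hb
      (seriesIncl_injective ℓ (h.trans (map_zero _).symm))⟩

theorem algebraMap_mem_integralRatios (c : ℚ) :
    algebraMap ℚ (LaurentSeries ℚ) c ∈ integralRatios ℓ :=
  (eq_ratCast (algebraMap ℚ (LaurentSeries ℚ)) c).symm ▸ SubfieldClass.ratCast_mem (integralRatios ℓ) c

variable (N : ℕ) [NeZero N]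

omit [NeZero N] in
theorem full_le_integralRatios (y : ↥(modularFunctionFieldFull N)) :
    (y : LaurentSeries ℚ) ∈ integralRatios ℓ := by
  obtain ⟨x, hx⟩ := y
  show x ∈ integralRatios ℓ
  have h : (modularFunctionFieldFull N).toSubfield ≤ integralRatios ℓ := by
    rw [modularFunctionFieldFull, IntermediateField.adjoin_toSubfield, Subfield.closure_le]
    rintro z (⟨c, rfl⟩ | ⟨d, hd, -, rfl⟩)
    · exact algebraMap_mem_integralRatios ℓ c
    · refine Subfield.subset_closure ⟨qExpand (Zloc ℓ) d (jqModC (Zloc ℓ)), ?_⟩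
      rw [coeffMap_qExpand, coeffMap_jqModC]
      rfl
  exact h hx

variable [Fact ℓ.Prime]

/-- If all elements of `S` have integral expansions, so does the chart of `S`. -/
theorem exists_lift_of_mem_chartAlg {S : Set ↥(modularFunctionFieldFull N)}
    (hS : ∀ x ∈ S, ∃ z, seriesIncl ℓ z = (x : LaurentSeries ℚ))
    (y : ↥(modularFunctionFieldFull N)) (hy : y ∈ chartAlg N ℓ S) :
    ∃ z, seriesIncl ℓ z = (y : LaurentSeries ℚ) := by
  have := isPrincipalIdealRing_zloc ℓ
  refine exists_coeffMap_eq Subtype.val_injective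
    (exists_frac_of_mem_integralRatios ℓ (full_le_integralRatios ℓ N y)) ?_
  have hA : ∀ x ∈ Algebra.adjoin (Zloc ℓ) S,
      ((x : ↥(modularFunctionFieldFull N)) : LaurentSeries ℚ) ∈ (seriesIncl ℓ).range := by
    intro x hx
    induction hx using Algebra.adjoin_induction with
    | mem x hx => exact hS x hx
    | algebraMap c =>
      refine ⟨HahnSeries.single 0 c, (seriesIncl_single_zero ℓ c).trans ?_⟩
      exact RingHom.congr_fun (Subsingleton.elim (algebraMap ℚ (LaurentSeries ℚ))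
        ((algebraMap ↥(modularFunctionFieldFull N) (LaurentSeries ℚ)).comp
          (algebraMap ℚ ↥(modularFunctionFieldFull N)))) (c : ℚ)
    | add a b _ _ ha hb => exact add_mem ha hb
    | mul a b _ _ ha hb => exact mul_mem ha hb
  obtain ⟨P, hP, hPy⟩ := (mem_chartAlg_iff N ℓ).mp hy
  let f : ↥(Algebra.adjoin (Zloc ℓ) S) →+* LaurentSeries ℚ :=
    (algebraMap ↥(modularFunctionFieldFull N) (LaurentSeries ℚ)).comp (algebraMap _ ↥(modularFunctionFieldFull N))
  have hf : (P.map f).eval (y : LaurentSeries ℚ) = 0 := by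
    rw [Polynomial.eval_map]
    have := congrArg (algebraMap ↥(modularFunctionFieldFull N) (LaurentSeries ℚ)) hPy
    rw [Polynomial.hom_eval₂, map_zero] at this
    exact this
  have hl : P.map f ∈ Polynomial.lifts (seriesIncl ℓ) :=
    (Polynomial.lifts_iff_coeff_lifts _).mpr fun i => by
      obtain ⟨z, hz⟩ := hA _ (P.coeff i).2
      exact ⟨z, by rw [Polynomial.coeff_map]; exact hz.trans rfl⟩
  obtain ⟨Q, hQ, -, hQm⟩ := Polynomial.lifts_and_natDegree_eq_and_monic hl (hP.map f)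
  exact ⟨Q, hQm, by rw [Polynomial.eval₂_eq_eval_map, hQ, hf]⟩

theorem exists_lift_jFull :
    ∃ z, seriesIncl ℓ z = ((jFull N : ↥(modularFunctionFieldFull N)) : LaurentSeries ℚ) :=
  ⟨jqModC (Zloc ℓ), by rw [coeffMap_jqModC]; rfl⟩

theorem exists_lift_inv_jFull :
    ∃ z, seriesIncl ℓ z = (((jFull N)⁻¹ : ↥(modularFunctionFieldFull N)) : LaurentSeries ℚ) :=
  ⟨((isUnit_jqModC (Zloc ℓ)).unit⁻¹ : (LaurentSeries (Zloc ℓ))ˣ), by
    rw [coeffMap_inv_jqModC, IntermediateField.coe_inv]; rfl⟩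

end FLTA.Smooth
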