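import Fermat.Prelude.Def_ModularCurve_IgusaScheme
import Fermat.Prelude.Def_ModularCurve_X0ModL
import Fermat.Agent.Igusa.Degree
import Fermat.Agent.Smooth.ChartSeries

/-!
# Integral equations for the chart parameters

For `s = j` or `s = j⁻¹` a generator `τ` of the level-`N` field over `K(s)`, with an equation over
`ℤ[s]` of degree `ψ(N)` valid over every commutative ring.
-/

set_option autoImplicit false

noncomputable section

open ModularCurve ModularCurve.IgusaScheme Polynomial IntermediateField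

namespace FLTA.Smooth

/-- The two chart parameters `j` and `j⁻¹`. -/
def IsChartParam (N : ℕ) [NeZero N] (s : ↥(modularFunctionFieldFull N)) : Prop :=
  s = jFull N ∨ s = (jFull N)⁻¹

theorem isChartParam_jFull (N : ℕ) [NeZero N] : IsChartParam N (jFull N) := Or.inl rfl

theorem isChartParam_inv_jFull (N : ℕ) [NeZero N] : IsChartParam N (jFull N)⁻¹ := Or.inr rfl

/-- The series of an integral series over any ring. -/
abbrev seriesTo (R : Type*) [CommRing R] : LaurentSeries ℤ →+* LaurentSeries R :=
  coeffMap (Int.castRingHom R)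

theorem coeffMap_seriesTo {R S : Type*} [CommRing R] [CommRing S] (f : R →+* S)
    (x : LaurentSeries ℤ) : coeffMap f (seriesTo R x) = seriesTo S x := by
  rw [seriesTo, coeffMap_coeffMap, RingHom.ext_int (f.comp (Int.castRingHom R)) (Int.castRingHom S)]

/-- Evaluation of integral polynomials. -/
abbrev evalZ {R : Type*} [CommRing R] (x : R) : Polynomial ℤ →+* R :=
  Polynomial.eval₂RingHom (Int.castRingHom R) x

/-- Data of an integral generator for a chart parameter. -/
structure ChartEquation (N : ℕ) [NeZero N] (s : ↥(modularFunctionFieldFull N)) where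
  /-- the parameter series -/
  σ : LaurentSeries ℤ
  /-- the generator series -/
  τ : LaurentSeries ℤ
  /-- the generator -/
  θ : ↥(modularFunctionFieldFull N)
  /-- its equation -/
  Q : Polynomial (Polynomial ℤ)
  coe_s : (s : LaurentSeries ℚ) = seriesTo ℚ σ
  coe_θ : (θ : LaurentSeries ℚ) = seriesTo ℚ τ
  monic : Q.Monic
  natDegree_eq : Q.natDegree = dedekindPsi N
  eval_eq_zero : Q.eval₂ (evalZ σ) τ = 0
  jField_eq : ∀ (K : Type) [Field K], Igusa.jField K = IntermediateField.adjoin K {seriesTo K σ}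
  adjoin_eq : ∀ (K : Type) [Field K], (N : K) ≠ 0 →
    IntermediateField.adjoin K {seriesTo K σ, seriesTo K τ} = modularFunctionFieldFullC K N
  pow_ne : ∀ (K : Type) [Field K] (p : ℕ), p.Prime → ∀ z : LaurentSeries K, z ^ p ≠ seriesTo K σ

theorem seriesTo_jqModC (R : Type*) [CommRing R] : seriesTo R (jqModC ℤ) = jqModC R :=
  coeffMap_jqModC _

theorem seriesTo_jqNModC (R : Type*) [CommRing R] (N : ℕ) [NeZero N] :
    seriesTo R (jqNModC ℤ N) = jqNModC R N :=
  coeffMap_jqNModC _ _

theorem order_jqModC (K : Type*) [Field K] : (jqModC K).order = -1 := by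
  refine le_antisymm (HahnSeries.order_le_of_coeff_ne_zero (by simp [coeff_jqModC_neg_one])) ?_
  by_contra h
  exact HahnSeries.coeff_order_eq_zero.not.mpr (jqModC_ne_zero_of_nontrivial K)
    (coeff_jqModC_of_lt K (not_le.mp h))

theorem pow_ne_jqModC (K : Type*) [Field K] (p : ℕ) (hp : p.Prime) (z : LaurentSeries K) :
    z ^ p ≠ jqModC K := by
  intro h
  have h1 := congrArg HahnSeries.order h
  rw [HahnSeries.order_pow, order_jqModC, nsmul_eq_mul] at h1
  have : (p : ℤ) ∣ -1 := ⟨_, h1.symm⟩
  rw [Int.dvd_neg, ← Nat.cast_one, Int.natCast_dvd_natCast] at this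
  exact hp.one_lt.ne' (Nat.dvd_one.mp this)

theorem adjoin_jqModC_pair (K : Type) [Field K] (N : ℕ) [NeZero N] (hN : (N : K) ≠ 0) :
    IntermediateField.adjoin K {jqModC K, jqNModC K N} = modularFunctionFieldFullC K N :=
  Igusa.modularFunctionFieldC_eq_full K N hN

/-- The equation of the chart at finite `j`. -/
def chartEquationFin (N : ℕ) [NeZero N] (d : ModularPolynomialData N) :
    ChartEquation N (jFull N) where
  σ := jqModC ℤ
  τ := jqNModC ℤ N
  θ := ⟨jqN N, modularFunctionField_le_full N (jqN_mem N)⟩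
  Q := d.Φ
  coe_s := by rw [seriesTo_jqModC, coe_jFull, jqModC_rat]
  coe_θ := by rw [seriesTo_jqNModC, jqNModC_rat]
  monic := d.monic
  natDegree_eq := d.natDegree_eq
  eval_eq_zero := by
    apply coeffMap_injective (ι := Int.castRingHom ℚ) Int.cast_injective
    rw [Polynomial.hom_eval₂, map_zero, seriesTo_jqNModC ℚ N, jqNModC_rat, ← d.eval_eq_zero]
    refine congrArg (fun f => Polynomial.eval₂ f (jqN N) d.Φ)
      (Polynomial.ringHom_ext' (Subsingleton.elim _ _) ?_)
    simp [seriesTo_jqModC, jqModC_rat]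
  jField_eq K _ := by rw [seriesTo_jqModC]
  adjoin_eq K _ hN := by rw [seriesTo_jqModC, seriesTo_jqNModC, adjoin_jqModC_pair K N hN]
  pow_ne K _ p hp z := by rw [seriesTo_jqModC]; exact pow_ne_jqModC K p hp z

/-- The integral series `1/j`. -/
def invJSeries : LaurentSeries ℤ := ((isUnit_jqModC ℤ).unit⁻¹ : (LaurentSeries ℤ)ˣ)

theorem seriesTo_invJSeries (K : Type*) [Field K] : seriesTo K invJSeries = (jqModC K)⁻¹ :=
  coeffMap_inv_jqModC _

/-- The bound used to clear poles at infinity. -/
def infExponent (Φ : Polynomial (Polynomial ℤ)) : ℕ :=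
  Φ.support.sup fun i => (Φ.coeff i).natDegree

theorem natDegree_coeff_le_infExponent (Φ : Polynomial (Polynomial ℤ)) (i : ℕ) :
    (Φ.coeff i).natDegree ≤ infExponent Φ := by
  by_cases h : i ∈ Φ.support
  · exact Finset.le_sup (f := fun i => (Φ.coeff i).natDegree) h
  · simp [Polynomial.notMem_support_iff.mp h]

/-- The equation of `j_N / j^m` over `ℤ[1/j]`. -/
def infPoly (Φ : Polynomial (Polynomial ℤ)) : Polynomial (Polynomial ℤ) :=
  X ^ Φ.natDegree + ∑ i ∈ Finset.range Φ.natDegree,
    C (Polynomial.reflect (infExponent Φ * (Φ.natDegree - i)) (Φ.coeff i)) * X ^ i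

theorem infPoly_degree_lt (Φ : Polynomial (Polynomial ℤ)) :
    (∑ i ∈ Finset.range Φ.natDegree,
      C (Polynomial.reflect (infExponent Φ * (Φ.natDegree - i)) (Φ.coeff i)) * X ^ i).degree <
        (Φ.natDegree : WithBot ℕ) := by
  refine (Polynomial.degree_sum_le _ _).trans_lt ?_
  refine (Finset.sup_lt_iff (WithBot.bot_lt_coe _)).mpr fun i hi => ?_
  exact (Polynomial.degree_C_mul_X_pow_le _ _).trans_lt
    (WithBot.coe_lt_coe.mpr (Finset.mem_range.mp hi))

theorem infPoly_monic (Φ : Polynomial (Polynomial ℤ)) : (infPoly Φ).Monic :=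
  Polynomial.monic_X_pow_add (infPoly_degree_lt Φ)

theorem infPoly_natDegree (Φ : Polynomial (Polynomial ℤ)) :
    (infPoly Φ).natDegree = Φ.natDegree := by
  refine Polynomial.natDegree_eq_of_degree_eq_some ?_
  rw [infPoly, Polynomial.degree_add_eq_left_of_degree_lt]
  · exact Polynomial.degree_X_pow _
  · rw [Polynomial.degree_X_pow]; exact infPoly_degree_lt Φ

theorem infPoly_eval {R : Type*} [CommRing R] (x y : R) [Invertible x]
    {Φ : Polynomial (Polynomial ℤ)} (hΦ : Φ.Monic)
    (h : Φ.eval₂ (evalZ x) y = 0) :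
    (infPoly Φ).eval₂ (evalZ (⅟x)) (y * ⅟x ^ infExponent Φ) = 0 := by
  set m := infExponent Φ
  set n := Φ.natDegree
  have key : ∀ i, i ≤ n → evalZ (⅟x) (Polynomial.reflect (m * (n - i)) (Φ.coeff i))
      * (y * ⅟x ^ m) ^ i = ⅟x ^ (m * n) * (evalZ x (Φ.coeff i) * y ^ i) := by
    intro i hi
    rcases hi.lt_or_eq with hlt | rfl
    · have h1 := Polynomial.eval₂_reflect_mul_pow (Int.castRingHom R) x (m * (n - i)) (Φ.coeff i)
        ((natDegree_coeff_le_infExponent Φ i).trans (Nat.le_mul_of_pos_right _ (by omega)))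
      have hone : x ^ (m * (n - i)) * ⅟x ^ (m * (n - i)) = 1 := by
        rw [← mul_pow, mul_invOf_self, one_pow]
      rw [Polynomial.coe_eval₂RingHom, Polynomial.coe_eval₂RingHom, ← h1, mul_pow, ← pow_mul,
        show m * n = m * (n - i) + m * i by rw [← mul_add, Nat.sub_add_cancel hi], pow_add]
      linear_combination (-(Polynomial.eval₂ (Int.castRingHom R) (⅟x)
        (Polynomial.reflect (m * (n - i)) (Φ.coeff i))) * y ^ i * ⅟x ^ (m * i)) * hone
    · simp [n, hΦ.coeff_natDegree, mul_pow, ← pow_mul]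
      ring
  have hsum : (infPoly Φ).eval₂ (evalZ (⅟x)) (y * ⅟x ^ m) =
      ∑ i ∈ Finset.range (n + 1),
        evalZ (⅟x) (Polynomial.reflect (m * (n - i)) (Φ.coeff i)) *
          (y * ⅟x ^ m) ^ i := by
    rw [infPoly, Polynomial.eval₂_add, Polynomial.eval₂_finsetSum, Finset.sum_range_succ, add_comm]
    congr 1
    · exact Finset.sum_congr rfl fun i _ => by simp [m, n]
    · simp [n, hΦ.coeff_natDegree]
  rw [hsum, Finset.sum_congr rfl fun i hi => key i (Nat.lt_succ_iff.mp (Finset.mem_range.mp hi)),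
    ← Finset.mul_sum]
  rw [Polynomial.eval₂_eq_sum_range] at h
  rw [show (∑ i ∈ Finset.range (n + 1), evalZ x (Φ.coeff i) * y ^ i) = 0 from h,
    mul_zero]

/-- The equation of the chart at infinity. -/
def chartEquationInf (N : ℕ) [NeZero N] (d : ModularPolynomialData N) :
    ChartEquation N (jFull N)⁻¹ where
  σ := invJSeries
  τ := jqNModC ℤ N * invJSeries ^ infExponent d.Φ
  θ := ⟨jqN N, modularFunctionField_le_full N (jqN_mem N)⟩ * (jFull N)⁻¹ ^ infExponent d.Φ
  Q := infPoly d.Φ
  coe_s := by rw [seriesTo_invJSeries, IntermediateField.coe_inv, coe_jFull, jqModC_rat]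
  coe_θ := by
    rw [map_mul, map_pow, seriesTo_invJSeries, seriesTo_jqNModC, jqModC_rat, jqNModC_rat,
      IntermediateField.coe_mul, IntermediateField.coe_pow, IntermediateField.coe_inv, coe_jFull]
  monic := infPoly_monic _
  natDegree_eq := (infPoly_natDegree _).trans d.natDegree_eq
  eval_eq_zero := by
    let : Invertible (jqModC ℤ) := (isUnit_jqModC ℤ).unit.invertible
    exact infPoly_eval (jqModC ℤ) (jqNModC ℤ N) d.monic (chartEquationFin N d).eval_eq_zero
  jField_eq K _ := by
    rw [seriesTo_invJSeries]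
    refine le_antisymm ?_ ?_ <;> rw [IntermediateField.adjoin_simple_le_iff]
    · simpa using inv_mem (IntermediateField.mem_adjoin_simple_self K (jqModC K)⁻¹)
    · exact inv_mem (IntermediateField.mem_adjoin_simple_self K _)
  adjoin_eq K _ hN := by
    rw [map_mul, map_pow, seriesTo_invJSeries, seriesTo_jqNModC, ← adjoin_jqModC_pair K N hN]
    set u := (jqModC K)⁻¹ with hu
    have hu0 : u ≠ 0 := inv_ne_zero (jqModC_ne_zero_of_nontrivial K)
    refine le_antisymm ?_ ?_ <;> rw [IntermediateField.adjoin_le_iff] <;> intro a ha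
    · rcases ha with rfl | rfl
      · exact inv_mem (subset_adjoin K _ (Set.mem_insert _ _))
      · exact mul_mem (subset_adjoin K _ (Set.mem_insert_of_mem _ rfl))
          (pow_mem (inv_mem (subset_adjoin K _ (Set.mem_insert _ _))) _)
    · have hu' : u ∈ IntermediateField.adjoin K {u, jqNModC K N * u ^ infExponent d.Φ} :=
        subset_adjoin K _ (Set.mem_insert _ _)
      rcases ha with rfl | rfl
      · simpa [hu] using inv_mem hu'
      · have h2 := mul_mem (subset_adjoin K {u, jqNModC K N * u ^ infExponent d.Φ}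
          (Set.mem_insert_of_mem _ rfl)) (inv_mem (pow_mem hu' (infExponent d.Φ)))
        rwa [mul_assoc, mul_inv_cancel₀ (pow_ne_zero _ hu0), mul_one] at h2
  pow_ne K _ p hp z := by
    rw [seriesTo_invJSeries]
    intro h
    exact pow_ne_jqModC K p hp z⁻¹ (by rw [inv_pow, h, inv_inv])

end FLTA.Smooth
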