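import Mathlib.RingTheory.Norm.Transitivity
import Mathlib.RingTheory.Localization.Module
import Mathlib.Algebra.MvPolynomial.Funext
import Mathlib.FieldTheory.IsAlgClosed.AlgebraicClosure
import Mathlib.RingTheory.IntegralClosure.IntegrallyClosed

/-!
Norms of integral elements are integral, as a polynomial identity in the coefficients; hence
norms in a specialisation `E / K'` of `L / Frac A` lie in the algebra generated by the image of
the normal domain `A`.
-/

set_option autoImplicit false

open MvPolynomial Matrix

namespace FLTA.Smooth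

section NormPoly

variable {A K L : Type*} [CommRing A] [IsIntegrallyClosed A]
  [Field K] [Algebra A K] [IsFractionRing A K] [CharZero K]
  [Field L] [Algebra K L] [Algebra A L] [IsScalarTower A K L]

/-- The norm form of finitely many integral elements has coefficients in the normal base ring. -/
theorem exists_normPoly {κ ι : Type*} [Fintype κ] [DecidableEq κ] [Fintype ι]
    (e : Module.Basis κ K L) (b : ι → L) (hb : ∀ i, IsIntegral A (b i)) :
    ∃ Q : MvPolynomial ι A,
      (∑ i, (X i : MvPolynomial ι K) • (Algebra.leftMulMatrix e (b i)).map C).det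
        = MvPolynomial.map (algebraMap A K) Q := by
  classical
  have : FiniteDimensional K L := Module.Finite.of_basis e
  have : Algebra.IsSeparable K L := inferInstance
  have : Infinite K := Infinite.of_injective ((↑) : ℕ → K) Nat.cast_injective
  let Ω := AlgebraicClosure K
  set P : MvPolynomial ι K :=
    (∑ i, (X i : MvPolynomial ι K) • (Algebra.leftMulMatrix e (b i)).map C).det with hP
  let O := integralClosure A Ω
  -- product of conjugate linear forms, over the integral closure
  let R : MvPolynomial ι O := ∏ σ : L →ₐ[K] Ω,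
    ∑ i, X i * C ⟨σ (b i), (hb i).map (σ.restrictScalars A)⟩
  have key : MvPolynomial.map (algebraMap K Ω) P
      = MvPolynomial.map (algebraMap O Ω) R := by
    refine MvPolynomial.funext_set (fun _ => Set.range (algebraMap K Ω))
      (fun _ => Set.infinite_range_of_injective (algebraMap K Ω).injective) ?_
    intro x hx
    choose v hv using fun i => hx i trivial
    obtain rfl : (fun i => algebraMap K Ω (v i)) = x := funext hv
    have h1 : eval v P = Algebra.norm K (∑ i, v i • b i) := by
      rw [hP, RingHom.map_det, Algebra.norm_eq_matrix_det e]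
      congr 1
      rw [map_sum, map_sum]
      refine Finset.sum_congr rfl fun i _ => ?_
      ext a c
      simp [Matrix.map_apply]
    have h2 : eval (fun i => algebraMap K Ω (v i)) (MvPolynomial.map (algebraMap K Ω) P)
        = algebraMap K Ω (eval v P) := by
      rw [eval_map]
      exact (eval₂_comp _ _ _).symm
    rw [h2, h1, Algebra.norm_eq_prod_embeddings K Ω, map_prod, map_prod]
    refine Finset.prod_congr rfl fun σ _ => ?_
    rw [map_sum, map_sum, map_sum]
    refine Finset.sum_congr rfl fun i _ => ?_
    simp [Algebra.smul_def]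
  have hcoeff : ∀ m, ∃ a : A, algebraMap A K a = P.coeff m := by
    intro m
    refine IsIntegrallyClosed.isIntegral_iff.mp ?_
    have hint : IsIntegral A (algebraMap K Ω (P.coeff m)) := by
      rw [← coeff_map, key, coeff_map]
      exact (R.coeff m).2
    exact (isIntegral_algebraMap_iff (algebraMap K Ω).injective).mp hint
  choose a ha using hcoeff
  refine ⟨∑ m ∈ P.support, monomial m (a m), ?_⟩
  rw [map_sum]
  conv_lhs => rw [P.as_sum]
  simp only [map_monomial, ha]

end NormPoly

section Specialise

variable {A B L K' E : Type*} [CommRing A] [IsDomain A] [IsIntegrallyClosed A] [CharZero A]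
  [CommRing B] [Algebra A B] [Algebra.IsIntegral A B]
  [Field L] [Algebra A L] [Algebra B L] [IsScalarTower A B L]
  [Algebra (FractionRing A) L] [IsScalarTower A (FractionRing A) L]
  [Field K'] [CommRing E] [Algebra K' E]

/-- **Specialised norm form.** Let `B` be integral over the normal domain `A`, spanned by `e`
after inverting `s`, and let `ψ : B → E` lie over `φ : A → K'` with `φ s ≠ 0`, sending `e` to a
basis. Then the norm of a combination of `ψ (b i)` is an `A`-polynomial in the coefficients. -/
theorem exists_normPoly_specialise {κ ι : Type*} [Fintype κ] [DecidableEq κ] [Fintype ι]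
    (e : κ → B) (s : A)
    (hBL : Function.Injective (algebraMap B L))
    (hL : Submodule.span (FractionRing A) (Set.range (algebraMap B L)) = ⊤)
    (hli : LinearIndependent A e)
    (hspan : ∀ b : B, s • b ∈ Submodule.span A (Set.range e))
    (φ : A →+* K') (hs : φ s ≠ 0) (ψ : B →+* E)
    (hcompat : ∀ a, ψ (algebraMap A B a) = algebraMap K' E (φ a))
    (eE : Module.Basis κ K' E) (heE : ∀ i, eE i = ψ (e i)) (b : ι → B) :
    ∃ Q : MvPolynomial ι A, ∀ v : ι → K',
      Algebra.norm K' (∑ i, v i • ψ (b i)) = eval₂ φ v Q := by
  classical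
  have : CharZero (FractionRing A) :=
    charZero_of_injective_algebraMap (IsFractionRing.injective A (FractionRing A))
  have hs0 : s ≠ 0 := fun h => hs (by simp [h])
  set K := FractionRing A
  -- matrices over `A`
  have hmat : ∀ b : B, ∃ M : Matrix κ κ A, ∀ j, s • (b * e j) = ∑ i, M i j • e i := by
    intro b
    choose M hM using fun j =>
      (Submodule.mem_span_range_iff_exists_fun A).mp (hspan (b * e j))
    exact ⟨fun i j => M j i, fun j => (hM j).symm⟩
  choose M hM using hmat
  -- basis of `L`
  let π : B →ₐ[A] L := IsScalarTower.toAlgHom A B L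
  have hsL : algebraMap A K s ≠ 0 :=
    fun h => hs0 (IsFractionRing.injective A K (by simpa using h))
  have hliL : LinearIndependent K (π ∘ e) :=
    (LinearIndependent.iff_fractionRing (R := A) (K := K)).mp
      (hli.map' π.toLinearMap (LinearMap.ker_eq_bot.mpr hBL))
  have hspL : ⊤ ≤ Submodule.span K (Set.range (π ∘ e)) := by
    rw [← hL, Submodule.span_le]
    rintro _ ⟨b, rfl⟩
    obtain ⟨c, hc⟩ := (Submodule.mem_span_range_iff_exists_fun A).mp (hspan b)
    have h1 : algebraMap B L b = (algebraMap A K s)⁻¹ • ∑ i, algebraMap A K (c i) • π (e i) := by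
      rw [eq_inv_smul_iff₀ hsL]
      simp only [algebraMap_smul]
      have := congrArg π hc
      simp only [map_sum, map_smul] at this
      rw [this]
      rfl
    rw [h1]
    refine Submodule.smul_mem _ _ (Submodule.sum_mem _ fun i _ => Submodule.smul_mem _ _ ?_)
    exact Submodule.subset_span ⟨i, rfl⟩
  let eL := Module.Basis.mk hliL hspL
  obtain ⟨Q, hQ⟩ := exists_normPoly eL (fun i => π (b i))
    (fun i => (Algebra.IsIntegral.isIntegral (R := A) (b i)).map π)
  refine ⟨Q, fun v => ?_⟩
  have hlm : ∀ i, Algebra.leftMulMatrix eL (π (b i))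
      = (algebraMap A K s)⁻¹ • (M (b i)).map (algebraMap A K) := by
    intro i
    ext a c
    have h1 : π (b i) * eL c
        = ∑ a', ((algebraMap A K s)⁻¹ * algebraMap A K (M (b i) a' c)) • eL a' := by
      simp only [mul_smul, ← Finset.smul_sum, eL, Module.Basis.mk_apply, Function.comp_apply]
      rw [eq_inv_smul_iff₀ hsL]
      simp only [algebraMap_smul]
      simpa using congrArg π (hM (b i) c)
    rw [Algebra.leftMulMatrix_eq_repr_mul, h1, Module.Basis.repr_sum_self, Matrix.smul_apply,
      Matrix.map_apply, smul_eq_mul]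
  set PA : MvPolynomial ι A :=
    (∑ i, (X i : MvPolynomial ι A) • (M (b i)).map MvPolynomial.C).det with hPA
  have hPQ : PA = MvPolynomial.C (s ^ Fintype.card κ) * Q := by
    apply MvPolynomial.map_injective (algebraMap A K) (IsFractionRing.injective A K)
    have h2 : (∑ i, (X i : MvPolynomial ι A) •
          (M (b i)).map (MvPolynomial.C : A → MvPolynomial ι A)).map
          (MvPolynomial.map (algebraMap A K))
        = (MvPolynomial.C (algebraMap A K s) : MvPolynomial ι K) •
          ∑ i, (X i : MvPolynomial ι K) •
            (Algebra.leftMulMatrix eL (π (b i))).map MvPolynomial.C := by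
      refine Matrix.ext fun a c => ?_
      simp only [Matrix.map_apply, Matrix.sum_apply, Matrix.smul_apply, smul_eq_mul, map_sum,
        map_mul, MvPolynomial.map_X, MvPolynomial.map_C, Finset.mul_sum, hlm]
      refine Finset.sum_congr rfl fun i _ => ?_
      rw [mul_left_comm, ← map_mul, ← map_mul, mul_inv_cancel_left₀ hsL]
    rw [hPA, RingHom.map_det, RingHom.mapMatrix_apply, h2, Matrix.det_smul, hQ, map_mul,
      MvPolynomial.map_C, map_pow, map_pow]
  -- specialise
  have hψ : ∀ (a : A) (x : B), ψ (a • x) = φ a • ψ x := fun a x => by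
    rw [Algebra.smul_def, map_mul, hcompat, ← Algebra.smul_def]
  have hlmb : Algebra.leftMulMatrix eE (∑ i, v i • ψ (b i))
      = (φ s)⁻¹ • ∑ i, v i • (M (b i)).map φ := by
    ext a c
    have h1 : ∀ i, ψ (b i) * eE c = (φ s)⁻¹ • ∑ a', φ (M (b i) a' c) • eE a' := by
      intro i
      simp only [heE]
      rw [eq_inv_smul_iff₀ hs]
      have := congrArg ψ (hM (b i) c)
      simp only [map_sum, hψ, map_mul] at this
      exact this
    rw [Algebra.leftMulMatrix_eq_repr_mul, Finset.sum_mul]
    simp only [smul_mul_assoc, h1, map_sum, map_smul, Finsupp.coe_finsetSum, Finset.sum_apply,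
      Finsupp.smul_apply, Module.Basis.repr_self, Finsupp.single_apply, smul_eq_mul,
      Matrix.smul_apply, Matrix.sum_apply, Matrix.map_apply, mul_ite, mul_one, mul_zero,
      Finset.sum_ite_eq', Finset.mem_univ, if_true, Finset.mul_sum]
    exact Finset.sum_congr rfl fun i _ => mul_left_comm _ _ _
  have h3 : (∑ i, v i • (M (b i)).map φ)
      = ((∑ i, (X i : MvPolynomial ι A) • (M (b i)).map MvPolynomial.C)).map (eval₂Hom φ v) := by
    ext a c
    simp [Matrix.sum_apply]
  rw [Algebra.norm_eq_matrix_det eE, hlmb, Matrix.det_smul, h3, ← RingHom.mapMatrix_apply,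
    ← RingHom.map_det, ← hPA, hPQ, map_mul, eval₂Hom_C, map_pow, inv_pow, ← mul_assoc,
    inv_mul_cancel₀ (pow_ne_zero _ hs), one_mul, coe_eval₂Hom]

/-- Norms of `k`-combinations of specialised integral elements lie in the `k`-algebra generated
by the specialisation of the normal base. -/
theorem norm_mem_adjoin {k : Type*} [CommRing k] [Algebra k K'] [Algebra k E]
    [IsScalarTower k K' E] {κ : Type*} [Fintype κ] [DecidableEq κ] (e : κ → B) (s : A)
    (hBL : Function.Injective (algebraMap B L))
    (hL : Submodule.span (FractionRing A) (Set.range (algebraMap B L)) = ⊤)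
    (hli : LinearIndependent A e)
    (hspan : ∀ b : B, s • b ∈ Submodule.span A (Set.range e))
    (φ : A →+* K') (hs : φ s ≠ 0) (ψ : B →+* E)
    (hcompat : ∀ a, ψ (algebraMap A B a) = algebraMap K' E (φ a))
    (eE : Module.Basis κ K' E) (heE : ∀ i, eE i = ψ (e i))
    (y : E) (hy : y ∈ Submodule.span k (Set.range ψ)) :
    Algebra.norm K' y ∈ Algebra.adjoin k (Set.range φ) := by
  classical
  obtain ⟨n, c, w, rfl⟩ := Submodule.mem_span_set'.mp hy
  choose b hb using fun i : Fin n => (w i).2
  obtain ⟨Q, hQ⟩ := exists_normPoly_specialise e s hBL hL hli hspan φ hs ψ hcompat eE heE b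
  have h1 : (∑ i, c i • (w i : E)) = ∑ i, algebraMap k K' (c i) • ψ (b i) := by
    simp only [algebraMap_smul, hb]
  rw [h1, hQ, eval₂_eq]
  exact sum_mem fun d _ => mul_mem (Algebra.subset_adjoin ⟨_, rfl⟩)
    (prod_mem fun i _ => pow_mem (Subalgebra.algebraMap_mem _ _) _)

end Specialise

end FLTA.Smooth
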