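import Fermat.Agent.Smooth.Upstairs
import Fermat.Agent.Smooth.NormDescentPoly
import Mathlib.RingTheory.AdjoinRoot
import Mathlib.FieldTheory.Separable

/-!
# Reduction of the integral closure of a normal ring in a simple extension

For a monic `g` over a normal domain `A`, irreducible over the fraction field with root `x`, whose
reduction under `red : A → K'` is separable, the integral closure `B` of `A` in `L = F(x)` maps
canonically to `E = K'[X]/(ḡ)`, and norms and traces commute with this reduction.
-/

set_option autoImplicit false

noncomputable section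

open Polynomial

namespace FLTA.Smooth

variable {A F L K' : Type*} [CommRing A] [IsDomain A] [IsIntegrallyClosed A]
  [Field F] [Algebra A F] [IsFractionRing A F] [CharZero F]
  [Field L] [Algebra F L] [Algebra A L] [IsScalarTower A F L]
  [Field K']

/-- A reduction situation: `g` monic over `A`, root `x` generating `L / F`, separable mod `red`. -/
structure CoverRoot (g : A[X]) (x : L) (red : A →+* K') : Prop where
  monic : g.Monic
  aeval_eq : aeval x g = 0
  minpoly_eq : minpoly F x = g.map (algebraMap A F)
  adjoin_eq : IntermediateField.adjoin F ({x} : Set L) = ⊤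
  separable : (g.map red).Separable

variable {g : A[X]} {x : L} {red : A →+* K'}

/-- The model `A[X]/(g)` inside `L`. -/
def modelToField (h : CoverRoot (F := F) g x red) : AdjoinRoot g →ₐ[A] L :=
  AdjoinRoot.liftAlgHom g (Algebra.ofId A L) x (by simpa [aeval_def] using h.aeval_eq)

/-- The model `A[X]/(g)` mapped to the reduced algebra. -/
def modelRed (g : A[X]) (red : A →+* K') : AdjoinRoot g →+* AdjoinRoot (g.map red) :=
  AdjoinRoot.map red g (g.map red) dvd_rfl

@[simp] theorem modelToField_root (h : CoverRoot (F := F) g x red) :
    modelToField h (AdjoinRoot.root g) = x := by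
  simp [modelToField]

@[simp] theorem modelToField_of (h : CoverRoot (F := F) g x red) (a : A) :
    modelToField h (AdjoinRoot.of g a) = algebraMap A L a :=
  (modelToField h).commutes a

omit [IsDomain A] [IsIntegrallyClosed A] [IsFractionRing A F] [CharZero F] in
@[simp] theorem modelRed_root :
    modelRed g red (AdjoinRoot.root g) = AdjoinRoot.root (g.map red) := by
  simp [modelRed]

omit [IsDomain A] [IsIntegrallyClosed A] [IsFractionRing A F] [CharZero F] in
@[simp] theorem modelRed_algebraMap (a : A) :
    modelRed g red (algebraMap A (AdjoinRoot g) a) =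
      algebraMap K' (AdjoinRoot (g.map red)) (red a) := by
  simp [modelRed, AdjoinRoot.algebraMap_eq]

/-- The power basis of the model. -/
def modelBasis (h : CoverRoot (F := F) g x red) :
    Module.Basis (Fin g.natDegree) A (AdjoinRoot g) :=
  (AdjoinRoot.powerBasis' h.monic).basis.reindex (finCongr (AdjoinRoot.powerBasis'_dim h.monic))

theorem modelBasis_apply (h : CoverRoot (F := F) g x red) (i : Fin g.natDegree) :
    modelBasis h i = AdjoinRoot.root g ^ (i : ℕ) := by
  simp [modelBasis, PowerBasis.coe_basis]

/-- The power basis of the reduced algebra. -/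
def redBasis (h : CoverRoot (F := F) g x red) :
    Module.Basis (Fin g.natDegree) K' (AdjoinRoot (g.map red)) :=
  (AdjoinRoot.powerBasis' (h.monic.map red)).basis.reindex
    (finCongr ((AdjoinRoot.powerBasis'_dim (h.monic.map red)).trans (h.monic.natDegree_map red)))

theorem redBasis_apply (h : CoverRoot (F := F) g x red) (i : Fin g.natDegree) :
    redBasis h i = modelRed g red (modelBasis h i) := by
  rw [modelBasis_apply, map_pow, modelRed_root]
  simp [redBasis, PowerBasis.coe_basis]

theorem isIntegral_root (h : CoverRoot (F := F) g x red) : IsIntegral F x :=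
  ⟨g.map (algebraMap A F), h.monic.map _, by
    rw [← aeval_def, aeval_map_algebraMap, h.aeval_eq]⟩

/-- The power basis of `L / F`. -/
def fieldPowerBasis (h : CoverRoot (F := F) g x red) : PowerBasis F L :=
  (IntermediateField.adjoin.powerBasis (isIntegral_root h)).map
    ((IntermediateField.equivOfEq h.adjoin_eq).trans IntermediateField.topEquiv)

theorem fieldPowerBasis_gen (h : CoverRoot (F := F) g x red) :
    (fieldPowerBasis h).gen = x := by
  simp [fieldPowerBasis]

theorem fieldPowerBasis_dim (h : CoverRoot (F := F) g x red) :
    (fieldPowerBasis h).dim = g.natDegree := by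
  simp [fieldPowerBasis, h.minpoly_eq, h.monic.natDegree_map]

/-- The field basis indexed like the model basis. -/
def fieldBasis (h : CoverRoot (F := F) g x red) : Module.Basis (Fin g.natDegree) F L :=
  (fieldPowerBasis h).basis.reindex (finCongr (fieldPowerBasis_dim h))

theorem fieldBasis_apply (h : CoverRoot (F := F) g x red) (i : Fin g.natDegree) :
    fieldBasis h i = modelToField h (modelBasis h i) := by
  rw [modelBasis_apply, map_pow, modelToField_root]
  simp [fieldBasis, PowerBasis.coe_basis, fieldPowerBasis_gen]

theorem modelToField_injective (h : CoverRoot (F := F) g x red) :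
    Function.Injective (modelToField h) := by
  classical
  rw [injective_iff_map_eq_zero]
  intro t ht
  rw [← (modelBasis h).sum_repr t] at ht ⊢
  simp only [map_sum, map_smul, ← fieldBasis_apply, ← algebraMap_smul F (_ : A) (_ : L)] at ht
  have h0 := Fintype.linearIndependent_iff.mp (fieldBasis h).linearIndependent _ ht
  refine Finset.sum_eq_zero fun i _ => ?_
  rw [IsFractionRing.injective A F ((h0 i).trans (map_zero _).symm), zero_smul]

/-- `N (g'(x))`, the discriminant up to sign. -/
def coverDelta (g : A[X]) : A := Algebra.norm A (aeval (AdjoinRoot.root g) (derivative g))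

theorem red_coverDelta_ne_zero (h : CoverRoot (F := F) g x red) : red (coverDelta g) ≠ 0 := by
  classical
  have hcomp : ∀ r : A, modelRed g red (algebraMap A (AdjoinRoot g) r) =
      algebraMap K' (AdjoinRoot (g.map red)) (red r) := modelRed_algebraMap
  haveI := Module.Finite.of_basis (redBasis h)
  have hm := leftMulMatrix_map (Rb := K') (κ := K') red (modelRed g red) hcomp (modelBasis h)
    (redBasis h) (redBasis_apply h) (aeval (AdjoinRoot.root g) (derivative g))
  have key : red (coverDelta g) = Algebra.norm K' (modelRed g red
      (aeval (AdjoinRoot.root g) (derivative g))) := by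
    rw [coverDelta, Algebra.norm_eq_matrix_det (modelBasis h), Algebra.norm_eq_matrix_det (redBasis h),
      hm, RingHom.map_det]
    rfl
  rw [key]
  refine IsUnit.ne_zero (IsUnit.map (Algebra.norm K') ?_)
  obtain ⟨a, b, hab⟩ := h.separable
  have h1 := congrArg (aeval (AdjoinRoot.root (g.map red))) hab
  rw [map_add, map_mul, map_mul, map_one, AdjoinRoot.aeval_eq (g.map red),
    AdjoinRoot.mk_self, mul_zero, zero_add, derivative_map] at h1
  have h2 : modelRed g red (aeval (AdjoinRoot.root g) (derivative g)) =
      aeval (AdjoinRoot.root (g.map red)) ((derivative g).map red) := by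
    rw [aeval_def, aeval_def, hom_eval₂, eval₂_map, modelRed_root]
    congr 1
    exact RingHom.ext hcomp
  rw [h2]
  exact .of_mul_eq_one _ (by rw [mul_comm]; exact h1)

theorem algebraMap_coverDelta (h : CoverRoot (F := F) g x red) :
    algebraMap A F (coverDelta g) = Algebra.norm F (aeval x (derivative g)) := by
  classical
  have hcomp : ∀ r : A, (modelToField h).toRingHom (algebraMap A (AdjoinRoot g) r) =
      algebraMap F L (algebraMap A F r) := fun r => by
    simp [← IsScalarTower.algebraMap_apply A F L]
  haveI := Module.Finite.of_basis (fieldBasis h)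
  have hm := leftMulMatrix_map (Rb := F) (κ := F) (algebraMap A F) (modelToField h).toRingHom hcomp
    (modelBasis h) (fieldBasis h) (fieldBasis_apply h) (aeval (AdjoinRoot.root g) (derivative g))
  rw [coverDelta, Algebra.norm_eq_matrix_det (modelBasis h), Algebra.norm_eq_matrix_det (fieldBasis h),
    RingHom.map_det]
  have h2 : aeval x (derivative g) =
      (modelToField h).toRingHom (aeval (AdjoinRoot.root g) (derivative g)) := by
    show _ = modelToField h _
    rw [← aeval_algHom_apply, modelToField_root]
  rw [h2, hm]
  rfl

theorem exists_model_eq (h : CoverRoot (F := F) g x red) {z : L} (hz : IsIntegral A z) :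
    ∃ t : AdjoinRoot g, modelToField h t = algebraMap A L (coverDelta g) * z := by
  haveI : FiniteDimensional F L := (fieldPowerBasis h).finite
  haveI : Algebra.IsSeparable F L := inferInstance
  have hint : IsIntegral A (fieldPowerBasis h).gen := by
    rw [fieldPowerBasis_gen]; exact ⟨g, h.monic, h.aeval_eq⟩
  have hmem := Algebra.discr_mul_isIntegral_mem_adjoin F hint hz
  rw [Algebra.discr_powerBasis_eq_norm, fieldPowerBasis_gen, h.minpoly_eq, derivative_map,
    aeval_map_algebraMap, ← algebraMap_coverDelta h,
    Algebra.adjoin_singleton_eq_range_aeval] at hmem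
  set ε : A := (-1) ^ (Module.finrank F L * (Module.finrank F L - 1) / 2) with hε
  obtain ⟨p, hp⟩ := hmem
  refine ⟨algebraMap A (AdjoinRoot g) ε * aeval (AdjoinRoot.root g) p, ?_⟩
  rw [map_mul, AlgHom.commutes, ← aeval_algHom_apply, modelToField_root]
  have hp' : aeval x p = algebraMap A L (ε * coverDelta g) * z := by
    refine hp.trans ?_
    rw [Algebra.smul_def, hε, IsScalarTower.algebraMap_apply A F L]
    simp only [map_mul, map_pow, map_neg, map_one]
  rw [hp', ← mul_assoc, ← map_mul, ← mul_assoc]
  have hεε : ε * ε = 1 := by rw [hε, ← mul_pow]; simp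
  rw [hεε, one_mul]

/-- The element of the model representing `δ z`. -/
def modelLift (h : CoverRoot (F := F) g x red) (z : integralClosure A L) : AdjoinRoot g :=
  Classical.choose (exists_model_eq h z.2)

theorem modelLift_spec (h : CoverRoot (F := F) g x red) (z : integralClosure A L) :
    modelToField h (modelLift h z) = algebraMap A L (coverDelta g) * (z : L) :=
  Classical.choose_spec (exists_model_eq h z.2)

/-- The reduction `B → E` of the integral closure. -/
def coverRed (h : CoverRoot (F := F) g x red) :
    integralClosure A L →+* AdjoinRoot (g.map red) where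
  toFun z := (red (coverDelta g))⁻¹ • modelRed g red (modelLift h z)
  map_one' := by
    have ht : (modelLift h (1 : integralClosure A L)) =
        algebraMap A (AdjoinRoot g) (coverDelta g) := modelToField_injective h (by
      rw [modelLift_spec h (1 : integralClosure A L), AlgHom.commutes]
      simp)
    rw [ht, modelRed_algebraMap, Algebra.algebraMap_eq_smul_one, smul_smul,
      inv_mul_cancel₀ (red_coverDelta_ne_zero h), one_smul]
  map_mul' a b := by
    have ht : (modelLift h a) * (modelLift h b) =
        algebraMap A (AdjoinRoot g) (coverDelta g) * (modelLift h (a * b)) :=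
      modelToField_injective h (by
        rw [map_mul, map_mul, AlgHom.commutes, modelLift_spec h a,
          modelLift_spec h b, modelLift_spec h (a * b),
          Subalgebra.coe_mul]
        ring)
    rw [smul_mul_smul_comm, ← map_mul, ht, map_mul, modelRed_algebraMap, ← Algebra.smul_def,
      smul_smul, mul_assoc, inv_mul_cancel₀ (red_coverDelta_ne_zero h), mul_one]
  map_zero' := by
    have ht : (modelLift h (0 : integralClosure A L)) = 0 := modelToField_injective h (by
      rw [modelLift_spec h (0 : integralClosure A L), map_zero]; simp)
    rw [ht, map_zero, smul_zero]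
  map_add' a b := by
    have ht : (modelLift h (a + b)) =
        (modelLift h a) + (modelLift h b) :=
      modelToField_injective h (by
        rw [map_add, modelLift_spec h a, modelLift_spec h b,
          modelLift_spec h (a + b), Subalgebra.coe_add, mul_add])
    rw [ht, map_add, smul_add]

theorem coverRed_of_eq (h : CoverRoot (F := F) g x red) (z : integralClosure A L) (t : AdjoinRoot g)
    (ht : modelToField h t = z) : coverRed h z = modelRed g red t := by
  have ht' : (modelLift h z) =
      algebraMap A (AdjoinRoot g) (coverDelta g) * t := modelToField_injective h (by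
    rw [modelLift_spec h z, map_mul, AlgHom.commutes, ht])
  show (red (coverDelta g))⁻¹ • modelRed g red _ = _
  rw [ht', map_mul, modelRed_algebraMap, ← Algebra.smul_def, smul_smul,
    inv_mul_cancel₀ (red_coverDelta_ne_zero h), one_smul]

theorem coverRed_algebraMap (h : CoverRoot (F := F) g x red) (a : A) :
    coverRed h (algebraMap A (integralClosure A L) a) =
      algebraMap K' (AdjoinRoot (g.map red)) (red a) := by
  rw [coverRed_of_eq h _ (algebraMap A (AdjoinRoot g) a) (by simp), modelRed_algebraMap]

/-- The root as an element of the integral closure. -/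
def coverX (h : CoverRoot (F := F) g x red) : integralClosure A L :=
  ⟨x, ⟨g, h.monic, h.aeval_eq⟩⟩

theorem coverRed_coverX (h : CoverRoot (F := F) g x red) :
    coverRed h (coverX h) = AdjoinRoot.root (g.map red) := by
  rw [coverRed_of_eq h _ (AdjoinRoot.root g) (by simp [coverX]), modelRed_root]

theorem coverX_pow_linearIndependent (h : CoverRoot (F := F) g x red) :
    LinearIndependent A fun i : Fin g.natDegree => coverX h ^ (i : ℕ) := by
  refine LinearIndependent.of_comp (integralClosure A L).val.toLinearMap ?_
  have h2 := (fieldBasis h).linearIndependent.restrict_scalars (R := A) (by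
    intro a b hab
    simpa [Algebra.smul_def] using IsFractionRing.injective A F (by simpa [Algebra.smul_def] using hab))
  convert h2 using 1
  funext i
  simp [fieldBasis_apply, modelBasis_apply, coverX]

variable {k : Type*} [CommRing k] [Algebra k K']

/-- Norms of reductions lie in the algebra generated by the reductions of `A`. -/
theorem norm_mem_adjoin_range (h : CoverRoot (F := F) g x red) (y : AdjoinRoot (g.map red))
    (hy : y ∈ Submodule.span k (Set.range (coverRed h))) :
    Algebra.norm K' y ∈ Algebra.adjoin k (Set.range red) := by
  haveI : CharZero A := ⟨fun m n hmn => Nat.cast_injective (R := F) (by simpa using congrArg (algebraMap A F) hmn)⟩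
  letI : Algebra (FractionRing A) L :=
    ((algebraMap F L).comp (FractionRing.algEquiv A F).toRingEquiv.toRingHom).toAlgebra
  haveI : IsScalarTower A (FractionRing A) L := IsScalarTower.of_algebraMap_eq fun a => by
    rw [RingHom.algebraMap_toAlgebra, IsScalarTower.algebraMap_apply A F L]
    simp
  refine norm_mem_adjoin (B := integralClosure A L) (L := L)
    (fun i : Fin g.natDegree => coverX h ^ (i : ℕ)) (coverDelta g) Subtype.val_injective ?_
    (coverX_pow_linearIndependent h) ?_ red (red_coverDelta_ne_zero h) (coverRed h)
    (coverRed_algebraMap h) (redBasis h) ?_ y hy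
  · rw [eq_top_iff]
    intro z _
    rw [← (fieldBasis h).sum_repr z]
    refine Submodule.sum_mem _ fun i _ => ?_
    obtain ⟨c, hc⟩ := (FractionRing.algEquiv A F).surjective ((fieldBasis h).repr z i)
    have : (fieldBasis h).repr z i • fieldBasis h i =
        c • algebraMap (integralClosure A L) L (coverX h ^ (i : ℕ)) := by
      rw [Algebra.smul_def c, RingHom.algebraMap_toAlgebra, ← hc, Algebra.smul_def]
      congr 1
      simp [fieldBasis_apply, modelBasis_apply, coverX]
    rw [this]
    exact Submodule.smul_mem _ _ (Submodule.subset_span ⟨_, rfl⟩)
  · intro b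
    obtain ⟨t, ht⟩ := exists_model_eq h b.2
    rw [Submodule.mem_span_range_iff_exists_fun]
    refine ⟨fun i => (modelBasis h).repr t i, Subtype.val_injective ?_⟩
    rw [Subalgebra.coe_smul, Algebra.smul_def, AddSubmonoidClass.coe_finsetSum]
    rw [← ht]
    conv_rhs => rw [← (modelBasis h).sum_repr t, map_sum]
    refine Finset.sum_congr rfl fun i _ => ?_
    simp [map_smul, modelBasis_apply, coverX]
  · intro i
    rw [redBasis_apply, modelBasis_apply, map_pow, map_pow, modelRed_root, coverRed_coverX]

/-- Traces of reductions lie in the span of the reductions of `A`. -/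
theorem trace_mem_span_range (h : CoverRoot (F := F) g x red) (y : AdjoinRoot (g.map red))
    (hy : y ∈ Submodule.span k (Set.range (coverRed h)))
    :
    Algebra.trace K' (AdjoinRoot (g.map red)) y ∈ Submodule.span k (Set.range red) := by
  induction hy using Submodule.span_induction with
  | zero => simp
  | add a b _ _ ha hb => rw [map_add]; exact Submodule.add_mem _ ha hb
  | smul c a _ ha =>
    rw [← algebraMap_smul K' c a, map_smul, algebraMap_smul]
    exact Submodule.smul_mem _ _ ha
  | mem w hw =>
    obtain ⟨z, rfl⟩ := hw
    obtain ⟨t, ht⟩ := exists_model_eq h z.2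
    haveI : FiniteDimensional F L := (fieldPowerBasis h).finite
    obtain ⟨a, ha⟩ := (IsIntegrallyClosed.isIntegral_iff (R := A) (K := F)).mp
      (Algebra.isIntegral_trace (R := A) (L := F) (F := L) z.2)
    refine Submodule.subset_span ⟨a, ?_⟩
    have hcompF : ∀ r : A, (modelToField h).toRingHom (algebraMap A (AdjoinRoot g) r) =
        algebraMap F L (algebraMap A F r) := fun r => by
      rw [← IsScalarTower.algebraMap_apply A F L]; exact (modelToField h).commutes r
    have h1 := trace_map (Rb := F) (κ := F) (algebraMap A F) (modelToField h).toRingHom hcompF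
      (modelBasis h) (fieldBasis h) (fieldBasis_apply h) t
    haveI := Module.Finite.of_basis (redBasis h)
    have h2 := trace_map (Rb := K') (κ := K') red (modelRed g red) modelRed_algebraMap
      (modelBasis h) (redBasis h) (redBasis_apply h) t
    have h3 : Algebra.trace A (AdjoinRoot g) t = coverDelta g * a := by
      apply IsFractionRing.injective A F
      have h1' : Algebra.trace F L (algebraMap A L (coverDelta g) * (z : L)) =
          algebraMap A F (Algebra.trace A (AdjoinRoot g) t) := by
        rw [← ht]; exact h1
      rw [← h1', IsScalarTower.algebraMap_apply A F L, ← Algebra.smul_def, map_smul, smul_eq_mul,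
        ← ha, map_mul]
    have h4 : coverRed h z = (red (coverDelta g))⁻¹ • modelRed g red t := by
      have : (modelLift h z) = t := modelToField_injective h (by
        rw [modelLift_spec h z, ht])
      show (red (coverDelta g))⁻¹ • modelRed g red _ = _
      rw [this]
    rw [h4, map_smul, h2, h3, smul_eq_mul]
    show red a = _ * algebraMap K' K' (red (coverDelta g * a))
    rw [Algebra.algebraMap_self_apply, map_mul, inv_mul_cancel_left₀ (red_coverDelta_ne_zero h)]

end FLTA.Smooth
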