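import Fermat.Agent.Smooth.CoverSetting
import Fermat.Agent.Smooth.Purity.Main

/-!
# The base ring of a cover: `ℤ_(ℓ)[X]` localised at the fibre units of `h`

Interface for purity applied to a cover.
-/

set_option autoImplicit false

noncomputable section

open Polynomial

namespace FLTA.Smooth

variable (ℓ : ℕ)

/-- The field of rational functions in the cover variable. -/
abbrev CoverField : Type := FractionRing (Polynomial ℚ)

/-- The base ring of a cover. -/
abbrev CoverBaseRing (hh : (Zloc ℓ)[X]) : Type :=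
  Localization (Purity.fibreSubmonoid (ℓ : Zloc ℓ) hh)

variable {ℓ} {k A F L K' : Type*} [Field k] [CommRing A] [IsDomain A] [IsIntegrallyClosed A]
  [Field F] [Algebra A F] [IsFractionRing A F] [CharZero F]
  [Field L] [Algebra F L] [Algebra A L] [IsScalarTower A F L]
  [Field K'] [Algebra k K']
  {π : Zloc ℓ →+* k} {sA : (Zloc ℓ)[X] →+* A} {θ : A} {Q : ((Zloc ℓ)[X])[X]}
  {num den hh : (Zloc ℓ)[X]} {g : A[X]} {x : L} {red : A →+* K'} {t : K'}
  [Fact ℓ.Prime] [CharP k ℓ] [IsAlgClosed k]

theorem CoverSetting.isUnit_evalX (S : CoverSetting (F := F) π sA θ Q num den hh g x red t)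
    (y : Purity.fibreSubmonoid (ℓ : Zloc ℓ) hh) : IsUnit (evalX sA x (y : (Zloc ℓ)[X])) := by
  obtain ⟨c, i, hc, u, hu⟩ := y.2
  refine (CoverSetting.evalB_ne_zero_of_map_ne_zero S ?_).isUnit
  have h1 : (y : (Zloc ℓ)[X]) = C c * hh ^ i + C (ℓ : Zloc ℓ) * u := by rw [← hu]; ring
  rw [h1, Polynomial.map_add, Polynomial.map_mul, Polynomial.map_mul, map_C, map_C,
    Polynomial.map_pow, map_natCast, CharP.cast_eq_zero, map_zero, zero_mul, add_zero]
  exact mul_ne_zero (C_ne_zero.mpr (hc.map π).ne_zero) (pow_ne_zero _ S.hbar)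

/-- The base ring inside `L`, the variable going to `x`. -/
def CoverSetting.baseToField (S : CoverSetting (F := F) π sA θ Q num den hh g x red t) :
    CoverBaseRing ℓ hh →+* L :=
  IsLocalization.lift (M := Purity.fibreSubmonoid (ℓ : Zloc ℓ) hh) S.isUnit_evalX

theorem CoverSetting.baseToField_algebraMap (S : CoverSetting (F := F) π sA θ Q num den hh g x red t)
    (p : (Zloc ℓ)[X]) :
    S.baseToField (algebraMap (Zloc ℓ)[X] (CoverBaseRing ℓ hh) p) = evalX sA x p :=
  IsLocalization.lift_eq _ _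

/-- The embedding hypothesis on a cover: at each complex point of the line outside `h`, the field
`L` has as many embeddings in `ℂ((u))` over `x ↦ x₀ + u` as its degree `n` over the line. -/
def HasEmbeddings (sA : (Zloc ℓ)[X] →+* A) (x : L) (hh : (Zloc ℓ)[X]) (n : ℕ) : Prop :=
  ∀ x₀ : ℂ, hh.eval₂ ((algebraMap ℚ ℂ).comp (GaloisRep.ratLocalizedAt ℓ).subtype) x₀ ≠ 0 →
    ∃ σ : Fin n → (L →+* LaurentSeries ℂ), Function.Injective σ ∧
      ∀ i (p : (Zloc ℓ)[X]), σ i (evalX sA x p) =
        p.eval₂ ((HahnSeries.C : ℂ →+* LaurentSeries ℂ).comp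
          ((algebraMap ℚ ℂ).comp (GaloisRep.ratLocalizedAt ℓ).subtype))
          (HahnSeries.C x₀ + HahnSeries.single 1 1)

end FLTA.Smooth
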