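import Fermat.Agent.Smooth.Downstairs
import Fermat.Agent.Smooth.CoverRing
import Fermat.Agent.Smooth.Purity.Embeddings
import Mathlib.FieldTheory.Minpoly.IsIntegrallyClosed
import Mathlib.RingTheory.AdjoinRoot
import Mathlib.RingTheory.Localization.Integral
import Mathlib.FieldTheory.IntermediateField.Adjoin.Basic

/-!
# Building a cover of a chart from `j = num / den`
-/

set_option autoImplicit false

noncomputable section

open Polynomial ModularCurve ModularCurve.IgusaScheme

namespace FLTA.Smooth

/-- A root field of a monic polynomial of positive degree. -/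
theorem exists_root_field {F : Type} [Field F] (p : F[X]) (hp : 0 < p.natDegree) :
    ∃ (L : Type) (_ : Field L) (_ : Algebra F L) (x : L),
      aeval x p = 0 ∧ IsIntegral F x ∧ IntermediateField.adjoin F ({x} : Set L) = ⊤ := by
  obtain ⟨q, -, hqi, hqd⟩ := exists_monic_irreducible_factor p
    (not_isUnit_of_natDegree_pos p hp)
  have := Fact.mk hqi
  refine ⟨AdjoinRoot q, inferInstance, inferInstance, AdjoinRoot.root q, ?_,
    AdjoinRoot.isIntegral_root hqi.ne_zero, IntermediateField.adjoin_root_eq_top q⟩
  obtain ⟨r, rfl⟩ := hqd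
  rw [map_mul, AdjoinRoot.aeval_eq, AdjoinRoot.mk_self, zero_mul]

/-- Over an algebraically closed `k`, if `t` is transcendental and `num'den - num den' ≠ 0` with
`num`, `den` coprime, then `num - t den` is separable and has no root in `k`. -/
theorem separable_of_wronskian {k K' : Type*} [Field k] [IsAlgClosed k] [Field K'] [Algebra k K']
    {t : K'} (ht : Transcendental k t) {num den : k[X]}
    (hcop : ∀ c, den.eval c = 0 → num.eval c ≠ 0)
    (hW : derivative num * den - num * derivative den ≠ 0) :
    (num.map (algebraMap k K') - C t * den.map (algebraMap k K')).Separable ∧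
      ∀ c : k,
        (num.map (algebraMap k K') - C t * den.map (algebraMap k K')).eval (algebraMap k K' c) ≠ 0 := by
  have heval : ∀ c : k,
      (num.map (algebraMap k K') - C t * den.map (algebraMap k K')).eval (algebraMap k K' c) ≠ 0 := by
    intro c h0
    simp only [eval_sub, eval_mul, eval_C, eval_map, eval₂_at_apply] at h0
    by_cases hd : den.eval c = 0
    · rw [hd, map_zero, mul_zero, sub_zero] at h0
      exact hcop c hd ((algebraMap k K').injective (h0.trans (map_zero _).symm))
    · refine ht ⟨C (num.eval c) - C (den.eval c) * X, ?_, ?_⟩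
      · intro h1
        exact hd (by simpa using congrArg (fun q => coeff q 1) h1)
      · rw [map_sub, map_mul, aeval_C, aeval_C, aeval_X, mul_comm]
        exact h0
  refine ⟨?_, heval⟩
  let Ω := AlgebraicClosure K'
  rw [separable_def, isCoprime_iff_aeval_ne_zero_of_isAlgClosed K' Ω]
  intro a
  by_contra hcon
  push Not at hcon
  obtain ⟨h1, h2⟩ := hcon
  simp only [map_sub, map_mul, aeval_C, aeval_map_algebraMap, derivative_mul,
    derivative_C, zero_mul, zero_add, derivative_map] at h1 h2
  have h3 : aeval a (derivative num * den - num * derivative den) = 0 := by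
    simp only [map_sub, map_mul]
    linear_combination aeval a den * h2 - aeval a (derivative den) * h1
  obtain ⟨c, hc⟩ := (IsAlgClosed.algebraMap_bijective_of_isIntegral
    (k := k) (K := integralClosure k Ω)).2 ⟨a, (IsAlgebraic.isIntegral ⟨_, hW, h3⟩)⟩
  have hca : algebraMap k Ω c = a := congrArg Subtype.val hc
  refine heval c ((algebraMap K' Ω).injective ?_)
  rw [map_zero, eval_sub, eval_mul, eval_C, eval_map, eval₂_at_apply, eval_map, eval₂_at_apply,
    map_sub, map_mul, ← IsScalarTower.algebraMap_apply, ← IsScalarTower.algebraMap_apply,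
    ← aeval_algebraMap_apply_eq_algebraMap_eval, ← aeval_algebraMap_apply_eq_algebraMap_eval, hca]
  exact h1

variable {N : ℕ} [NeZero N] {ℓ : ℕ} [Fact ℓ.Prime]
variable {k : Type} [Field k] [IsAlgClosed k] [CharP k ℓ]
  (π : ↥(GaloisRep.ratLocalizedAt ℓ) →+* k)

/-- The inclusion of the constants into a chart. -/
abbrev chartC (N : ℕ) [NeZero N] (ℓ : ℕ) [Fact ℓ.Prime] (s : ↥(modularFunctionFieldFull N)) :
    Zloc ℓ →+* ↥(chartAlg N ℓ {s}) :=
  (polyHom N ℓ s).toRingHom.comp C

/-- The equation of the cover over a chart. -/
def coverPoly (s : ↥(modularFunctionFieldFull N)) (num den : (Zloc ℓ)[X]) :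
    (↥(chartAlg N ℓ {s}))[X] :=
  num.map (chartC N ℓ s) - C (paramElem N ℓ s) * den.map (chartC N ℓ s)

theorem polyHom_X (s : ↥(modularFunctionFieldFull N)) :
    (polyHom N ℓ s).toRingHom X = paramElem N ℓ s := by
  simp [polyHom]

set_option maxHeartbeats 1600000 in
set_option synthInstance.maxHeartbeats 200000 in
/-- All fields of a cover setting, from `j = num / den`. -/
theorem exists_coverSetting (hN : ¬ ℓ ∣ N) {s : ↥(modularFunctionFieldFull N)}
    (hs : IsChartParam N s) (num den hh : (Zloc ℓ)[X]) (u : ↥(chartAlg N ℓ {s})) (hu : IsUnit u)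
    (hmonic : (C u * coverPoly s num den).Monic)
    (hdeg : 0 < (C u * coverPoly s num den).natDegree)
    (hcop : ∀ c : k, (den.map π).eval c = 0 → (num.map π).eval c ≠ 0)
    (hW : derivative (num.map π) * den.map π - num.map π * derivative (den.map π) ≠ 0)
    (hden : ∃ i, den = hh ^ i) (hbar : hh.map π ≠ 0) :
    haveI := isIntegrallyClosed_chart (ℓ := ℓ) hs
    haveI := isFractionRing_chartAlg (ℓ := ℓ) hs
    ∃ (L : Type) (_ : Field L) (_ : CharZero L) (_ : Algebra ↥(modularFunctionFieldFull N) L)
      (θ : ↥(chartAlg N ℓ {s})) (Q : ((Zloc ℓ)[X])[X]) (g : (↥(chartAlg N ℓ {s}))[X]) (x : L),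
      CoverSetting (F := ↥(modularFunctionFieldFull N)) π (polyHom N ℓ s).toRingHom θ Q num den hh g x
        (redHom π hN hs) (redParam π hN hs) ∧ g ∣ C u * coverPoly s num den := by
  have := isIntegrallyClosed_chart (ℓ := ℓ) hs
  have := isFractionRing_chartAlg (ℓ := ℓ) hs
  obtain ⟨θ, Q, hQm, -, hQroot, hgen, -, hgenk, hsep, hmin⟩ := exists_chartGenerator π hN hs
  set sA := (polyHom N ℓ s).toRingHom with hsA
  set p := C u * coverPoly s num den with hp
  obtain ⟨L, _, iF, x, hx0, hxint, hxtop⟩ :=
    exists_root_field (p.map (algebraMap ↥(chartAlg N ℓ {s}) ↥(modularFunctionFieldFull N)))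
      (by rw [hmonic.natDegree_map]; exact hdeg)
  rw [aeval_map_algebraMap] at hx0
  have hxA : IsIntegral ↥(chartAlg N ℓ {s}) x := ⟨p, hmonic, hx0⟩
  have : CharZero L :=
    charZero_of_injective_algebraMap (algebraMap ↥(modularFunctionFieldFull N) L).injective
  set g := minpoly ↥(chartAlg N ℓ {s}) x
  have hgp : g ∣ p := minpoly.isIntegrallyClosed_dvd hxA hx0
  have hred : ∀ f : (Zloc ℓ)[X], (f.map (chartC N ℓ s)).map (redHom π hN hs)
      = (f.map π).map (algebraMap k ↥(modularFunctionFieldFullC k N)) := by
    intro f
    rw [Polynomial.map_map, Polynomial.map_map]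
    congr 1
    ext a
    simp [chartC, redHom_polyHom]
  set P := (num.map π).map (algebraMap k ↥(modularFunctionFieldFullC k N))
    - C (redParam π hN hs) * (den.map π).map (algebraMap k ↥(modularFunctionFieldFullC k N))
  have hpred : p.map (redHom π hN hs) = C (redHom π hN hs u) * P := by
    simp only [p, coverPoly, P, Polynomial.map_mul, Polynomial.map_sub, map_C, hred, redParam]
  obtain ⟨hPsep, hPeval⟩ := separable_of_wronskian (redParam_transcendental π hN hs) hcop hW
  have hCu : IsUnit (C (redHom π hN hs u)) := (hu.map _).map _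
  have hpsep : (p.map (redHom π hN hs)).Separable := by
    rw [hpred]
    exact (associated_unit_mul_left _ _ hCu).symm.separable hPsep
  have hgdvd : g.map (redHom π hN hs) ∣ p.map (redHom π hN hs) := Polynomial.map_dvd _ hgp
  refine ⟨L, inferInstance, inferInstance, iF, θ, Q, g, x, ?_, hgp⟩
  refine
    { root := ⟨minpoly.monic hxA, minpoly.aeval _ _,
        minpoly.isIntegrallyClosed_eq_field_fractions' _ hxA, hxtop, hpsep.of_dvd hgdvd⟩
      trans := redParam_transcendental π hN hs
      finite := RingHom.IsIntegral.of_finite (polyHom_finite hs)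
      red_sA := redHom_polyHom π hN hs
      Q_monic := hQm
      Q_root := hQroot
      gen_zero := ?_
      gen_k := hgenk
      li := ?_
      sep := ?_
      rel := ?_
      coprime := ?_
      den_pow := hden
      hbar := hbar }
  · rw [eq_top_iff]
    intro z _
    have hz : z ∈ IntermediateField.adjoin ℚ {s, (θ : ↥(modularFunctionFieldFull N))} :=
      hgen.symm ▸ IntermediateField.mem_top
    rw [← IntermediateField.mem_toSubfield, IntermediateField.adjoin_toSubfield] at hz
    refine (Subfield.closure_le.mpr ?_) hz
    rintro y (⟨q, rfl⟩ | hy)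
    · rw [eq_ratCast]
      exact SubfieldClass.ratCast_mem _ q
    · refine Subfield.subset_closure ?_
      rw [polyHom_X]
      exact hy
  · intro c hc
    set E := IntermediateField.adjoin k {redParam π hN hs}
    have hli := linearIndependent_pow (K := ↥E) (redHom π hN hs θ)
    rw [hmin, hQm.natDegree_map] at hli
    let φ := (Polynomial.aeval (IntermediateField.AdjoinSimple.gen k (redParam π hN hs)) :
      k[X] →ₐ[k] ↥E)
    have hφ : ∀ q : k[X], ((φ q : ↥E) : ↥(modularFunctionFieldFullC k N))
        = aeval (redParam π hN hs) q := fun q => by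
      rw [← IntermediateField.coe_val, ← aeval_algHom_apply]
      rfl
    funext l
    have h0 := Fintype.linearIndependent_iff.mp hli (fun l => φ (c l)) (by
      simp only [Algebra.smul_def, IntermediateField.algebraMap_apply, hφ]
      exact hc) l
    apply (transcendental_iff_injective.mp (redParam_transcendental π hN hs))
    rw [Pi.zero_apply, map_zero, ← hφ, h0]
    rfl
  · let φ := (Polynomial.aeval (IntermediateField.AdjoinSimple.gen k (redParam π hN hs)) :
      k[X] →ₐ[k] ↥(IntermediateField.adjoin k {redParam π hN hs})).toRingHom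
    have hφinj : Function.Injective φ := by
      intro a b hab
      apply transcendental_iff_injective.mp (redParam_transcendental π hN hs)
      have h2 := congrArg (IntermediateField.val _) hab
      simpa [φ, ← aeval_algHom_apply] using h2
    rw [← separable_map (IsFractionRing.lift hφinj), Polynomial.map_map, ← RingHom.comp_assoc]
    have hcomp : ((IsFractionRing.lift (K := FractionRing k[X]) hφinj).comp
          (algebraMap k[X] (FractionRing k[X]))).comp (mapRingHom π) = redPolyHom π hN hs := by
      refine RingHom.ext fun a => ?_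
      simp [φ, redPolyHom, IsFractionRing.lift_algebraMap]
    rw [hcomp]
    exact hsep
  · have h1 : aeval x (coverPoly s num den) = 0 := by
      have h2 : aeval x p = 0 := hx0
      rw [hp, map_mul, aeval_C] at h2
      exact (mul_eq_zero.mp h2).resolve_left
        ((hu.map (algebraMap ↥(chartAlg N ℓ {s}) L)).ne_zero)
    rw [coverPoly, aeval_def, eval₂_sub, eval₂_mul, eval₂_C, sub_eq_zero] at h1
    have he : ∀ f : (Zloc ℓ)[X], eval₂ (algebraMap ↥(chartAlg N ℓ {s}) L) x
        (f.map (chartC N ℓ s)) = evalX sA x f := fun f => by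
      rw [eval₂_map]
      rfl
    rw [← he, ← he, h1, polyHom_X]
  · intro c h0
    apply hPeval c
    have h1 := eval_dvd (x := algebraMap k ↥(modularFunctionFieldFullC k N) c) hgdvd
    rw [h0, zero_dvd_iff, hpred, eval_mul, eval_C] at h1
    exact (mul_eq_zero.mp h1).resolve_left ((hu.map _).ne_zero)

end FLTA.Smooth
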