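import Fermat.Agent.Smooth.CoverUp

/-!
# Norm descent from a cover on which `h` is invertible
-/

set_option autoImplicit false

noncomputable section

open Polynomial

namespace FLTA.Smooth

variable {ℓ : ℕ} {k A F L K' : Type*} [Field k] [CommRing A] [IsDomain A] [IsIntegrallyClosed A]
  [Field F] [Algebra A F] [IsFractionRing A F] [CharZero F]
  [Field L] [CharZero L] [Algebra F L] [Algebra A L] [IsScalarTower A F L]
  [Field K'] [Algebra k K']
  {π : Zloc ℓ →+* k} {sA : (Zloc ℓ)[X] →+* A} {θ : A} {Q : ((Zloc ℓ)[X])[X]}
  {num den hh : (Zloc ℓ)[X]} {g : A[X]} {x : L} {red : A →+* K'} {t : K'}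
  [Fact ℓ.Prime] [CharP k ℓ] [IsAlgClosed k]

namespace CoverSetting

variable (S : CoverSetting (F := F) π sA θ Q num den hh g x red t)
  (hemb : HasEmbeddings sA x hh
    (Module.finrank (IntermediateField.adjoin ℚ ({x} : Set L)) L))
  (hw : ∃ w : A[X], g ∣ hh.map (sA.comp C) * w - 1)

include S in
theorem not_isField_fibreRing : ¬ IsField (FibreRing π hh) := by
  obtain ⟨c, hc⟩ := (hh.map π).exists_eval_ne_zero_of_natDegree_lt_card S.hbar
    ((Cardinal.natCast_lt_aleph0).trans_le (Cardinal.aleph0_le_mk k))
  haveI : IsDomain (FibreRing π hh) :=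
    IsLocalization.isDomain_localization (powers_le_nonZeroDivisors S)
  let ev : FibreRing π hh →+* k :=
    IsLocalization.Away.lift (hh.map π) (g := evalRingHom c) (isUnit_iff_ne_zero.mpr hc)
  intro hF
  have hne : algebraMap k[X] (FibreRing π hh) (X - C c) ≠ 0 := fun h0 =>
    X_sub_C_ne_zero c (IsLocalization.injective (FibreRing π hh) (powers_le_nonZeroDivisors S)
      (h0.trans (map_zero _).symm))
  obtain ⟨v, hv⟩ := hF.mul_inv_cancel hne
  have h1 := congrArg ev hv
  simp [ev, IsLocalization.Away.lift_eq] at h1

include S hemb in
/-- The integral closure of the fibre ring in the reduced algebra has locally principal maximal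
ideals. -/
theorem locPrincipal_fibre :
    letI := (fibreToRed S).toAlgebra
    LocPrincipal (integralClosure (FibreRing π hh) (AdjoinRoot (g.map red))) := by
  classical
  letI := S.baseToField.toAlgebra
  letI := (fracToRed S).toAlgebra
  letI : Algebra (FibreRing π hh) (AdjoinRoot (g.map red)) := (fibreToRed S).toAlgebra
  letI : Algebra (FibreRing π hh) (FractionRing k[X]) := (fibreToFrac S).toAlgebra
  haveI : IsScalarTower k[X] (FibreRing π hh) (FractionRing k[X]) :=
    IsScalarTower.of_algebraMap_eq fun p => (fibreToFrac_algebraMap S p).symm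
  haveI : IsScalarTower (FibreRing π hh) (FractionRing k[X]) (AdjoinRoot (g.map red)) :=
    IsScalarTower.of_algebraMap_eq fun _ => rfl
  haveI : IsDomain (FibreRing π hh) :=
    IsLocalization.isDomain_localization (powers_le_nonZeroDivisors S)
  haveI : IsFractionRing (FibreRing π hh) (FractionRing k[X]) :=
    IsFractionRing.isFractionRing_of_isDomain_of_isLocalization (Submonoid.powers (hh.map π)) _ _
  haveI : IsPrincipalIdealRing (FibreRing π hh) :=
    isPrincipalIdealRing_of_isLocalization (Submonoid.powers (hh.map π))
  obtain ⟨n, e, he, hfin, hspan, hdim⟩ := exists_upstairs S hemb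
  haveI := hfin
  let ρ : integralClosure (CoverBaseRing ℓ hh) L →+* AdjoinRoot (g.map red) := topRed S
  have hcomp : ∀ r, ρ (algebraMap (CoverBaseRing ℓ hh) _ r) =
      algebraMap (FibreRing π hh) (AdjoinRoot (g.map red)) (fibreHom S r) :=
    fun r => topRed_baseToField S r (baseToField_mem_topRing S r)
  have hdim' : Fintype.card (Fin n) ≤
      Module.finrank (FractionRing k[X]) (AdjoinRoot (g.map red)) := by
    rw [Fintype.card_fin]; exact hdim
  have h1 := locPrincipal_integralClosure (R := CoverBaseRing ℓ hh)
    (B := ↥(integralClosure (CoverBaseRing ℓ hh) L)) (Rb := FibreRing π hh)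
    (κ := FractionRing k[X]) (E := AdjoinRoot (g.map red)) (fibreHom S) ρ hcomp e
  have h2 := h1 hspan hdim' he
  exact h2 (not_isField_fibreRing S)

include S hw in
/-- `h̄` is invertible in the reductions upstairs. -/
theorem exists_inv_hbar : ∃ w' ∈ coverSpan S,
    aeval (AdjoinRoot.root (g.map red)) (hh.map π) * w' = 1 := by
  obtain ⟨w, r, hr⟩ := hw
  refine ⟨coverRed S.root (aeval (coverX S.root) w), coverRed_mem_coverSpan S _, ?_⟩
  rw [← coverRed_evalB S, ← map_mul, ← map_one (coverRed S.root)]
  congr 1
  have h1 := congrArg (aeval (coverX S.root)) hr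
  rw [map_sub, map_mul, map_mul, map_one] at h1
  have hg : aeval (coverX S.root) g = 0 := Subtype.ext (by
    rw [← Subalgebra.coe_val, ← aeval_algHom_apply]; exact S.root.aeval_eq)
  rw [hg, zero_mul, sub_eq_zero] at h1
  convert h1 using 2
  rw [aeval_def, eval₂_map]
  rfl

include S in
/-- `t` as an element of the fibre ring. -/
theorem exists_fibre_eq_t : ∃ r : FibreRing π hh,
    fibreToRed S r = algebraMap K' (AdjoinRoot (g.map red)) t := by
  refine ⟨fibreHom S (substHom S X), ?_⟩
  have h1 := topRed_baseToField S (substHom S X) (baseToField_mem_topRing S _)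
  rw [← h1]
  have h2 : (⟨S.baseToField (substHom S X), baseToField_mem_topRing S _⟩ : topRing S) =
      ⟨_, algebraMap_mem_topRing S (sA X)⟩ := Subtype.ext (baseToField_substHom S X)
  rw [h2, topRed_algebraMap, S.red_sA]
  simp

include S hemb hw in
/-- **Descent.** The chart reduces onto the normal ring `C`. -/
theorem le_adjoin_range_red [IsNoetherianRing A] (C : Subalgebra k K') [IsDedekindDomain C]
    [IsFractionRing C K'] [Algebra.FiniteType k C]
    (hSC : Algebra.adjoin k (Set.range red) ≤ C)
    (hfin : (Subalgebra.inclusion hSC).toRingHom.Finite)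
    (hC : ∀ c ∈ C, IsIntegral (Algebra.adjoin k ({t} : Set K')) c) :
    C ≤ Algebra.adjoin k (Set.range red) := by
  classical
  set E := AdjoinRoot (g.map red)
  haveI := nontrivial_red S
  haveI := Module.Finite.of_basis (redBasis S.root)
  letI algRb : Algebra (FibreRing π hh) E := (fibreToRed S).toAlgebra
  set W := integralClosure (FibreRing π hh) E
  obtain ⟨w', hw', hww'⟩ := exists_inv_hbar S hw
  -- integral over the fibre ring implies reduction
  have h2 : ∀ y : E, y ∈ W → y ∈ coverSpan S := by
    intro y hy
    obtain ⟨i, hi⟩ := exists_pow_mul_mem_of_isIntegral_fibre S hemb hy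
    have : y = w' ^ i * (aeval (AdjoinRoot.root (g.map red)) (hh.map π) ^ i * y) := by
      rw [← mul_assoc, ← mul_pow, mul_comm w', hww', one_pow, one_mul]
    rw [this]
    exact mul_mem (pow_mem hw' i) hi
  -- reductions are integral over `C`
  have hredC : ∀ a : A, red a ∈ C := fun a => hSC (Algebra.subset_adjoin ⟨a, rfl⟩)
  have h3 : ∀ y : E, y ∈ coverSpan S → IsIntegral C y := by
    intro y hy
    have hle : coverSpan S ≤ (integralClosure C E).restrictScalars k := by
      rw [coverSpan, Algebra.adjoin_le_iff]
      rintro _ ⟨b, rfl⟩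
      exact (Algebra.IsIntegral.isIntegral (R := A) b).map_of_comp_eq (red.codRestrict C hredC)
        (coverRed S.root) (RingHom.ext fun a => (coverRed_algebraMap S.root a).symm)
    exact hle hy
  -- `C` is integral over the fibre ring
  obtain ⟨rt, hrt⟩ := exists_fibre_eq_t S
  have h1 : ∀ y : E, IsIntegral C y → y ∈ W := by
    have hC' : ∀ c : C, algebraMap C E c ∈ W := by
      intro c
      have hadj : ∀ z : Algebra.adjoin k ({t} : Set K'),
          algebraMap K' E (z : K') ∈ W.toSubring := by
        intro z
        obtain ⟨p, hp⟩ := (Algebra.adjoin_singleton_eq_range_aeval k t).le z.2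
        rw [← hp]
        refine map_mem_subring ((algebraMap K' E).comp (aeval t).toRingHom) _ (fun a => ?_) ?_ p
        · have : ((algebraMap K' E).comp (aeval t).toRingHom) (Polynomial.C a) =
              fibreToRed S (algebraMap k[X] (FibreRing π hh) (Polynomial.C a)) := by
            rw [fibreToRed_algebraMap, aeval_C, RingHom.comp_apply, AlgHom.toRingHom_eq_coe,
              RingHom.coe_coe, aeval_C]
            exact (IsScalarTower.algebraMap_apply k K' (AdjoinRoot (g.map red)) a).symm
          rw [this]
          exact isIntegral_algebraMap (R := FibreRing π hh) (A := E)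
        · have : ((algebraMap K' E).comp (aeval t).toRingHom) (X : k[X]) = fibreToRed S rt := by
            rw [hrt]; simp [E]
          rw [this]
          exact isIntegral_algebraMap (R := FibreRing π hh) (A := E)
      have hint : IsIntegral W (algebraMap K' E (c : K')) :=
        (hC c c.2).map_of_comp_eq
          (((algebraMap K' E).comp (Algebra.adjoin k ({t} : Set K')).val.toRingHom).codRestrict W hadj)
          (algebraMap K' E) (RingHom.ext fun _ => rfl)
      exact isIntegral_trans (R := FibreRing π hh) (A := W) _ hint
    intro y hy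
    have hint : IsIntegral W y :=
      hy.map_of_comp_eq ((algebraMap C E).codRestrict W hC') (RingHom.id E)
        (RingHom.ext fun _ => rfl)
    exact isIntegral_trans (R := FibreRing π hh) (A := W) y hint
  -- the integral closure of `C` is finite
  haveI : Module.Finite C (integralClosure C E) := by
    haveI : FiniteDimensional F L := (fieldPowerBasis S.root).finite
    haveI : Module.Finite A (integralClosure A L) :=
      IsIntegralClosure.finite A F L (integralClosure A L)
    obtain ⟨s, hs⟩ := (Module.Finite.fg_top (R := A) (M := integralClosure A L))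
    let f : integralClosure A L → integralClosure C E := fun b =>
      ⟨coverRed S.root b, h3 _ (coverRed_mem_coverSpan S b)⟩
    refine ⟨⟨s.image f, ?_⟩⟩
    rw [eq_top_iff]
    rintro ⟨y, hy⟩ -
    have hy' := (mem_coverSpan_iff S).mp (h2 y (h1 y hy))
    have key : ∀ z ∈ Submodule.span k (Set.range (coverRed S.root)), ∃ hz : IsIntegral C z,
        (⟨z, hz⟩ : integralClosure C E) ∈ Submodule.span C ((s.image f : Finset _) : Set _) := by
      intro z hz
      induction hz using Submodule.span_induction with
      | zero => exact ⟨isIntegral_zero, Submodule.zero_mem _⟩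
      | add a b _ _ ha hb =>
        obtain ⟨ha1, ha2⟩ := ha
        obtain ⟨hb1, hb2⟩ := hb
        exact ⟨ha1.add hb1, Submodule.add_mem _ ha2 hb2⟩
      | smul c a _ ha =>
        obtain ⟨ha1, ha2⟩ := ha
        have heq : c • a = (algebraMap k C c) • a := by
          rw [algebraMap_smul]
        refine ⟨heq ▸ ha1.smul _, ?_⟩
        have h' := Submodule.smul_mem _ (algebraMap k C c) ha2
        convert h' using 1
        exact Subtype.ext heq
      | mem z hz =>
        obtain ⟨b, rfl⟩ := hz
        refine ⟨h3 _ (coverRed_mem_coverSpan S b), ?_⟩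
        show f b ∈ _
        have hb : b ∈ Submodule.span A (s : Set (integralClosure A L)) := hs ▸ Submodule.mem_top
        induction hb using Submodule.span_induction with
        | zero =>
          have : f 0 = 0 := Subtype.ext (map_zero _)
          rw [this]; exact Submodule.zero_mem _
        | add a b _ _ ha hb =>
          have : f (a + b) = f a + f b := Subtype.ext (map_add _ _ _)
          rw [this]; exact Submodule.add_mem _ ha hb
        | smul a b _ hb =>
          have : f (a • b) = (⟨red a, hredC a⟩ : C) • f b := Subtype.ext (by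
            show coverRed S.root (a • b) = (⟨red a, hredC a⟩ : C) • coverRed S.root b
            rw [Algebra.smul_def, map_mul, coverRed_algebraMap, Algebra.smul_def]
            rfl)
          rw [this]; exact Submodule.smul_mem _ _ hb
        | mem b hb => exact Submodule.subset_span (Finset.mem_image_of_mem f hb)
    obtain ⟨hz, hz'⟩ := key y hy'
    exact hz'
  -- locally principal
  have hloc : LocPrincipal (integralClosure C E) :=
    (locPrincipal_fibre S hemb).of_ringEquiv
      { toFun := fun y => ⟨y.1, h3 _ (h2 _ y.2)⟩
        invFun := fun y => ⟨y.1, h1 _ y.2⟩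
        left_inv := fun y => rfl
        right_inv := fun y => rfl
        map_mul' := fun _ _ => rfl
        map_add' := fun _ _ => rfl }
  refine le_of_norm_mem (E := E) (Algebra.adjoin k (Set.range red)) C hSC hfin
    (fun M hM => LocPrincipal.exists_le_sup hloc M hM) fun b => ?_
  exact norm_mem_adjoin_range (k := k) S.root (b : E)
    ((mem_coverSpan_iff S).mp (h2 _ (h1 _ b.2)))

end CoverSetting

end FLTA.Smooth
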