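import Fermat.Agent.Smooth.CoverRing
import Mathlib.FieldTheory.IntermediateField.Adjoin.Basic
import Mathlib.FieldTheory.Perfect
import Mathlib.RingTheory.Localization.Integral

/-!
# Rational function fields inside the cover field; the mod `ℓ` separability on a cover
-/

set_option autoImplicit false

noncomputable section

open Polynomial

namespace FLTA.Smooth

variable {ℓ : ℕ} {L : Type*} [Field L] [CharZero L]

theorem hom_zloc_apply (f : Zloc ℓ →+* L) (a : Zloc ℓ) : f a = ((a : ℚ) : L) := by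
  have h : (((a : ℚ).num : ℤ) : Zloc ℓ) = ((a : ℚ).den : Zloc ℓ) * a := by
    apply Subtype.ext
    push_cast
    exact (Rat.den_mul_eq_num _).symm
  have h1 := congrArg f h
  rw [map_intCast, map_mul, map_natCast] at h1
  rw [Rat.cast_def, eq_div_iff (Nat.cast_ne_zero.mpr (Rat.den_nz _)), h1, mul_comm]

theorem polyHom_eq_aeval (f : (Zloc ℓ)[X] →+* L) (p : (Zloc ℓ)[X]) :
    f p = aeval (f X) (p.map (GaloisRep.ratLocalizedAt ℓ).subtype) := by
  have h : f = ((aeval (f X) : ℚ[X] →ₐ[ℚ] L).toRingHom).comp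
      (mapRingHom (GaloisRep.ratLocalizedAt ℓ).subtype) := by
    refine Polynomial.ringHom_ext (fun a => ?_) ?_
    · simpa using hom_zloc_apply (f.comp C) a
    · simp
  exact RingHom.congr_fun h p

theorem polyHom_mem_adjoin (f : (Zloc ℓ)[X] →+* L) (p : (Zloc ℓ)[X]) :
    f p ∈ IntermediateField.adjoin ℚ ({f X} : Set L) := by
  rw [polyHom_eq_aeval f p]
  exact IntermediateField.algebra_adjoin_le_adjoin ℚ _ (aeval_mem_adjoin_singleton ℚ _)

theorem exists_num_den (f : (Zloc ℓ)[X] →+* L) {z : L}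
    (hz : z ∈ IntermediateField.adjoin ℚ ({f X} : Set L)) :
    ∃ p q : (Zloc ℓ)[X], z = f p / f q := by
  haveI := isFractionRing_zloc ℓ
  have hinj : Function.Injective (GaloisRep.ratLocalizedAt ℓ).subtype := Subtype.val_injective
  have clear : ∀ r : ℚ[X], ∃ (p : (Zloc ℓ)[X]) (d : Zloc ℓ), d ≠ 0 ∧
      f p = f (C d) * aeval (f X) r := by
    intro r
    obtain ⟨d, hd⟩ := IsLocalization.integerNormalization_map_to_map (nonZeroDivisors (Zloc ℓ)) r
    refine ⟨IsLocalization.integerNormalization (nonZeroDivisors (Zloc ℓ)) r, d,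
      nonZeroDivisors.ne_zero d.2, ?_⟩
    have hd' : (IsLocalization.integerNormalization (nonZeroDivisors (Zloc ℓ)) r).map
        (GaloisRep.ratLocalizedAt ℓ).subtype = C ((d : Zloc ℓ) : ℚ) * r := by
      refine hd.trans ?_
      rw [← smul_eq_C_mul]
      rfl
    rw [polyHom_eq_aeval f, hd', map_mul, polyHom_eq_aeval f (C (d : Zloc ℓ)), map_C]
    rfl
  obtain ⟨r, s, rfl⟩ := (IntermediateField.mem_adjoin_simple_iff ℚ z).mp hz
  obtain ⟨p, d, hd, hp⟩ := clear r
  obtain ⟨q, d', hd', hq⟩ := clear s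
  refine ⟨C d' * p, C d * q, ?_⟩
  have hne : ∀ e : Zloc ℓ, e ≠ 0 → f (C e) ≠ 0 := by
    intro e he h0
    rw [show f (C e) = (f.comp C) e from rfl, hom_zloc_apply, Rat.cast_eq_zero] at h0
    exact he (Subtype.ext h0)
  rw [map_mul, map_mul, hp, hq]
  have := hne d hd
  have := hne d' hd'
  field_simp

/-- `ℤ_(ℓ)[X] → ℚ(y)` for `f : ℤ_(ℓ)[X] → L` with `f X = y`. -/
def polyToAdjoin (f : (Zloc ℓ)[X] →+* L) :
    (Zloc ℓ)[X] →+* IntermediateField.adjoin ℚ ({f X} : Set L) :=
  f.codRestrict _ (polyHom_mem_adjoin f)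

theorem isFractionRing_polyToAdjoin (f : (Zloc ℓ)[X] →+* L) (hf : Function.Injective f) :
    letI := (polyToAdjoin f).toAlgebra
    IsFractionRing (Zloc ℓ)[X] (IntermediateField.adjoin ℚ ({f X} : Set L)) := by
  letI := (polyToAdjoin f).toAlgebra
  haveI : FaithfulSMul (Zloc ℓ)[X] (IntermediateField.adjoin ℚ ({f X} : Set L)) :=
    (faithfulSMul_iff_algebraMap_injective _ _).mpr fun a b hab => hf (congrArg Subtype.val hab)
  refine IsFractionRing.of_field _ _ fun z => ?_
  obtain ⟨p, q, hz⟩ := exists_num_den f z.2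
  exact ⟨p, q, Subtype.ext hz⟩

/-- The base ring maps to `ℚ(y)` as soon as `ℤ_(ℓ)[X]` does. -/
theorem isFractionRing_baseRing (f : (Zloc ℓ)[X] →+* L) (hf : Function.Injective f)
    {y : L} (hy : f X = y) {R : Type*} [CommRing R] [IsDomain R] [Algebra (Zloc ℓ)[X] R]
    (M : Submonoid (Zloc ℓ)[X]) [IsLocalization M R]
    (F : R →+* IntermediateField.adjoin ℚ ({y} : Set L))
    (hF : ∀ p, (F (algebraMap (Zloc ℓ)[X] R p) : L) = f p) :
    letI := F.toAlgebra
    IsFractionRing R (IntermediateField.adjoin ℚ ({y} : Set L)) := by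
  subst hy
  letI := F.toAlgebra
  letI := (polyToAdjoin f).toAlgebra
  haveI := isFractionRing_polyToAdjoin f hf
  haveI : IsScalarTower (Zloc ℓ)[X] R (IntermediateField.adjoin ℚ ({f X} : Set L)) :=
    IsScalarTower.of_algebraMap_eq (R := (Zloc ℓ)[X]) (S := R)
      (A := (IntermediateField.adjoin ℚ ({f X} : Set L))) fun p => Subtype.ext (hF p).symm
  exact IsFractionRing.isFractionRing_of_isDomain_of_isLocalization
    M R (IntermediateField.adjoin ℚ ({f X} : Set L))

section Sep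

variable {k : Type*} [Field k] [IsAlgClosed k] [Fact ℓ.Prime] [CharP k ℓ]

theorem exists_bezout_cover (π : Zloc ℓ →+* k) (Q : ((Zloc ℓ)[X])[X]) (num den hh : (Zloc ℓ)[X])
    (hbar : hh.map π ≠ 0) (hden : den.map π ≠ 0)
    (hnc : ∀ c : k, num.map π ≠ C c * den.map π)
    (hsep : (Q.map ((algebraMap k[X] (FractionRing k[X])).comp (mapRingHom π))).Separable)
    {R : Type*} [CommRing R] [Algebra (Zloc ℓ)[X] R]
    [IsLocalization (Purity.fibreSubmonoid (ℓ : Zloc ℓ) hh) R]
    (ψ : (Zloc ℓ)[X] →+* R)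
    (hψC : ∀ a, ψ (C a) = algebraMap (Zloc ℓ)[X] R (C a))
    (hψX : ψ X * algebraMap (Zloc ℓ)[X] R den =
      algebraMap (Zloc ℓ)[X] R num) :
    ∃ (b : R[X]) (c : R),
      ¬ algebraMap (Zloc ℓ)[X] R (C (ℓ : Zloc ℓ)) ∣ c ∧
      ∃ a : R[X],
        C (algebraMap (Zloc ℓ)[X] R (C (ℓ : Zloc ℓ))) ∣
          a * Q.map ψ + b * derivative (Q.map ψ) - C c := by
  haveI := isPrincipalIdealRing_zloc ℓ
  set κ := FractionRing k[X]
  have hinj : Function.Injective (algebraMap k[X] κ) := IsFractionRing.injective _ _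
  have hC : ∀ p : (Zloc ℓ)[X], p.map π = 0 → C (ℓ : Zloc ℓ) ∣ p := fun p hp =>
    (C_dvd_iff_dvd_coeff _ _).mpr fun n => (map_zloc_eq_zero_iff ℓ π _).mp
      (by rw [← coeff_map, hp, coeff_zero])
  have hunit : ∀ y : Purity.fibreSubmonoid (ℓ : Zloc ℓ) hh,
      IsUnit (((algebraMap k[X] κ).comp (mapRingHom π)) (y : (Zloc ℓ)[X])) := by
    intro y
    obtain ⟨c, i, hc, u, hu⟩ := y.2
    have h1 : (y : (Zloc ℓ)[X]) = C c * hh ^ i + C (ℓ : Zloc ℓ) * u := by rw [← hu]; ring
    suffices h2 : (y : (Zloc ℓ)[X]).map π ≠ 0 from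
      isUnit_iff_ne_zero.mpr ((map_ne_zero_iff _ hinj).mpr h2)
    rw [h1, Polynomial.map_add, Polynomial.map_mul, Polynomial.map_mul, map_C,
      map_C, Polynomial.map_pow, map_natCast, CharP.cast_eq_zero, map_zero, zero_mul, add_zero]
    exact mul_ne_zero (C_ne_zero.mpr (hc.map π).ne_zero) (pow_ne_zero _ hbar)
  let ρ : R →+* κ := IsLocalization.lift (M := Purity.fibreSubmonoid (ℓ : Zloc ℓ) hh) hunit
  have hρ : ∀ p, ρ (algebraMap (Zloc ℓ)[X] R p) = algebraMap k[X] κ (p.map π) :=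
    IsLocalization.lift_eq hunit
  set I : Ideal R := Ideal.span {algebraMap (Zloc ℓ)[X] R (C (ℓ : Zloc ℓ))}
  have hker : ∀ r, ρ r = 0 → r ∈ I := by
    intro r hr
    obtain ⟨p, s, rfl⟩ := IsLocalization.exists_mk'_eq (Purity.fibreSubmonoid (ℓ : Zloc ℓ) hh) r
    have h1 : ρ (algebraMap (Zloc ℓ)[X] R p) = 0 := by
      rw [← IsLocalization.mk'_spec R p s, map_mul, hr, zero_mul]
    rw [hρ, map_eq_zero_iff _ hinj] at h1
    rw [Ideal.mem_span_singleton, ← (IsLocalization.map_units R s).dvd_mul_right,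
      IsLocalization.mk'_spec]
    exact map_dvd _ (hC p h1)
  have hI : ∀ r ∈ I, ρ r = 0 := by
    intro r hr
    obtain ⟨u, rfl⟩ := Ideal.mem_span_singleton.mp hr
    rw [map_mul, hρ, map_C, map_natCast, CharP.cast_eq_zero, map_zero, map_zero, zero_mul]
  haveI : I.IsPrime := by
    have : I = RingHom.ker ρ := le_antisymm (fun r hr => hI r hr) (fun r hr => hker r hr)
    rw [this]
    exact RingHom.ker_isPrime ρ
  haveI : IsDomain (R ⧸ I) := Ideal.Quotient.isDomain I
  let e : R ⧸ I →+* κ := Ideal.Quotient.lift I ρ hI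
  have he : Function.Injective e :=
    RingHom.lift_injective_of_ker_le_ideal I hI (fun r hr => hker r hr)
  let e' : FractionRing (R ⧸ I) →+* κ := IsFractionRing.lift (A := R ⧸ I) (g := e) he
  have he' : ∀ r, e' (algebraMap _ _ (Ideal.Quotient.mk I r)) = ρ r := fun r =>
    (IsFractionRing.lift_algebraMap (g := e) he _).trans (Ideal.Quotient.lift_mk I ρ hI)
  refine Purity.exists_bezout_of_separable (κ := FractionRing (R ⧸ I)) (Q.map ψ) ?_
  rw [← Polynomial.separable_map e', Polynomial.map_map, Polynomial.map_map]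
  -- the substitution `k(s) → k(x)`
  set s' : κ := algebraMap k[X] κ (num.map π) / algebraMap k[X] κ (den.map π)
  have hden' : algebraMap k[X] κ (den.map π) ≠ 0 := (map_ne_zero_iff _ hinj).mpr hden
  have hs' : Function.Injective (aeval s' : k[X] →ₐ[k] κ) := by
    rw [injective_iff_map_eq_zero]
    intro p hp
    by_contra hp0
    rw [(IsAlgClosed.splits p).eq_prod_roots, map_mul, aeval_C, mul_eq_zero] at hp
    rcases hp with hp | hp
    · exact leadingCoeff_ne_zero.mpr hp0 ((map_eq_zero _).mp hp)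
    · rw [map_multiset_prod, Multiset.prod_eq_zero_iff, Multiset.map_map, Multiset.mem_map] at hp
      obtain ⟨c, -, hc⟩ := hp
      simp only [Function.comp_apply, map_sub, aeval_X, aeval_C, sub_eq_zero, s',
        div_eq_iff hden', IsScalarTower.algebraMap_apply k k[X] κ, ← map_mul,
        Polynomial.algebraMap_eq] at hc
      exact hnc c (hinj hc)
  let θ : κ →+* κ := IsFractionRing.lift (g := (aeval s' : k[X] →ₐ[k] κ).toRingHom) hs'
  have hθ : ∀ p, θ (algebraMap k[X] κ p) = aeval s' p := IsFractionRing.lift_algebraMap hs'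
  have hcomp : (e'.comp ((algebraMap (R ⧸ I) (FractionRing (R ⧸ I))).comp
      (Ideal.Quotient.mk I))).comp ψ = θ.comp ((algebraMap k[X] κ).comp (mapRingHom π)) := by
    refine Polynomial.ringHom_ext (fun a => ?_) ?_
    · simp only [RingHom.comp_apply, he', hθ, hψC, hρ, coe_mapRingHom, map_C, aeval_C]
      exact (IsScalarTower.algebraMap_apply k k[X] κ _).symm
    · simp only [RingHom.comp_apply, he', hθ, coe_mapRingHom, map_X, aeval_X]
      refine eq_div_iff hden' |>.mpr ?_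
      rw [← hρ, ← hρ, ← map_mul, hψX]
  rw [hcomp, ← Polynomial.map_map]
  exact hsep.map

end Sep

end FLTA.Smooth
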