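import Fermat.Agent.Smooth.CoverBase
import Fermat.Agent.Smooth.LocalizedBase
import Mathlib.FieldTheory.IsAlgClosed.Basic
import Mathlib.RingTheory.Polynomial.UniqueFactorization
import Mathlib.RingTheory.Polynomial.RationalRoot
import Mathlib.RingTheory.IntegralClosure.Algebra.Basic

/-!
# A cover of a chart

The chart `A` is finite over `O[s]` with a generator `θ`; the cover is given by a root `x` of
`num - s den`. We prove that `x` is transcendental and compare degrees upstairs in
characteristic zero and in the special fibre.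
-/

set_option autoImplicit false

noncomputable section

open Polynomial

namespace FLTA.Smooth

variable {ℓ : ℕ} {k A F L K' : Type*} [Field k] [CommRing A] [IsDomain A] [IsIntegrallyClosed A]
  [Field F] [Algebra A F] [IsFractionRing A F] [CharZero F]
  [Field L] [Algebra F L] [Algebra A L] [IsScalarTower A F L]
  [Field K'] [Algebra k K']

/-- Substituting `x` for the variable, through a coefficient map `O → L`. -/
def evalX (sA : (Zloc ℓ)[X] →+* A) (x : L) : (Zloc ℓ)[X] →+* L :=
  eval₂RingHom ((algebraMap A L).comp (sA.comp C)) x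

/-- The data of a chart with generator and of a cover of it. -/
structure CoverSetting (π : Zloc ℓ →+* k) (sA : (Zloc ℓ)[X] →+* A) (θ : A)
    (Q : ((Zloc ℓ)[X])[X]) (num den hh : (Zloc ℓ)[X]) (g : A[X]) (x : L) (red : A →+* K')
    (t : K') : Prop where
  root : CoverRoot (F := F) g x red
  trans : Transcendental k t
  finite : sA.IsIntegral
  red_sA : ∀ p, red (sA p) = aeval t (p.map π)
  Q_monic : Q.Monic
  Q_root : Q.eval₂ sA θ = 0
  gen_zero : Subfield.closure ({algebraMap A F (sA X), algebraMap A F θ} : Set F) = ⊤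
  gen_k : IntermediateField.adjoin k ({t, red θ} : Set K') = ⊤
  li : ∀ c : Fin Q.natDegree → k[X],
    ∑ l, aeval t (c l) * red θ ^ (l : ℕ) = 0 → c = 0
  sep : (Q.map ((algebraMap k[X] (FractionRing k[X])).comp (mapRingHom π))).Separable
  rel : evalX sA x num = algebraMap A L (sA X) * evalX sA x den
  coprime : ∀ c : k, (g.map red).eval (algebraMap k K' c) ≠ 0
  den_pow : ∃ i, den = hh ^ i
  hbar : hh.map π ≠ 0

namespace CoverSetting

variable {π : Zloc ℓ →+* k} {sA : (Zloc ℓ)[X] →+* A} {θ : A} {Q : ((Zloc ℓ)[X])[X]}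
  {num den hh : (Zloc ℓ)[X]} {g : A[X]} {x : L} {red : A →+* K'} {t : K'}

variable (S : CoverSetting (F := F) π sA θ Q num den hh g x red t)

include S in
theorem natDegree_pos : 0 < g.natDegree := by
  rcases Nat.eq_zero_or_pos g.natDegree with h0 | h0
  · have h1 := S.root.aeval_eq
    rw [S.root.monic.natDegree_eq_zero.mp h0, map_one] at h1
    exact absurd h1 one_ne_zero
  · exact h0

include S in
theorem nontrivial_red : Nontrivial (AdjoinRoot (g.map red)) := by
  refine ⟨⟨redBasis S.root ⟨0, natDegree_pos S⟩, 0, (redBasis S.root).ne_zero _⟩⟩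

/-- `p ↦ p(x)` in the integral closure of `A`. -/
def evalB : (Zloc ℓ)[X] →+* integralClosure A L :=
  eval₂RingHom ((algebraMap A (integralClosure A L)).comp (sA.comp C)) (coverX S.root)

theorem coe_evalB (p : (Zloc ℓ)[X]) : (evalB S p : L) = evalX sA x p := by
  have : ((integralClosure A L).val.toRingHom).comp (evalB S) = evalX sA x := by
    refine Polynomial.ringHom_ext (fun a => ?_) ?_ <;> simp [evalB, evalX, coverX]
  exact RingHom.congr_fun this p

include S in
theorem red_C (a : Zloc ℓ) : red (sA (C a)) = algebraMap k K' (π a) := by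
  rw [S.red_sA]; simp

theorem coverRed_evalB (p : (Zloc ℓ)[X]) :
    coverRed S.root (evalB S p) = aeval (AdjoinRoot.root (g.map red)) (p.map π) := by
  have : (coverRed S.root).comp (evalB S) =
      (aeval (AdjoinRoot.root (g.map red))).toRingHom.comp (mapRingHom π) := by
    refine Polynomial.ringHom_ext (fun a => ?_) ?_
    · simp only [evalB, RingHom.comp_apply, coe_eval₂RingHom, eval₂_C, coverRed_algebraMap,
        red_C S, AlgHom.toRingHom_eq_coe, RingHom.coe_coe, coe_mapRingHom, map_C, aeval_C]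
      exact (IsScalarTower.algebraMap_apply k K' (AdjoinRoot (g.map red)) _).symm
    · simp [evalB, coverRed_coverX]
  exact RingHom.congr_fun this p

include S in
theorem isUnit_aeval_root [IsAlgClosed k] {p : k[X]} (hp : p ≠ 0) :
    IsUnit (aeval (AdjoinRoot.root (g.map red)) p) := by
  rw [(IsAlgClosed.splits p).eq_prod_roots, map_mul, aeval_C]
  refine IsUnit.mul ((leadingCoeff_ne_zero.mpr hp).isUnit.map _) ?_
  rw [map_multiset_prod, Multiset.map_map]
  refine Multiset.prod_induction _ _ (fun a b => IsUnit.mul) isUnit_one ?_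
  intro y hy
  obtain ⟨c, -, rfl⟩ := Multiset.mem_map.mp hy
  have hcop : IsCoprime (X - C (algebraMap k K' c)) (g.map red) :=
    (irreducible_X_sub_C _).coprime_iff_not_dvd.mpr (fun hd => S.coprime c (dvd_iff_isRoot.mp hd))
  obtain ⟨a, b, hab⟩ := hcop
  have h1 := congrArg (aeval (AdjoinRoot.root (g.map red))) hab
  simp only [map_add, map_mul, map_one, AdjoinRoot.aeval_eq (g.map red),
    AdjoinRoot.mk_self, mul_zero, add_zero] at h1
  refine .of_mul_eq_one (aeval (AdjoinRoot.root (g.map red)) a) ?_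
  rw [mul_comm] at h1
  simp only [Function.comp_apply, map_sub, aeval_X, aeval_C] at h1 ⊢
  rw [← IsScalarTower.algebraMap_apply k K' (AdjoinRoot (g.map red))] at h1
  exact h1

include S in
theorem evalB_ne_zero_of_map_ne_zero [IsAlgClosed k] {p : (Zloc ℓ)[X]} (hp : p.map π ≠ 0) :
    evalX sA x p ≠ 0 := by
  intro h0
  have hz : evalB S p = 0 := Subtype.ext (by rw [coe_evalB S, h0]; rfl)
  have := congrArg (coverRed S.root) hz
  rw [coverRed_evalB S, map_zero] at this
  have hu := isUnit_aeval_root S hp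
  haveI := nontrivial_red S
  exact hu.ne_zero ‹_›

include S in
/-- `x` is transcendental. -/
theorem evalX_injective [Fact ℓ.Prime] [CharP k ℓ] [IsAlgClosed k] :
    Function.Injective (evalX sA x) := by
  haveI := isPrincipalIdealRing_zloc ℓ
  rw [injective_iff_map_eq_zero]
  intro p hp
  by_contra hp0
  obtain ⟨i, q, hq, hpq⟩ := WfDvdMonoid.max_power_factor' hp0
    (show ¬ IsUnit (C (ℓ : Zloc ℓ)) from fun hu => not_dvd_one_zloc ℓ (isUnit_C.mp hu))
  have hqπ : q.map π ≠ 0 := by
    intro h0
    refine hq (C_dvd_iff_dvd_coeff _ _ |>.mpr fun n => ?_)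
    exact (map_zloc_eq_zero_iff ℓ π _).mp (by rw [← coeff_map, h0, coeff_zero])
  rw [hpq, map_mul, map_pow, mul_eq_zero] at hp
  rcases hp with hp | hp
  · have hc : evalX sA x (C (ℓ : Zloc ℓ)) = (ℓ : L) := by simp [evalX]
    rw [hc] at hp
    have : CharZero L := charZero_of_injective_algebraMap (algebraMap F L).injective
    exact Nat.cast_ne_zero.mpr (Fact.out : ℓ.Prime).ne_zero (eq_zero_of_pow_eq_zero hp)
  · exact evalB_ne_zero_of_map_ne_zero S hqπ hp

include S in
theorem sA_injective [Fact ℓ.Prime] [CharP k ℓ] : Function.Injective sA := by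
  haveI := isPrincipalIdealRing_zloc ℓ
  rw [injective_iff_map_eq_zero]
  intro p hp
  by_contra hp0
  obtain ⟨i, q, hq, hpq⟩ := WfDvdMonoid.max_power_factor' hp0
    (show ¬ IsUnit (C (ℓ : Zloc ℓ)) from fun hu => not_dvd_one_zloc ℓ (isUnit_C.mp hu))
  have hqπ : q.map π ≠ 0 := by
    intro h0
    refine hq (C_dvd_iff_dvd_coeff _ _ |>.mpr fun n => ?_)
    exact (map_zloc_eq_zero_iff ℓ π _).mp (by rw [← coeff_map, h0, coeff_zero])
  rw [hpq, map_mul, map_pow, mul_eq_zero] at hp
  rcases hp with hp | hp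
  · rw [show (C (ℓ : Zloc ℓ) : (Zloc ℓ)[X]) = (ℓ : (Zloc ℓ)[X]) from map_natCast C ℓ,
      map_natCast] at hp
    haveI : CharZero A :=
      ⟨fun m n hmn => Nat.cast_injective (R := F) (by simpa using congrArg (algebraMap A F) hmn)⟩
    exact Nat.cast_ne_zero.mpr (Fact.out : ℓ.Prime).ne_zero (eq_zero_of_pow_eq_zero hp)
  · have h1 := congrArg red hp
    rw [S.red_sA, map_zero] at h1
    exact hqπ ((transcendental_iff.mp S.trans) _ h1)

include S in
/-- The degree comparison: a monic equation of `x` over `O[s]` of minimal degree. -/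
theorem exists_minimal_equation [Fact ℓ.Prime] [CharP k ℓ] :
    ∃ q : ((Zloc ℓ)[X])[X], q.Monic ∧ q.eval₂ ((algebraMap A L).comp sA) x = 0 ∧
      ∀ p : ((Zloc ℓ)[X])[X], p.degree < q.degree →
        p.eval₂ ((algebraMap A L).comp sA) x = 0 → p = 0 := by
  haveI := isPrincipalIdealRing_zloc ℓ
  letI : Algebra (Zloc ℓ)[X] A := sA.toAlgebra
  letI : Algebra (Zloc ℓ)[X] L := ((algebraMap A L).comp sA).toAlgebra
  haveI : IsScalarTower (Zloc ℓ)[X] A L := IsScalarTower.of_algebraMap_eq fun _ => rfl
  haveI : Algebra.IsIntegral (Zloc ℓ)[X] A := ⟨fun a => S.finite a⟩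
  haveI : Module.IsTorsionFree (Zloc ℓ)[X] L := by
    refine Module.isTorsionFree_iff_algebraMap_injective.mpr ?_
    rw [RingHom.algebraMap_toAlgebra, RingHom.coe_comp]
    rw [IsScalarTower.algebraMap_eq A F L, RingHom.coe_comp]
    exact ((algebraMap F L).injective.comp (IsFractionRing.injective A F)).comp (sA_injective S)
  have hx : IsIntegral (Zloc ℓ)[X] x :=
    isIntegral_trans (R := (Zloc ℓ)[X]) (A := A) x ⟨g, S.root.monic, S.root.aeval_eq⟩
  refine ⟨minpoly (Zloc ℓ)[X] x, minpoly.monic hx, minpoly.aeval (Zloc ℓ)[X] x, fun p hp h0 => ?_⟩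
  by_contra hne
  exact absurd hp (minpoly.IsIntegrallyClosed.degree_le_of_ne_zero (s := x) hne h0).not_gt

end CoverSetting

end FLTA.Smooth
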