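import Fermat.Agent.Smooth.NormDescentLocal
import Mathlib.RingTheory.DedekindDomain.Dvr
import Mathlib.RingTheory.DedekindDomain.Ideal.Lemmas
import Mathlib.RingTheory.Localization.Finiteness
import Mathlib.RingTheory.Norm.Defs
import Mathlib.RingTheory.Ideal.MinimalPrime.Noetherian
import Mathlib.RingTheory.Nakayama
import Mathlib.RingTheory.Jacobson.Ring
import Mathlib.FieldTheory.IsAlgClosed.Basic
import Mathlib.RingTheory.Localization.NormTrace

/-!
# Norm descent

Let `C` be a Dedekind `k`-algebra (`k` algebraically closed) with fraction field `K`, finite over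
a subalgebra `S`. If some finite `C`-algebra `B ⊆ E` with locally principal maximal ideals has
all its norms to `K` in `S`, then `S = C`: norms of suitable elements of `B` give uniformisers
of `C` and separate its maximal ideals, all inside `S`.
-/

set_option autoImplicit false

open scoped nonZeroDivisors

namespace FLTA.Smooth

section Core

variable {k K C E B : Type*} [Field k] [IsAlgClosed k] [Field K]
  [CommRing C] [IsDedekindDomain C] [Algebra k C] [Algebra.FiniteType k C]
  [Algebra C K] [IsFractionRing C K]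
  [CommRing E] [Nontrivial E] [Algebra K E] [Algebra C E] [IsScalarTower C K E]
  [CommRing B] [Algebra C B] [Module.Finite C B] [Algebra B E] [IsScalarTower C B E]
  [IsLocalization (Algebra.algebraMapSubmonoid B C⁰) E]

omit [IsDedekindDomain C] in
/-- Residue fields of a finitely generated algebra over an algebraically closed field are trivial. -/
theorem exists_sub_algebraMap_mem (P : Ideal C) [P.IsMaximal] (c : C) :
    ∃ a : k, c - algebraMap k C a ∈ P := by
  let := Ideal.Quotient.field P
  have : Module.Finite k (C ⧸ P) := finite_of_finite_type_of_isJacobsonRing k (C ⧸ P)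
  obtain ⟨a, ha⟩ :=
    (IsAlgClosed.algebraMap_bijective_of_isIntegral (k := k) (K := C ⧸ P)).2
      (Ideal.Quotient.mk P c)
  exact ⟨a, (Ideal.Quotient.mk_eq_mk_iff_sub_mem _ _).mp ha.symm⟩

omit [IsDedekindDomain C] [Algebra.FiniteType k C] [IsAlgClosed k] [Module.Finite C B]
  [IsLocalization (Algebra.algebraMapSubmonoid B C⁰) E] in
include K E in
theorem algebraMap_injective_of_fraction : Function.Injective (algebraMap C B) := by
  intro a b hab
  apply IsFractionRing.injective C K
  apply (algebraMap K E).injective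
  rw [← IsScalarTower.algebraMap_apply C K E, ← IsScalarTower.algebraMap_apply C K E,
    IsScalarTower.algebraMap_apply C B E, hab, ← IsScalarTower.algebraMap_apply C B E]

omit [IsDedekindDomain C] [Algebra.FiniteType k C] [IsAlgClosed k] in
theorem under_finite [IsNoetherianRing C] (P : Ideal C) [P.IsMaximal] :
    {M : Ideal B | M.IsMaximal ∧ M.comap (algebraMap C B) = P}.Finite := by
  have : IsNoetherianRing B := IsNoetherianRing.of_finite C B
  refine (Ideal.finite_minimalPrimes_of_isNoetherianRing B (P.map (algebraMap C B))).subset ?_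
  rintro M ⟨hM, hMP⟩
  refine ⟨⟨hM.isPrime, Ideal.map_le_iff_le_comap.mpr hMP.ge⟩, ?_⟩
  rintro q ⟨hq, hPq⟩ hqM
  have hPq' : q.comap (algebraMap C B) = P :=
    (‹P.IsMaximal›.eq_of_le (Ideal.comap_ne_top _ hq.ne_top)
      (Ideal.map_le_iff_le_comap.mp hPq)).symm
  have : q.IsMaximal :=
    Ideal.isMaximal_of_isIntegral_of_isMaximal_comap q (hPq' ▸ ‹P.IsMaximal›)
  exact (this.eq_of_le hM.ne_top hqM).ge

omit [IsAlgClosed k] [Algebra.FiniteType k C] in
/-- Norm of `y` at a maximal ideal `P`: membership in `P` and a uniformiser criterion. -/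
theorem norm_at_prime (hBE : Function.Injective (algebraMap B E)) (P : Ideal C) [P.IsMaximal]
    (hP : P ≠ ⊥) (y : B) (c : C)
    (hc : Algebra.norm K (algebraMap B E y) = algebraMap C K c) :
    (c ∈ P ↔ ∃ M : Ideal B, M.IsMaximal ∧ M.comap (algebraMap C B) = P ∧ y ∈ M) ∧
    ∀ M : Ideal B, M.IsMaximal → M.comap (algebraMap C B) = P → y ∈ M →
      (∀ M' : Ideal B, M'.IsMaximal → M'.comap (algebraMap C B) = P → M' ≠ M → y ∉ M') →
      (∃ t ∉ M, ∀ w ∈ M, y ∣ t * w) → (∀ b : B, ∃ a : k, b - algebraMap C B (algebraMap k C a) ∈ M) →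
      c ∉ P ^ 2 := by
  classical
  have hBinj : Function.Injective (algebraMap C B) :=
    algebraMap_injective_of_fraction (K := K) (E := E)
  let O := Localization.AtPrime P
  let Bp := Localization (Algebra.algebraMapSubmonoid B P.primeCompl)
  have : IsDiscreteValuationRing O :=
    IsLocalization.AtPrime.isDiscreteValuationRing_of_dedekind_domain C hP O
  have hunitK : ∀ t : P.primeCompl, IsUnit (algebraMap C K t) := fun t => by
    refine isUnit_iff_ne_zero.mpr fun h => t.2 ?_
    rw [show (t : C) = 0 from IsFractionRing.injective C K (by simpa using h)]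
    exact P.zero_mem
  let iOK : O →+* K := IsLocalization.lift (M := P.primeCompl) hunitK
  let : Algebra O K := iOK.toAlgebra
  have : IsScalarTower C O K :=
    IsScalarTower.of_algebraMap_eq' (IsLocalization.lift_comp hunitK).symm
  have hunitE : ∀ t : Algebra.algebraMapSubmonoid B P.primeCompl, IsUnit (algebraMap B E t) := by
    rintro ⟨_, t, ht, rfl⟩
    rw [← IsScalarTower.algebraMap_apply C B E, IsScalarTower.algebraMap_apply C K E]
    exact (hunitK ⟨t, ht⟩).map _
  let : Algebra Bp E := (IsLocalization.lift hunitE).toAlgebra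
  have : IsScalarTower B Bp E :=
    IsScalarTower.of_algebraMap_eq' (IsLocalization.lift_comp hunitE).symm
  let : Algebra O E := ((algebraMap K E).comp (algebraMap O K)).toAlgebra
  have : IsScalarTower O K E := IsScalarTower.of_algebraMap_eq' rfl
  have : IsScalarTower O Bp E := by
    refine IsScalarTower.of_algebraMap_eq' (IsLocalization.ringHom_ext P.primeCompl ?_)
    ext x
    simp only [RingHom.comp_apply, ← IsScalarTower.algebraMap_apply C O Bp,
      IsScalarTower.algebraMap_apply C B Bp, ← IsScalarTower.algebraMap_apply B Bp E]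
    rw [← IsScalarTower.algebraMap_apply C B E, IsScalarTower.algebraMap_apply O K E,
      ← IsScalarTower.algebraMap_apply C O K, ← IsScalarTower.algebraMap_apply C K E]
  have : IsScalarTower C Bp E := IsScalarTower.of_algebraMap_eq fun x => by
    rw [IsScalarTower.algebraMap_apply C B Bp, ← IsScalarTower.algebraMap_apply B Bp E,
      ← IsScalarTower.algebraMap_apply C B E]
  have hfield : ∀ z : O, z ≠ 0 → IsUnit (algebraMap O E z) := by
    intro z hz
    rw [IsScalarTower.algebraMap_apply O K E]
    refine (isUnit_iff_ne_zero.mpr ?_).map _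
    intro h0
    obtain ⟨x, t, rfl⟩ := IsLocalization.exists_mk'_eq P.primeCompl z
    apply hz
    rw [RingHom.algebraMap_toAlgebra, IsLocalization.lift_mk'] at h0
    have : algebraMap C K x = 0 := by simpa using h0
    rw [show x = 0 from IsFractionRing.injective C K (by simpa using this)]
    exact IsLocalization.mk'_zero _
  have hBpE : Function.Injective (algebraMap Bp E) := by
    rw [RingHom.algebraMap_toAlgebra, IsLocalization.lift_injective_iff]
    intro x x'
    constructor
    · intro h
      have := congrArg (algebraMap Bp E) h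
      rwa [← IsScalarTower.algebraMap_apply B Bp E, ← IsScalarTower.algebraMap_apply B Bp E] at this
    · intro h
      rw [hBE h]
  have : Module.Finite O Bp := inferInstance
  have : Module.IsTorsionFree O Bp := by
    refine ⟨fun z hz x x' hxx => ?_⟩
    apply hBpE
    have := congrArg (algebraMap Bp E) hxx
    simp only [Algebra.smul_def, map_mul, ← IsScalarTower.algebraMap_apply O Bp E] at this
    exact (hfield z hz.ne_zero).mul_left_cancel this
  have : IsLocalization (Algebra.algebraMapSubmonoid Bp O⁰) E := by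
    refine (isLocalization_iff _ _).mpr ⟨?_, ?_, ?_⟩
    · rintro ⟨_, z, hz, rfl⟩
      rw [← IsScalarTower.algebraMap_apply O Bp E]
      exact hfield z (nonZeroDivisors.ne_zero hz)
    · intro e
      obtain ⟨⟨b, _, d, hd, rfl⟩, h⟩ :=
        IsLocalization.surj (Algebra.algebraMapSubmonoid B C⁰) e
      refine ⟨⟨algebraMap B Bp b, algebraMap O Bp (algebraMap C O d),
        Algebra.mem_algebraMapSubmonoid_of_mem
          (⟨algebraMap C O d, mem_nonZeroDivisors_of_ne_zero fun h0 =>
            nonZeroDivisors.ne_zero hd (IsLocalization.injective O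
              P.primeCompl_le_nonZeroDivisors (by simpa using h0))⟩ : O⁰)⟩, ?_⟩
      simp only [← IsScalarTower.algebraMap_apply B Bp E]
      rw [← IsScalarTower.algebraMap_apply C O Bp, ← IsScalarTower.algebraMap_apply C Bp E]
      simpa [← IsScalarTower.algebraMap_apply C B E] using h
    · intro x x' h
      exact ⟨1, by rw [hBpE h]⟩
  have : IsFractionRing O K :=
    IsFractionRing.isFractionRing_of_isDomain_of_isLocalization P.primeCompl O K
  set T := LinearMap.mul O Bp (algebraMap B Bp y)
  have hdet : LinearMap.det T = algebraMap C O c := by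
    apply (show Function.Injective (algebraMap O K) from ?_)
    · rw [← IsScalarTower.algebraMap_apply C O K, ← hc, IsScalarTower.algebraMap_apply B Bp E,
        Algebra.norm_localization O O⁰, Algebra.norm_apply]
      rfl
    · rw [injective_iff_map_eq_zero]
      intro z hz
      by_contra hz0
      have := hfield z hz0
      rw [IsScalarTower.algebraMap_apply O K E, hz, map_zero] at this
      exact not_isUnit_zero this
  have hmaxO : ∀ x : C, algebraMap C O x ∈ IsLocalRing.maximalIdeal O ↔ x ∈ P :=
    fun x => IsLocalization.AtPrime.to_map_mem_maximal_iff O P x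
  have hunit : IsUnit (LinearMap.det T) ↔ IsUnit (algebraMap B Bp y) := by
    rw [← LinearMap.isUnit_iff_isUnit_det, Module.End.isUnit_iff]
    constructor
    · intro h
      obtain ⟨z, hz⟩ := h.2 1
      exact IsUnit.of_mul_eq_one z hz
    · rintro ⟨v, hv⟩
      refine ⟨fun a b hab => ?_, fun a => ⟨(v⁻¹ : Bpˣ) * a, ?_⟩⟩
      · have h2 : (v : Bp) * a = (v : Bp) * b := by simpa [T, hv] using hab
        exact v.mul_right_inj.mp h2
      · simp [T, ← hv]
  have hover : ∀ q : Ideal Bp, q.IsMaximal →
      (q.comap (algebraMap B Bp)).IsMaximal ∧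
        (q.comap (algebraMap B Bp)).comap (algebraMap C B) = P := by
    intro q hq
    have hqO : (q.comap (algebraMap O Bp)).IsMaximal :=
      Ideal.isMaximal_comap_of_isIntegral_of_isMaximal q
    have hP' : (q.comap (algebraMap B Bp)).comap (algebraMap C B) = P := by
      rw [Ideal.comap_comap, ← IsScalarTower.algebraMap_eq, IsScalarTower.algebraMap_eq C O Bp,
        ← Ideal.comap_comap, IsLocalRing.eq_maximalIdeal hqO]
      exact IsLocalization.AtPrime.under_maximalIdeal O P
    have : (q.comap (algebraMap B Bp)).IsPrime := Ideal.comap_isPrime _ _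
    exact ⟨Ideal.isMaximal_of_isIntegral_of_isMaximal_comap _ (hP'.symm ▸ ‹P.IsMaximal›), hP'⟩
  have hiff : c ∈ P ↔ ∃ M : Ideal B, M.IsMaximal ∧ M.comap (algebraMap C B) = P ∧ y ∈ M := by
    rw [← hmaxO, ← hdet, IsLocalRing.mem_maximalIdeal, mem_nonunits_iff, hunit]
    constructor
    · intro h
      obtain ⟨q, hq, hyq⟩ := exists_max_ideal_of_mem_nonunits h
      exact ⟨_, (hover q hq).1, (hover q hq).2, hyq⟩
    · rintro ⟨M, hM, hMP, hyM⟩ hu
      have hdisj : Disjoint (Algebra.algebraMapSubmonoid B P.primeCompl : Set B) M := by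
        rw [Set.disjoint_left]
        rintro _ ⟨t, ht, rfl⟩ htM
        exact ht (hMP ▸ htM : t ∈ P)
      have := IsLocalization.isPrime_of_isPrime_disjoint (Algebra.algebraMapSubmonoid B P.primeCompl)
        Bp M hM.isPrime hdisj
      exact this.ne_top (Ideal.eq_top_of_isUnit_mem _ (Ideal.mem_map_of_mem _ hyM) hu)
  refine ⟨hiff, fun M hM hMP hyM hother ⟨t, ht, hdvd⟩ hres hc2 => ?_⟩
  have hrangeM : ∀ w ∈ M, algebraMap B Bp w ∈ LinearMap.range T := by
    intro w hw
    let J : Ideal Bp :=
      (Ideal.span {algebraMap B Bp y}).colon ({algebraMap B Bp w} : Set Bp)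
    have hJ : J = ⊤ := by
      by_contra hJ
      obtain ⟨q, hq, hJq⟩ := Ideal.exists_le_maximal J hJ
      obtain ⟨hm, hmP⟩ := hover q hq
      by_cases hqM : q.comap (algebraMap B Bp) = M
      · refine ht (hqM ▸ hJq ?_)
        rw [Submodule.mem_colon_singleton, smul_eq_mul, ← map_mul, Ideal.mem_span_singleton]
        exact map_dvd _ (hdvd w hw)
      · refine hother _ hm hmP hqM (hJq ?_)
        rw [Submodule.mem_colon_singleton, smul_eq_mul, Ideal.mem_span_singleton]
        exact dvd_mul_right _ _
    have h1 := Submodule.mem_colon_singleton.mp (hJ.symm ▸ Submodule.mem_top : (1 : Bp) ∈ J)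
    rw [one_smul, Ideal.mem_span_singleton] at h1
    obtain ⟨z, hz⟩ := h1
    exact ⟨z, by simp [T, hz]⟩
  obtain ⟨ϖ, hϖ⟩ := IsDiscreteValuationRing.exists_irreducible O
  have hϖmax : IsLocalRing.maximalIdeal O = Ideal.span {ϖ} := hϖ.maximalIdeal_eq
  have hϖrange : ϖ • (1 : Bp) ∈ LinearMap.range T := by
    have hmem : ϖ ∈ IsLocalRing.maximalIdeal O := hϖmax ▸ Ideal.mem_span_singleton_self ϖ
    obtain ⟨x, s, rfl⟩ := IsLocalization.exists_mk'_eq P.primeCompl ϖ
    have hxP : x ∈ P := (IsLocalization.AtPrime.mk'_mem_maximal_iff O P x s).mp hmem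
    have h1 := hrangeM (algebraMap C B x) (by rw [← hMP] at hxP; exact hxP)
    have h2 : IsLocalization.mk' O x s • (1 : Bp)
        = IsLocalization.mk' O 1 s • algebraMap B Bp (algebraMap C B x) := by
      rw [Algebra.smul_def, Algebra.smul_def, mul_one, ← IsScalarTower.algebraMap_apply C B Bp,
        IsScalarTower.algebraMap_apply C O Bp, ← map_mul, mul_comm, IsLocalization.mul_mk'_eq_mk'_of_mul,
        mul_one]
    rw [h2]
    exact Submodule.smul_mem _ _ h1
  have hTinj : Function.Injective T := by
    rw [← LinearMap.ker_eq_bot, LinearMap.ker_eq_bot']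
    intro z hz
    obtain ⟨w, hw⟩ := hϖrange
    have h2 : ϖ • z = 0 := by
      have h3 : ϖ • z = (ϖ • (1 : Bp)) * z := by rw [smul_mul_assoc, one_mul]
      rw [h3, ← hw]
      simp only [T, LinearMap.mul_apply'] at hz ⊢
      rw [mul_right_comm, hz, zero_mul]
    exact (smul_eq_zero.mp h2).resolve_left hϖ.ne_zero
  have hassoc := associated_det_of_simple_coker T hTinj 1 ϖ hϖmax hϖ.ne_zero ?_ hϖrange ?_
  · have h2 : algebraMap C O c ∈ IsLocalRing.maximalIdeal O ^ 2 := by
      have := Ideal.mem_map_of_mem (algebraMap C O) hc2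
      rwa [Ideal.map_pow, IsLocalization.AtPrime.map_eq_maximalIdeal P O] at this
    rw [← hdet, hϖmax, Ideal.span_singleton_pow, Ideal.mem_span_singleton,
      hassoc.dvd_iff_dvd_right, pow_two] at h2
    obtain ⟨d, hd⟩ := h2
    exact hϖ.not_isUnit (IsUnit.of_mul_eq_one d
      (mul_left_cancel₀ hϖ.ne_zero (by rw [mul_one, ← mul_assoc, ← hd])))
  · rintro ⟨z, hz⟩
    have hu : IsUnit (algebraMap B Bp y) := IsUnit.of_mul_eq_one z hz
    have := (hiff.mpr ⟨M, hM, hMP, hyM⟩)
    rw [← hmaxO, ← hdet, IsLocalRing.mem_maximalIdeal, mem_nonunits_iff, hunit] at this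
    exact this hu
  · intro z
    obtain ⟨b, ⟨_, s, hs, rfl⟩, rfl⟩ :=
      IsLocalization.exists_mk'_eq (Algebra.algebraMapSubmonoid B P.primeCompl) z
    obtain ⟨a, ha⟩ := hres b
    let r : O := IsLocalization.mk' O 1 (⟨s, hs⟩ : P.primeCompl)
    refine ⟨r * algebraMap C O (algebraMap k C a), ?_⟩
    have hrs : algebraMap O Bp r * algebraMap B Bp (algebraMap C B s) = 1 := by
      rw [← IsScalarTower.algebraMap_apply C B Bp, IsScalarTower.algebraMap_apply C O Bp, ← map_mul]
      simp [r]
    have hz : IsLocalization.mk' Bp b (⟨algebraMap C B s, s, hs, rfl⟩ :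
          Algebra.algebraMapSubmonoid B P.primeCompl) = algebraMap O Bp r * algebraMap B Bp b := by
      rw [IsLocalization.mk'_eq_iff_eq_mul]
      linear_combination (-(algebraMap B Bp b)) * hrs
    rw [hz, Algebra.smul_def, mul_one, map_mul, ← IsScalarTower.algebraMap_apply C O Bp,
      IsScalarTower.algebraMap_apply C B Bp, ← mul_sub, ← map_sub, ← Algebra.smul_def]
    exact Submodule.smul_mem _ _ (hrangeM _ ha)

variable {S : Type*} [CommRing S] [Algebra S C] [Module.Finite S C] [Algebra k S]
  [IsScalarTower k S C]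

include k in
/-- **Norm descent.** If the maximal ideals of `B` are locally principal and all norms from `B`
lie in the subalgebra `S` over which `C` is finite, then `S` is all of `C`. -/
theorem surjective_of_norm_mem (hBE : Function.Injective (algebraMap B E))
    (hloc : ∀ M : Ideal B, M.IsMaximal → ∃ t ∈ M, M ≤ Ideal.span {t} ⊔ M * M)
    (hN : ∀ y : B, ∃ x : S, Algebra.norm K (algebraMap B E y) = algebraMap C K (algebraMap S C x)) :
    Function.Surjective (algebraMap S C) := by
  classical
  have hBinj : Function.Injective (algebraMap C B) :=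
    algebraMap_injective_of_fraction (K := K) (E := E)
  have hkS : ∀ a : k, algebraMap S C (algebraMap k S a) = algebraMap k C a :=
    fun a => (IsScalarTower.algebraMap_apply k S C a).symm
  by_cases hF : IsField C
  · intro c
    have : (⊥ : Ideal C).IsMaximal := by
      let := hF.toField
      exact Ideal.bot_isMaximal
    obtain ⟨a, ha⟩ := exists_sub_algebraMap_mem (k := k) (⊥ : Ideal C) c
    exact ⟨algebraMap k S a, by rw [hkS]; exact (sub_eq_zero.mp ha).symm⟩
  have hne : ∀ P : Ideal C, P.IsMaximal → P ≠ ⊥ := fun P hP => Ring.ne_bot_of_isMaximal_of_not_isField hP hF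
  let : Algebra k B := ((algebraMap C B).comp (algebraMap k C)).toAlgebra
  have : IsScalarTower k C B := IsScalarTower.of_algebraMap_eq' rfl
  have : Algebra.FiniteType k B := Algebra.FiniteType.trans ‹Algebra.FiniteType k C› inferInstance
  have : IsNoetherianRing C := inferInstance
  have : IsNoetherianRing B := IsNoetherianRing.of_finite C B
  have hover : ∀ P : Ideal C, P.IsMaximal →
      ∃ M : Ideal B, M.IsMaximal ∧ M.comap (algebraMap C B) = P := fun P hP =>
    Ideal.exists_ideal_over_maximal_of_isIntegral P (by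
      rw [(RingHom.injective_iff_ker_eq_bot _).mp hBinj]
      exact bot_le)
  choose f hf using hN
  have hnorm := fun P (hP : Ideal.IsMaximal P) y =>
    norm_at_prime (k := k) hBE P (hne P hP) y _ (hf y)
  have hcop : ∀ M M' : Ideal B, M.IsMaximal → M'.IsMaximal → M ≠ M' → IsCoprime M M' :=
    fun M M' hM hM' h => Ideal.isCoprime_iff_sup_eq.mpr (hM.coprime_of_ne hM' h)
  -- uniformisers with values in `S`
  have hunif : ∀ P : Ideal C, P.IsMaximal →
      ∃ x : S, algebraMap S C x ∈ P ∧ algebraMap S C x ∉ P ^ 2 := by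
    intro P hP
    obtain ⟨M, hM, hMP⟩ := hover P hP
    obtain ⟨t, htM, htle⟩ := hloc M hM
    let s := (under_finite (B := B) P).toFinset
    let I : {N // N ∈ s} → Ideal B := fun N => if (N : Ideal B) = M then M * M else N
    have hs : ∀ N, N ∈ s ↔ N.IsMaximal ∧ N.comap (algebraMap C B) = P := fun N => by simp [s]
    have hI : Pairwise (Function.onFun IsCoprime I) := by
      rintro ⟨N, hN⟩ ⟨N', hN'⟩ hne
      have hne' : N ≠ N' := fun h => hne (Subtype.ext h)
      have h0 := hcop N N' ((hs N).mp hN).1 ((hs N').mp hN').1 hne'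
      simp only [Function.onFun, I]
      split_ifs with h1 h2 h2
      · exact absurd (h1.trans h2.symm) hne'
      · subst h1; exact h0.mul_left h0
      · subst h2; exact h0.mul_right h0
      · exact h0
    obtain ⟨y, hy⟩ := Ideal.exists_forall_sub_mem_ideal hI
      (fun N => if (N : Ideal B) = M then t else 1)
    have hyt : y - t ∈ M * M := by simpa [I] using hy ⟨M, (hs M).mpr ⟨hM, hMP⟩⟩
    have hyM : y ∈ M := by
      simpa using M.add_mem (Ideal.mul_le_left hyt) htM
    have hother : ∀ M' : Ideal B, M'.IsMaximal → M'.comap (algebraMap C B) = P → M' ≠ M →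
        y ∉ M' := by
      intro M' hM' hM'P hne' hyM'
      have h1 : y - 1 ∈ M' := by simpa [I, hne'] using hy ⟨M', (hs M').mpr ⟨hM', hM'P⟩⟩
      exact hM'.ne_top ((Ideal.eq_top_iff_one _).mpr (by simpa using M'.sub_mem hyM' h1))
    have hMle : M ≤ Ideal.span {y} ⊔ M • M := by
      refine htle.trans (sup_le ?_ le_sup_right)
      rw [Ideal.span_singleton_le_iff_mem]
      have : t = y + -(y - t) := by ring
      rw [this]
      exact add_mem (Ideal.mem_sup_left (Ideal.mem_span_singleton_self y))
        (Ideal.mem_sup_right (neg_mem hyt))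
    obtain ⟨r, hr, hrle⟩ :=
      Submodule.exists_sub_one_mem_and_smul_le_of_fg_of_le_sup
        (IsNoetherian.noetherian M) le_rfl hMle
    have hrM : r ∉ M := fun h => hM.ne_top ((Ideal.eq_top_iff_one _).mpr
      (by simpa using M.sub_mem h hr))
    have hres : ∀ b : B, ∃ a : k, b - algebraMap C B (algebraMap k C a) ∈ M := fun b => by
      have := exists_sub_algebraMap_mem (k := k) M b
      simpa [IsScalarTower.algebraMap_apply k C B] using this
    have hdvd : ∀ w ∈ M, y ∣ r * w := fun w hw =>
      Ideal.mem_span_singleton.mp (hrle (Submodule.smul_mem_pointwise_smul w r M hw))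
    exact ⟨f y, (hnorm P hP y).1.mpr ⟨M, hM, hMP, hyM⟩,
      (hnorm P hP y).2 M hM hMP hyM hother ⟨r, hrM, hdvd⟩ hres⟩
  -- separation
  have hsep : ∀ P P' : Ideal C, P.IsMaximal → P'.IsMaximal →
      P.comap (algebraMap S C) = P'.comap (algebraMap S C) → P = P' := by
    intro P P' hP hP' heq
    by_contra hne'
    obtain ⟨M, hM, hMP⟩ := hover P hP
    let s := (under_finite (B := B) P').toFinset
    have hs : ∀ N, N ∈ s ↔ N.IsMaximal ∧ N.comap (algebraMap C B) = P' := fun N => by simp [s]
    have hsup : IsCoprime M (s.inf id) := by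
      refine Ideal.isCoprime_iff_sup_eq.mpr ?_
      by_contra hcon
      obtain ⟨Q, hQ, hle⟩ := Ideal.exists_le_maximal _ hcon
      have hQM : M = Q := hM.eq_of_le hQ.ne_top (le_sup_left.trans hle)
      obtain ⟨N, hN, hNQ⟩ := hQ.isPrime.inf_le'.mp (le_sup_right.trans hle)
      obtain rfl : N = Q := ((hs N).mp hN).1.eq_of_le hQ.ne_top hNQ
      exact hne' (by rw [← hMP, hQM]; exact ((hs _).mp hN).2)
    obtain ⟨y, hyM, z, hz, hyz⟩ := Ideal.isCoprime_iff_exists.mp hsup
    have h1 : algebraMap S C (f y) ∈ P := (hnorm P hP y).1.mpr ⟨M, hM, hMP, hyM⟩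
    have h2 : algebraMap S C (f y) ∈ P' := by
      have : f y ∈ P'.comap (algebraMap S C) := heq ▸ h1
      exact this
    obtain ⟨M', hM', hM'P, hyM'⟩ := (hnorm P' hP' y).1.mp h2
    have : z ∈ M' := (Finset.inf_le ((hs M').mpr ⟨hM', hM'P⟩) : s.inf id ≤ M') hz
    exact hM'.ne_top ((Ideal.eq_top_iff_one _).mpr (hyz ▸ M'.add_mem hyM' this))
  -- Nakayama
  intro c
  by_contra hc
  let N : Submodule S C := LinearMap.range (Algebra.linearMap S C)
  have hmemN : ∀ {x : C}, x ∈ N ↔ ∃ a : S, algebraMap S C a = x := Iff.rfl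
  have hIne : N.colon ({c} : Set C) ≠ ⊤ := fun htop => hc <| by
    have := Submodule.mem_colon_singleton.mp (htop.symm ▸ Submodule.mem_top : (1 : S) ∈ _)
    simpa [hmemN] using this
  obtain ⟨m, hm, hle⟩ := Ideal.exists_le_maximal _ hIne
  have hker : RingHom.ker (algebraMap S C) ≤ m := fun x hx => hle <| by
    rw [Submodule.mem_colon_singleton, Algebra.smul_def, RingHom.mem_ker.mp hx, zero_mul]
    exact N.zero_mem
  obtain ⟨P, hP, hPm⟩ := Ideal.exists_ideal_over_maximal_of_isIntegral m hker
  obtain ⟨x, hxP, hxP2⟩ := hunif P hP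
  set J := m.map (algebraMap S C)
  have hJP : J ≤ P := Ideal.map_le_iff_le_comap.mpr hPm.ge
  have hxJ : algebraMap S C x ∈ J := Ideal.mem_map_of_mem _ (hPm ▸ hxP)
  obtain ⟨I, hI⟩ := Ideal.dvd_iff_le.mpr hJP
  have hJ : J = P := by
    rw [hI]
    convert mul_one P
    rw [Ideal.one_eq_top]
    by_contra htop
    obtain ⟨Q, hQ, hIQ⟩ := Ideal.exists_le_maximal _ htop
    have hJQ : J ≤ Q := hI ▸ Ideal.mul_le_right.trans hIQ
    have hQP : Q = P := by
      refine hsep Q P hQ hP ?_
      rw [hPm]
      exact (hm.eq_of_le (Ideal.comap_ne_top _ hQ.ne_top)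
        (Ideal.map_le_iff_le_comap.mp hJQ)).symm
    exact hxP2 (pow_two P ▸ Ideal.mul_mono_right (hQP ▸ hIQ) (hI ▸ hxJ))
  have htop : (⊤ : Submodule S C) ≤ N ⊔ m • (⊤ : Submodule S C) := by
    intro z _
    obtain ⟨a, ha⟩ := exists_sub_algebraMap_mem (k := k) P z
    have hz : z = algebraMap S C (algebraMap k S a) + (z - algebraMap k C a) := by rw [hkS]; ring
    rw [hz]
    refine add_mem (Submodule.mem_sup_left (hmemN.mpr ⟨_, rfl⟩)) (Submodule.mem_sup_right ?_)
    rw [Ideal.smul_top_eq_map]
    show _ ∈ J
    rw [hJ]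
    exact ha
  obtain ⟨r, hr, hrle⟩ :=
    Submodule.exists_sub_one_mem_and_smul_le_of_fg_of_le_sup Module.Finite.fg_top le_rfl htop
  have hrm : r ∈ m := hle <| Submodule.mem_colon_singleton.mpr <|
    hrle (Submodule.smul_mem_pointwise_smul c r ⊤ Submodule.mem_top)
  exact hm.ne_top ((Ideal.eq_top_iff_one _).mpr (by simpa using m.sub_mem hrm hr))

end Core

/-- Norm descent for subalgebras of a field and the integral closure. -/
theorem le_of_norm_mem {k K E : Type*} [Field k] [IsAlgClosed k] [Field K] [Algebra k K]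
    [CommRing E] [Nontrivial E] [Algebra K E] [Module.Finite K E] [Algebra k E] [IsScalarTower k K E]
    (S C : Subalgebra k K) (hSC : S ≤ C) [IsDedekindDomain C] [IsFractionRing C K]
    [Algebra.FiniteType k C] (hfin : (Subalgebra.inclusion hSC).toRingHom.Finite)
    [Module.Finite C (integralClosure C E)]
    (hloc : ∀ M : Ideal (integralClosure C E), M.IsMaximal → ∃ t ∈ M, M ≤ Ideal.span {t} ⊔ M * M)
    (hN : ∀ b : integralClosure C E, Algebra.norm K (b : E) ∈ S) : C ≤ S := by
  let : Algebra S C := (Subalgebra.inclusion hSC).toRingHom.toAlgebra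
  have : Module.Finite S C := hfin
  have : IsScalarTower k S C := IsScalarTower.of_algebraMap_eq' rfl
  have : IsLocalization (Algebra.algebraMapSubmonoid (integralClosure C E) C⁰) E := by
    refine (isLocalization_iff _ _).mpr ⟨?_, ?_, ?_⟩
    · rintro ⟨_, c, hc, rfl⟩
      rw [← IsScalarTower.algebraMap_apply C (integralClosure C E) E,
        IsScalarTower.algebraMap_apply C K E]
      refine (isUnit_iff_ne_zero.mpr fun h => nonZeroDivisors.ne_zero hc ?_).map _
      exact IsFractionRing.injective C K (by simpa using h)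
    · intro z
      obtain ⟨⟨c, hc⟩, hint⟩ :=
        IsIntegral.exists_multiple_integral_of_isLocalization (R := C) C⁰ (Rₘ := K) z
          (Algebra.IsIntegral.isIntegral (R := K) z)
      refine ⟨⟨⟨c • z, hint⟩, algebraMap C _ c, c, hc, rfl⟩, ?_⟩
      show z * algebraMap C E c = c • z
      rw [Algebra.smul_def, mul_comm]
    · intro a b h
      exact ⟨1, by rw [Subtype.ext h]⟩
  have hsur := surjective_of_norm_mem (k := k) (K := K) (E := E) (S := S)
    (B := integralClosure C E) (C := C) Subtype.val_injective hloc fun y =>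
      ⟨⟨_, hN y⟩, rfl⟩
  intro c hc
  obtain ⟨x, hx⟩ := hsur ⟨c, hc⟩
  have : (x : K) = c := congrArg Subtype.val hx
  exact this ▸ x.2

end FLTA.Smooth
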