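import Mathlib.LinearAlgebra.Determinant
import Mathlib.RingTheory.DiscreteValuationRing.Basic
import Mathlib.RingTheory.Finiteness.Basic
import Mathlib.RingTheory.OrzechProperty
import Mathlib.RingTheory.Ideal.Quotient.Operations
import Mathlib.RingTheory.FiniteType
import Mathlib.LinearAlgebra.FreeModule.PID

/-!
Local facts for norm descent: determinants of maps with simple cokernel, and locally principal
maximal ideals.
-/

set_option autoImplicit false

namespace FLTA.Smooth

open IsLocalRing

/-- A map of a finite free module over a local domain with principal maximal ideal `(ϖ)` whose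
cokernel is the residue field has determinant associated to `ϖ`. -/
theorem associated_det_of_simple_coker {O M : Type*} [CommRing O] [IsDomain O] [IsLocalRing O]
    [AddCommGroup M] [Module O M] [Module.Free O M] [Module.Finite O M]
    (T : M →ₗ[O] M) (hT : Function.Injective T) (v : M) (ϖ : O)
    (hmax : maximalIdeal O = Ideal.span {ϖ}) (hϖ0 : ϖ ≠ 0)
    (hv : v ∉ LinearMap.range T) (hϖv : ϖ • v ∈ LinearMap.range T)
    (hcodim : ∀ x : M, ∃ a : O, x - a • v ∈ LinearMap.range T) :
    Associated (LinearMap.det T) ϖ := by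
  classical
  set N := LinearMap.range T
  let b := Module.Free.chooseBasis O M
  have hϖM : ∀ x : M, ϖ • x ∈ N := by
    intro x
    obtain ⟨a, ha⟩ := hcodim x
    have : ϖ • x = a • (ϖ • v) + ϖ • (x - a • v) := by rw [smul_sub, smul_comm a ϖ]; abel
    rw [this]
    exact N.add_mem (N.smul_mem _ hϖv) (N.smul_mem _ ha)
  obtain ⟨i0, hi0⟩ : ∃ i, IsUnit (b.repr v i) := by
    by_contra h
    push Not at h
    apply hv
    rw [← b.sum_repr v]
    refine N.sum_mem fun i _ => ?_
    obtain ⟨c, hc⟩ := Ideal.mem_span_singleton'.mp (hmax ▸ (mem_maximalIdeal _).mpr (h i))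
    rw [← hc, mul_smul]
    exact N.smul_mem _ (hϖM _)
  choose a ha using fun i => hcodim (b i)
  let g := Function.update (fun i => b i - a i • v) i0 v
  have hg0 : g i0 = v := Function.update_self ..
  have hgi : ∀ i, i ≠ i0 → g i = b i - a i • v := fun i hi => Function.update_of_ne hi ..
  let G := b.constr O g
  have hGb : ∀ i, G (b i) = g i := fun i => b.constr_basis O g i
  have hmem : ∀ i, i ≠ i0 → b i ∈ LinearMap.range G := by
    intro i hi
    have : b i = g i + a i • g i0 := by rw [hgi i hi, hg0, sub_add_cancel]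
    rw [this, ← hGb i, ← hGb i0, ← map_smul, ← map_add]
    exact LinearMap.mem_range_self G _
  have hmem0 : b i0 ∈ LinearMap.range G := by
    have hsum : b.repr v i0 • b i0
        + ∑ i ∈ Finset.univ.erase i0, b.repr v i • b i = v := by
      rw [Finset.add_sum_erase _ (fun i => b.repr v i • b i) (Finset.mem_univ i0)]
      exact b.sum_repr v
    have h1 : b.repr v i0 • b i0 ∈ LinearMap.range G := by
      rw [eq_sub_of_add_eq hsum]
      refine Submodule.sub_mem _ ⟨b i0, (hGb i0).trans hg0⟩ ?_
      exact Submodule.sum_mem _ fun i hi =>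
        Submodule.smul_mem _ _ (hmem i (Finset.mem_erase.mp hi).1)
    exact (Submodule.smul_mem_iff_of_isUnit _ hi0).mp h1
  have hsurj : Function.Surjective G := by
    rw [← LinearMap.range_eq_top, ← top_le_iff, ← b.span_eq, Submodule.span_le]
    rintro _ ⟨i, rfl⟩
    rcases eq_or_ne i i0 with rfl | hi
    exacts [hmem0, hmem i hi]
  let gb := b.map (LinearEquiv.ofBijective G
    (OrzechProperty.bijective_of_surjective_endomorphism G hsurj))
  have hgb : ∀ i, gb i = g i := fun i => by simp [gb, hGb]
  let d := Function.update (fun _ : Module.Free.ChooseBasisIndex O M => (1 : O)) i0 ϖ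
  let D := gb.constr O fun i => d i • gb i
  have hD : ∀ i, D (gb i) = d i • gb i := fun i => gb.constr_basis O _ i
  have hdetD : LinearMap.det D = ϖ := by
    have : LinearMap.toMatrix gb gb D = Matrix.diagonal d := by
      refine Matrix.ext fun i j => ?_
      rw [LinearMap.toMatrix_apply, hD, map_smul, gb.repr_self, Finsupp.smul_apply,
        Finsupp.single_apply, Matrix.diagonal_apply]
      split_ifs with h1 h2 h2 <;> simp_all
    rw [← LinearMap.det_toMatrix gb, this, Matrix.det_diagonal,
      Finset.prod_update_of_mem (Finset.mem_univ _)]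
    simp
  have hdet0 : LinearMap.det D ≠ 0 := by rwa [hdetD]
  have hDinj : Function.Injective D := by
    rw [← LinearMap.ker_eq_bot]
    by_contra hne
    exact hdet0 (LinearMap.det_eq_zero_iff_ker_ne_bot.mpr hne)
  have hdd : ∀ i, d i • gb i ∈ N := by
    intro i
    rw [hgb]
    rcases eq_or_ne i i0 with rfl | hi
    · simpa [d, hg0] using hϖv
    · simpa [d, hi, hgi i hi] using ha i
  have hrange : LinearMap.range D = N := by
    apply le_antisymm
    · rw [LinearMap.range_eq_map, ← gb.span_eq, Submodule.map_span, Submodule.span_le]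
      rintro _ ⟨_, ⟨i, rfl⟩, rfl⟩
      rw [hD]
      exact hdd i
    · intro y hy
      have hother : ∀ i, i ≠ i0 → gb i ∈ LinearMap.range D :=
        fun i hi => ⟨gb i, by simp [hD, d, hi]⟩
      have hr : gb.repr y i0 • gb i0 ∈ N := by
        have h2 : ∑ i ∈ Finset.univ.erase i0, gb.repr y i • gb i ∈ N := by
          refine N.sum_mem fun i hi => N.smul_mem _ ?_
          have := hdd i
          simpa [d, (Finset.mem_erase.mp hi).1] using this
        have hsum := Finset.add_sum_erase _ (fun i => gb.repr y i • gb i) (Finset.mem_univ i0)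
        rw [gb.sum_repr] at hsum
        rw [eq_sub_of_add_eq hsum]
        exact N.sub_mem hy h2
      have hnu : ¬ IsUnit (gb.repr y i0) := by
        intro hu
        apply hv
        rw [hgb, hg0] at hr
        exact (Submodule.smul_mem_iff_of_isUnit _ hu).mp hr
      obtain ⟨c, hc⟩ := Ideal.mem_span_singleton'.mp (hmax ▸ (mem_maximalIdeal _).mpr hnu)
      rw [← gb.sum_repr y]
      refine Submodule.sum_mem _ fun i _ => ?_
      rcases eq_or_ne i i0 with rfl | hi
      · refine ⟨c • gb i, ?_⟩
        rw [map_smul, hD, smul_smul]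
        simp [d, hc]
      · exact Submodule.smul_mem _ _ (hother i hi)
  let U : M ≃ₗ[O] M := (LinearEquiv.ofInjective T hT).trans
    ((LinearEquiv.ofEq _ _ hrange.symm).trans (LinearEquiv.ofInjective D hDinj).symm)
  have hTU : T = D ∘ₗ (U : M →ₗ[O] M) := by
    ext x
    have h1 : LinearEquiv.ofInjective D hDinj (U x)
        = LinearEquiv.ofEq _ _ hrange.symm (LinearEquiv.ofInjective T hT x) := by simp [U]
    exact (congrArg Subtype.val h1).symm
  rw [hTU, LinearMap.det_comp, hdetD]
  exact associated_mul_unit_left _ _ (LinearEquiv.isUnit_det' U)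

/-- Every maximal ideal is, locally at itself, generated by a nonzerodivisor. -/
def LocPrincipal (S : Type*) [CommRing S] : Prop :=
  ∀ M : Ideal S, M.IsMaximal → ∃ π ∈ M, π ∈ nonZeroDivisors S ∧ ∃ u ∉ M, ∀ w ∈ M, π ∣ u * w

/-- The form of local principality used by norm descent. -/
theorem LocPrincipal.exists_le_sup {S : Type*} [CommRing S] (h : LocPrincipal S)
    (M : Ideal S) (hM : M.IsMaximal) : ∃ t ∈ M, M ≤ Ideal.span {t} ⊔ M * M := by
  obtain ⟨π, hπM, -, u, hu, hdvd⟩ := h M hM
  refine ⟨π, hπM, fun w hw => ?_⟩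
  obtain ⟨r, m, hm, hrm⟩ := Ideal.IsMaximal.exists_inv hM hu
  have : w = r * (u * w) + m * w := by linear_combination (-w) * hrm
  rw [this]
  exact add_mem (Ideal.mem_sup_left (Ideal.mem_span_singleton.mpr ((hdvd w hw).mul_left r)))
    (Ideal.mem_sup_right (Ideal.mul_mem_mul hm hw))

end FLTA.Smooth
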