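import Fermat.Agent.Smooth.Upstairs
import Fermat.Agent.Smooth.NormDescentLocal
import Mathlib.RingTheory.Artinian.Module
import Mathlib.RingTheory.Artinian.Ring
import Mathlib.RingTheory.IntegralClosure.Algebra.Basic
import Mathlib.RingTheory.Ideal.GoingUp
import Mathlib.RingTheory.Ideal.IdempotentFG
import Mathlib.RingTheory.DedekindDomain.Basic

/-!
# The integral closure upstairs has locally principal maximal ideals
-/

set_option autoImplicit false

noncomputable section

namespace FLTA.Smooth

variable {R B Rb κ E ι : Type*} [CommRing R] [CommRing B] [Algebra R B]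
  [CommRing Rb] [IsDomain Rb] [Field κ] [Algebra Rb κ]
  [IsFractionRing Rb κ] [IsIntegrallyClosed Rb]
  [CommRing E] [Algebra κ E] [Module.Finite κ E] [Algebra Rb E] [IsScalarTower Rb κ E]
  [Fintype ι] [DecidableEq ι]

variable (ρR : R →+* Rb) (ρ : B →+* E)
  (hcomp : ∀ r, ρ (algebraMap R B r) = algebraMap Rb E (ρR r))
  (e : Module.Basis ι R B)
  (hspan : Submodule.span κ (Set.range ρ) = ⊤) (hdim : Fintype.card ι ≤ Module.finrank κ E)

include hcomp hspan hdim in
/-- The integral closure is a finite module. -/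
theorem finite_integralClosure (he : IsUnit (Algebra.discr R e)) :
    Module.Finite Rb (integralClosure Rb E) := by
  classical
  let v : ι → integralClosure Rb E := fun i =>
    ⟨ρ (e i), isIntegral_map (Rb := Rb) ρR ρ hcomp (e i) e⟩
  refine ⟨⟨Finset.univ.image v, ?_⟩⟩
  rw [eq_top_iff]
  intro z _
  obtain ⟨c, hc⟩ := exists_coeff_of_isIntegral (κ := κ) ρR ρ hcomp e hspan hdim he z.2
  have hz : z = ∑ i, c i • v i := by
    apply Subtype.ext
    rw [hc, AddSubmonoidClass.coe_finsetSum]
    rfl
  rw [hz]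
  exact Submodule.sum_mem _ fun i _ => Submodule.smul_mem _ _
    (Submodule.subset_span (by simp))

include hcomp hspan hdim in
/-- The integral closure is reduced modulo a prime element of the base. -/
theorem dvd_of_dvd_pow (he : IsUnit (Algebra.discr R e)) {t : Rb} (ht : Prime t)
    {z : integralClosure Rb E} {n : ℕ}
    (h : algebraMap Rb (integralClosure Rb E) t ∣ z ^ n) :
    algebraMap Rb (integralClosure Rb E) t ∣ z := by
  obtain ⟨w, hw⟩ := h
  have hpow : (z : E) ^ n = t • (w : E) := by
    rw [Algebra.smul_def]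
    exact congrArg Subtype.val hw
  obtain ⟨w', hw', hzw⟩ :=
    trace_mem_of_pow_mem (κ := κ) ρR ρ hcomp e hspan hdim he ht z.2 w.2 hpow
  refine ⟨⟨w', hw'⟩, Subtype.ext ?_⟩
  rw [hzw, Algebra.smul_def]
  rfl

set_option maxHeartbeats 1000000 in
set_option synthInstance.maxHeartbeats 200000 in
include hcomp hspan hdim in
/-- Maximal ideals of the integral closure are locally principal. -/
theorem locPrincipal_integralClosure (he : IsUnit (Algebra.discr R e)) [IsPrincipalIdealRing Rb]
    (hnf : ¬ IsField Rb) : LocPrincipal (integralClosure Rb E) := by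
  classical
  haveI := finite_integralClosure (κ := κ) ρR ρ hcomp e hspan hdim he
  intro M hM
  set P := M.comap (algebraMap Rb (integralClosure Rb E)) with hP
  haveI : P.IsMaximal := Ideal.isMaximal_comap_of_isIntegral_of_isMaximal M
  have hP0 : P ≠ ⊥ := Ring.ne_bot_of_isMaximal_of_not_isField inferInstance hnf
  obtain ⟨t, ht⟩ := IsPrincipalIdealRing.principal P
  have ht' : P = Ideal.span {t} := ht
  have ht0 : t ≠ 0 := fun h => hP0 (by rw [ht', h, Ideal.span_singleton_eq_bot])
  have htp : Prime t := (Ideal.span_singleton_prime ht0).mp (ht' ▸ (inferInstance : P.IsMaximal).isPrime)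
  set tB := algebraMap Rb (integralClosure Rb E) t with htB
  have htM : tB ∈ M := by
    have : t ∈ P := ht' ▸ Ideal.mem_span_singleton_self t
    exact this
  have htn : tB ∈ nonZeroDivisors (integralClosure Rb E) := by
    rw [mem_nonZeroDivisors_iff_right]
    intro x hx
    have h1 : algebraMap Rb κ t • (x : E) = 0 := by
      rw [algebraMap_smul, Algebra.smul_def, mul_comm]
      exact congrArg Subtype.val hx
    have hne : algebraMap Rb κ t ≠ 0 := fun h =>
      ht0 (IsFractionRing.injective Rb κ (h.trans (map_zero _).symm))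
    exact Subtype.ext ((smul_eq_zero.mp h1).resolve_left hne)
  refine ⟨tB, htM, htn, ?_⟩
  set J : Ideal (integralClosure Rb E) := Ideal.span {tB} with hJ
  haveI : IsReduced (integralClosure Rb E ⧸ J) := by
    refine ⟨fun x hx => ?_⟩
    obtain ⟨z, rfl⟩ := Ideal.Quotient.mk_surjective x
    obtain ⟨n, hn⟩ := hx
    rw [← map_pow, Ideal.Quotient.eq_zero_iff_mem, Ideal.mem_span_singleton] at hn
    rw [Ideal.Quotient.eq_zero_iff_mem, Ideal.mem_span_singleton]
    exact dvd_of_dvd_pow (κ := κ) ρR ρ hcomp e hspan hdim he htp hn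
  have hcomap : P ≤ J.comap (algebraMap Rb (integralClosure Rb E)) := by
    rw [ht', Ideal.span_singleton_le_iff_mem, Ideal.mem_comap]
    exact Ideal.mem_span_singleton_self tB
  haveI : IsArtinianRing (integralClosure Rb E ⧸ J) := by
    letI : Field (Rb ⧸ P) := Ideal.Quotient.field P
    letI : Algebra (Rb ⧸ P) (integralClosure Rb E ⧸ J) := (Ideal.quotientMap J _ hcomap).toAlgebra
    haveI : IsScalarTower Rb (Rb ⧸ P) (integralClosure Rb E ⧸ J) :=
      IsScalarTower.of_algebraMap_eq fun r => rfl
    haveI : Module.Finite (Rb ⧸ P) (integralClosure Rb E ⧸ J) :=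
      Module.Finite.of_restrictScalars_finite Rb _ _
    exact isArtinian_of_tower (Rb ⧸ P) inferInstance
  set Q := M.map (Ideal.Quotient.mk J) with hQ
  have hJM : J ≤ M := (Ideal.span_singleton_le_iff_mem _).mpr htM
  have hQQ : ∀ x ∈ Q, ∃ r, x = r * x * x := by
    intro x _
    obtain ⟨n, y, hy⟩ := IsArtinian.exists_pow_succ_smul_dvd x (1 : integralClosure Rb E ⧸ J)
    refine ⟨y, ?_⟩
    have h0 : (x - y * x * x) ^ (n + 1) = 0 := by
      have hy' : x ^ n * (1 - y * x) = 0 := by
        rw [smul_eq_mul, smul_eq_mul, mul_one, Nat.succ_eq_add_one] at hy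
        linear_combination -hy
      calc (x - y * x * x) ^ (n + 1) = x ^ n * (1 - y * x) * (x * (1 - y * x) ^ n) := by
            rw [show x - y * x * x = x * (1 - y * x) by ring, mul_pow]; ring
        _ = 0 := by rw [hy', zero_mul]
    exact sub_eq_zero.mp (IsNilpotent.eq_zero ⟨n + 1, h0⟩)
  haveI : IsNoetherianRing (integralClosure Rb E) := IsNoetherianRing.of_finite Rb _
  have hfg : Q.FG := Ideal.FG.map (IsNoetherian.noetherian M) _
  obtain ⟨ε, hεi, hεQ⟩ := (Ideal.isIdempotentElem_iff_of_fg Q hfg).mp (by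
    refine le_antisymm Ideal.mul_le_left fun x hx => ?_
    obtain ⟨r, hr⟩ := hQQ x hx
    rw [hr]
    exact Ideal.mul_mem_mul (Q.mul_mem_left r hx) hx)
  obtain ⟨ε', hε'⟩ := Ideal.Quotient.mk_surjective ε
  have hε'M : ε' ∈ M := by
    have hmem : ε ∈ Q := hεQ ▸ Ideal.mem_span_singleton_self ε
    rw [← hε', hQ, ← Ideal.mem_comap, Ideal.comap_map_of_surjective _ Ideal.Quotient.mk_surjective,
      ← RingHom.ker_eq_comap_bot, Ideal.mk_ker, sup_eq_left.mpr hJM] at hmem
    exact hmem
  refine ⟨1 - ε', fun h1 => hM.ne_top (M.eq_top_iff_one.mpr ?_), fun w hw => ?_⟩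
  · simpa using add_mem h1 hε'M
  · rw [← Ideal.mem_span_singleton, ← hJ, ← Ideal.Quotient.eq_zero_iff_mem]
    have hwQ : Ideal.Quotient.mk J w ∈ Ideal.span {ε} := by
      have h : Ideal.Quotient.mk J w ∈ Q := Ideal.mem_map_of_mem _ hw
      rw [hεQ] at h
      exact h
    obtain ⟨c, hc⟩ := Ideal.mem_span_singleton.mp hwQ
    rw [map_mul, map_sub, map_one, hε', hc]
    linear_combination (-c) * hεi.eq

end FLTA.Smooth
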