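import Fermat.Agent.Smooth.CoverUpSpan
import Fermat.Agent.Smooth.CoverPurity
import Fermat.Agent.Smooth.UpstairsLocal
import Fermat.Agent.Smooth.NormDescent

/-!
# Normality upstairs, and descent to the chart

The reductions of the integral closure of `A` span the integral closure of `k[x̄]` up to powers of
`h̄`; if `h` is invertible on the cover, the norm descent gives normality of the reduced chart.
-/

set_option autoImplicit false

noncomputable section

open Polynomial

namespace FLTA.Smooth

/-- `LocPrincipal` is invariant under ring isomorphism. -/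
theorem LocPrincipal.of_ringEquiv {S T : Type*} [CommRing S] [CommRing T] (h : LocPrincipal S)
    (e : S ≃+* T) : LocPrincipal T := by
  intro M hM
  haveI := hM
  obtain ⟨π, hπM, hπ, u, hu, hdvd⟩ :=
    h (M.comap (e : S →+* T)) (Ideal.comap_isMaximal_of_surjective _ e.surjective)
  refine ⟨e π, hπM, ?_, e u, fun h' => hu h', fun w hw => ?_⟩
  · rw [mem_nonZeroDivisors_iff_right]
    intro y hy
    have : e.symm y * π = 0 := e.injective (by simpa using hy)
    simpa using congrArg e ((mem_nonZeroDivisors_iff_right.mp hπ) _ this)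
  · obtain ⟨a, ha⟩ := hdvd (e.symm w) (by show e (e.symm w) ∈ M; simpa using hw)
    exact ⟨e a, by simpa using congrArg e ha⟩

/-- A localisation of a principal ideal ring is one. -/
theorem isPrincipalIdealRing_of_isLocalization {R S : Type*} [CommRing R] [IsPrincipalIdealRing R]
    [CommRing S] [Algebra R S] (M : Submonoid R) [IsLocalization M S] : IsPrincipalIdealRing S := by
  refine ⟨fun I => ?_⟩
  obtain ⟨a, ha⟩ := IsPrincipalIdealRing.principal (I.comap (algebraMap R S))
  refine ⟨⟨algebraMap R S a, ?_⟩⟩
  rw [← IsLocalization.map_comap M S I, Ideal.under_def, ha]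
  exact (Ideal.map_span _ _).trans (by rw [Set.image_singleton])

variable {ℓ : ℕ} {k A F L K' : Type*} [Field k] [CommRing A] [IsDomain A] [IsIntegrallyClosed A]
  [Field F] [Algebra A F] [IsFractionRing A F] [CharZero F]
  [Field L] [CharZero L] [Algebra F L] [Algebra A L] [IsScalarTower A F L]
  [Field K'] [Algebra k K']
  {π : Zloc ℓ →+* k} {sA : (Zloc ℓ)[X] →+* A} {θ : A} {Q : ((Zloc ℓ)[X])[X]}
  {num den hh : (Zloc ℓ)[X]} {g : A[X]} {x : L} {red : A →+* K'} {t : K'}
  [Fact ℓ.Prime] [CharP k ℓ] [IsAlgClosed k]

namespace CoverSetting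

variable (S : CoverSetting (F := F) π sA θ Q num den hh g x red t)

/-- The span of the reductions upstairs, as a subalgebra. -/
def coverSpan : Subalgebra k (AdjoinRoot (g.map red)) :=
  Algebra.adjoin k (Set.range (coverRed S.root))

theorem mem_coverSpan_iff {z : AdjoinRoot (g.map red)} :
    z ∈ coverSpan S ↔ z ∈ Submodule.span k (Set.range (coverRed S.root)) := by
  rw [← Subalgebra.mem_toSubmodule, coverSpan, Algebra.adjoin_eq_span,
    show Set.range (coverRed S.root) =
      (MonoidHom.mrange (coverRed S.root).toMonoidHom : Set (AdjoinRoot (g.map red))) from rfl,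
    Submonoid.closure_eq]

theorem coverRed_mem_coverSpan (b : integralClosure A L) : coverRed S.root b ∈ coverSpan S :=
  Algebra.subset_adjoin ⟨b, rfl⟩

theorem aeval_root_mem_coverSpan (p : k[X]) :
    aeval (AdjoinRoot.root (g.map red)) p ∈ coverSpan S := by
  induction p using Polynomial.induction_on' with
  | add a b ha hb => rw [map_add]; exact add_mem ha hb
  | monomial i c =>
    rw [aeval_monomial]
    refine mul_mem (Subalgebra.algebraMap_mem _ _) (pow_mem ?_ i)
    rw [← coverRed_coverX S.root]
    exact coverRed_mem_coverSpan S _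

variable (hemb : HasEmbeddings sA x hh
  (Module.finrank (IntermediateField.adjoin ℚ ({x} : Set L)) L))

/-- The data of the special fibre upstairs. -/
theorem exists_upstairs (S : CoverSetting (F := F) π sA θ Q num den hh g x red t)
    (hemb : HasEmbeddings sA x hh
      (Module.finrank (IntermediateField.adjoin ℚ ({x} : Set L)) L)) :
    letI := S.baseToField.toAlgebra
    letI := (fracToRed S).toAlgebra
    ∃ (n : ℕ) (e : Module.Basis (Fin n) (CoverBaseRing ℓ hh)
        (integralClosure (CoverBaseRing ℓ hh) L)),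
      IsUnit (Algebra.discr (CoverBaseRing ℓ hh) e) ∧
      Module.Finite (FractionRing k[X]) (AdjoinRoot (g.map red)) ∧
      Submodule.span (FractionRing k[X]) (Set.range (topRed S)) = ⊤ ∧
      n ≤ Module.finrank (FractionRing k[X]) (AdjoinRoot (g.map red)) := by
  letI := S.baseToField.toAlgebra
  letI := (fracToRed S).toAlgebra
  obtain ⟨q, hq, hqx, hmin⟩ := exists_minimal_equation S
  obtain ⟨n, e, he, hn⟩ := exists_basis S hemb q hmin
  have hspan := span_range_topRed S e
  have hfin : Module.Finite (FractionRing k[X]) (AdjoinRoot (g.map red)) := by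
    classical
    refine ⟨⟨Finset.univ.image fun i => topRed S ⟨(e i : L), (e i).2⟩, ?_⟩⟩
    rw [eq_top_iff, ← hspan, Submodule.span_le]
    rintro _ ⟨b, rfl⟩
    have hb : b = ∑ i, (⟨_, baseToField_mem_topRing S (e.repr ⟨(b : L), b.2⟩ i)⟩ : topRing S) *
        (⟨(e i : L), (e i).2⟩ : topRing S) := by
      apply Subtype.ext
      rw [AddSubmonoidClass.coe_finsetSum]
      have := congrArg Subtype.val (e.sum_repr ⟨(b : L), b.2⟩).symm
      simp only [AddSubmonoidClass.coe_finsetSum, Subalgebra.coe_smul, Algebra.smul_def,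
        RingHom.algebraMap_toAlgebra] at this
      exact this
    rw [hb, map_sum]
    refine Submodule.sum_mem _ fun i _ => ?_
    rw [map_mul, topRed_baseToField]
    show fibreToFrac S _ • topRed S _ ∈ _
    exact Submodule.smul_mem _ _ (Submodule.subset_span (by simp))
  exact ⟨n, e, he, hfin, hspan, le_finrank S hq hqx hn hfin⟩

set_option maxHeartbeats 1000000 in
/-- An element integral over the fibre ring is a reduction, up to a power of `h̄`. -/
theorem exists_pow_mul_mem_of_isIntegral_fibre
    (S : CoverSetting (F := F) π sA θ Q num den hh g x red t)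
    (hemb : HasEmbeddings sA x hh
      (Module.finrank (IntermediateField.adjoin ℚ ({x} : Set L)) L))
    {z : AdjoinRoot (g.map red)}
    (hz : letI := (fibreToRed S).toAlgebra; IsIntegral (FibreRing π hh) z) :
    ∃ i, aeval (AdjoinRoot.root (g.map red)) (hh.map π) ^ i * z ∈ coverSpan S := by
  classical
  letI := S.baseToField.toAlgebra
  letI := (fracToRed S).toAlgebra
  letI : Algebra (FibreRing π hh) (AdjoinRoot (g.map red)) := (fibreToRed S).toAlgebra
  letI : Algebra (FibreRing π hh) (FractionRing k[X]) := (fibreToFrac S).toAlgebra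
  haveI : IsScalarTower k[X] (FibreRing π hh) (FractionRing k[X]) :=
    IsScalarTower.of_algebraMap_eq fun p => (fibreToFrac_algebraMap S p).symm
  haveI : IsScalarTower (FibreRing π hh) (FractionRing k[X]) (AdjoinRoot (g.map red)) :=
    IsScalarTower.of_algebraMap_eq fun _ => rfl
  haveI : IsDomain (FibreRing π hh) :=
    IsLocalization.isDomain_localization (powers_le_nonZeroDivisors S)
  haveI : IsFractionRing (FibreRing π hh) (FractionRing k[X]) :=
    IsFractionRing.isFractionRing_of_isDomain_of_isLocalization (Submonoid.powers (hh.map π)) _ _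
  haveI : IsPrincipalIdealRing (FibreRing π hh) :=
    isPrincipalIdealRing_of_isLocalization (Submonoid.powers (hh.map π))
  obtain ⟨n, e, he, hfin, hspan, hdim⟩ := exists_upstairs S hemb
  haveI := hfin
  let ρ : integralClosure (CoverBaseRing ℓ hh) L →+* AdjoinRoot (g.map red) := topRed S
  have hcomp : ∀ r, ρ (algebraMap (CoverBaseRing ℓ hh) _ r) =
      algebraMap (FibreRing π hh) (AdjoinRoot (g.map red)) (fibreHom S r) :=
    fun r => topRed_baseToField S r (baseToField_mem_topRing S r)
  have hdim' : Fintype.card (Fin n) ≤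
      Module.finrank (FractionRing k[X]) (AdjoinRoot (g.map red)) := by
    rw [Fintype.card_fin]; exact hdim
  have h1 := exists_coeff_of_isIntegral (R := CoverBaseRing ℓ hh)
    (B := ↥(integralClosure (CoverBaseRing ℓ hh) L)) (Rb := FibreRing π hh)
    (κ := FractionRing k[X]) (E := AdjoinRoot (g.map red)) (fibreHom S) ρ hcomp e
  have h2 := h1 hspan hdim' he hz
  clear h1
  obtain ⟨c, hc⟩ := h2
  -- clear the denominators
  have hcl : ∀ y : FibreRing π hh, ∃ i, aeval (AdjoinRoot.root (g.map red)) (hh.map π) ^ i *
      fibreToRed S y ∈ coverSpan S := by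
    intro y
    obtain ⟨i, p, hp⟩ := IsLocalization.Away.surj (hh.map π) y
    refine ⟨i, ?_⟩
    have h2 := congrArg (fibreToRed S) hp
    rw [map_mul, map_pow, fibreToRed_algebraMap, fibreToRed_algebraMap] at h2
    rw [mul_comm, h2]
    exact aeval_root_mem_coverSpan S p
  have hρ : ∀ b, ∃ i, aeval (AdjoinRoot.root (g.map red)) (hh.map π) ^ i * ρ b ∈ coverSpan S := by
    intro b
    obtain ⟨u, i, hu, hm⟩ := map_fibre_isUnit S (denom S b)
    refine ⟨i, ?_⟩
    have h2 := topRedFun_mul S b (denom S b) (numer S b) rfl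
    rw [hm, map_mul, map_pow, aeval_C] at h2
    have h3 : algebraMap k (AdjoinRoot (g.map red)) u⁻¹ * coverRed S.root (numer S b) =
        aeval (AdjoinRoot.root (g.map red)) (hh.map π) ^ i * ρ b := by
      rw [← h2]
      calc _ = (algebraMap k (AdjoinRoot (g.map red)) u⁻¹ *
            algebraMap k (AdjoinRoot (g.map red)) u) *
            (aeval (AdjoinRoot.root (g.map red)) (hh.map π) ^ i * topRedFun S b) := by ring
        _ = _ := by rw [← map_mul, inv_mul_cancel₀ hu, map_one, one_mul]; rfl
    rw [← h3]
    exact mul_mem (Subalgebra.algebraMap_mem _ _) (coverRed_mem_coverSpan S _)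
  choose a ha using fun l => hcl (c l)
  choose b hb using fun l => hρ (e l)
  refine ⟨∑ l, (a l + b l), ?_⟩
  rw [hc, Finset.mul_sum]
  refine Subalgebra.sum_mem _ fun l _ => ?_
  rw [Algebra.smul_def]
  obtain ⟨d, hd⟩ := Nat.exists_eq_add_of_le (Finset.single_le_sum (f := fun l => a l + b l)
    (fun _ _ => Nat.zero_le _) (Finset.mem_univ l))
  rw [hd, pow_add, pow_add]
  have hh' : aeval (AdjoinRoot.root (g.map red)) (hh.map π) ∈ coverSpan S :=
    aeval_root_mem_coverSpan S _
  have : aeval (AdjoinRoot.root (g.map red)) (hh.map π) ^ a l *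
      aeval (AdjoinRoot.root (g.map red)) (hh.map π) ^ b l *
      aeval (AdjoinRoot.root (g.map red)) (hh.map π) ^ d *
      (fibreToRed S (c l) * ρ (e l)) =
    aeval (AdjoinRoot.root (g.map red)) (hh.map π) ^ d *
      ((aeval (AdjoinRoot.root (g.map red)) (hh.map π) ^ a l * fibreToRed S (c l)) *
        (aeval (AdjoinRoot.root (g.map red)) (hh.map π) ^ b l * ρ (e l))) := by ring
  exact this ▸ mul_mem (pow_mem hh' d) (mul_mem (ha l) (hb l))

/-- **Upstairs, any cover**: integral over `k[x̄]` implies a reduction up to a power of `h̄`. -/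
theorem exists_pow_mul_mem_coverSpan (S : CoverSetting (F := F) π sA θ Q num den hh g x red t)
    (hemb : HasEmbeddings sA x hh
      (Module.finrank (IntermediateField.adjoin ℚ ({x} : Set L)) L))
    {z : AdjoinRoot (g.map red)}
    (hz : IsIntegral (Algebra.adjoin k ({AdjoinRoot.root (g.map red)} : Set (AdjoinRoot (g.map red)))) z) :
    ∃ i, aeval (AdjoinRoot.root (g.map red)) (hh.map π) ^ i * z ∈ coverSpan S := by
  refine exists_pow_mul_mem_of_isIntegral_fibre S hemb ?_
  obtain ⟨p, hp, hpz⟩ := hz
  letI : Algebra (FibreRing π hh) (AdjoinRoot (g.map red)) := (fibreToRed S).toAlgebra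
  have hex : ∀ y : Algebra.adjoin k ({AdjoinRoot.root (g.map red)} : Set (AdjoinRoot (g.map red))),
      (y : AdjoinRoot (g.map red)) ∈ (fibreToRed S).range := by
    intro y
    have hy : (y : AdjoinRoot (g.map red)) ∈
        (aeval (R := k) (AdjoinRoot.root (g.map red))).range :=
      (Algebra.adjoin_singleton_eq_range_aeval k (AdjoinRoot.root (g.map red))).le y.2
    obtain ⟨q, hq⟩ := hy
    exact ⟨algebraMap k[X] _ q, (fibreToRed_algebraMap S q).trans hq⟩
  set Kx := Algebra.adjoin k ({AdjoinRoot.root (g.map red)} : Set (AdjoinRoot (g.map red)))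
  have hlifts : p.map (algebraMap Kx (AdjoinRoot (g.map red))) ∈
      Polynomial.lifts (algebraMap (FibreRing π hh) (AdjoinRoot (g.map red))) := by
    rw [Polynomial.lifts_iff_coeff_lifts]
    intro i
    rw [coeff_map]
    exact hex (p.coeff i)
  obtain ⟨q, hqp, -, hqm⟩ := Polynomial.lifts_and_natDegree_eq_and_monic hlifts (hp.map _)
  refine ⟨q, hqm, ?_⟩
  rw [← eval_map, hqp, eval_map]
  exact hpz

end CoverSetting

end FLTA.Smooth
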