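import Fermat.Agent.Smooth.CoverRing
import Mathlib.RingTheory.Localization.Away.Basic
import Mathlib.RingTheory.Localization.Integral

/-!
# Specialisation of the cover ring to the special fibre
-/

set_option autoImplicit false

noncomputable section

open Polynomial

namespace FLTA.Smooth

variable {ℓ : ℕ} {k A F L K' : Type*} [Field k] [CommRing A] [IsDomain A] [IsIntegrallyClosed A]
  [Field F] [Algebra A F] [IsFractionRing A F] [CharZero F]
  [Field L] [Algebra F L] [Algebra A L] [IsScalarTower A F L]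
  [Field K'] [Algebra k K']
  {π : Zloc ℓ →+* k} {sA : (Zloc ℓ)[X] →+* A} {θ : A} {Q : ((Zloc ℓ)[X])[X]}
  {num den hh : (Zloc ℓ)[X]} {g : A[X]} {x : L} {red : A →+* K'} {t : K'}
  [Fact ℓ.Prime] [CharP k ℓ] [IsAlgClosed k]

/-- The base ring of the special fibre of a cover. -/
abbrev FibreRing (π : Zloc ℓ →+* k) (hh : (Zloc ℓ)[X]) : Type _ :=
  Localization.Away (hh.map π)

namespace CoverSetting

variable (S : CoverSetting (F := F) π sA θ Q num den hh g x red t)

include S in
theorem map_fibre_isUnit (y : Purity.fibreSubmonoid (ℓ : Zloc ℓ) hh) :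
    ∃ (u : k) (i : ℕ), u ≠ 0 ∧ (y : (Zloc ℓ)[X]).map π = C u * (hh.map π) ^ i := by
  obtain ⟨c, i, hc, v, hv⟩ := y.2
  refine ⟨π c, i, (hc.map π).ne_zero, ?_⟩
  have h1 : (y : (Zloc ℓ)[X]) = C c * hh ^ i + C (ℓ : Zloc ℓ) * v := by rw [← hv]; ring
  rw [h1, Polynomial.map_add, Polynomial.map_mul, Polynomial.map_mul, map_C, map_C,
    Polynomial.map_pow, map_natCast, CharP.cast_eq_zero, map_zero, zero_mul, add_zero]

include S in
theorem isUnit_fibre (y : Purity.fibreSubmonoid (ℓ : Zloc ℓ) hh) :
    IsUnit (((algebraMap k[X] (FibreRing π hh)).comp (mapRingHom π)) (y : (Zloc ℓ)[X])) := by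
  obtain ⟨u, i, hu, hy⟩ := map_fibre_isUnit S y
  rw [RingHom.comp_apply, coe_mapRingHom, hy, map_mul, map_pow]
  exact ((isUnit_C.mpr hu.isUnit).map _).mul
    ((IsLocalization.Away.algebraMap_isUnit (hh.map π)).pow i)

/-- Reduction of the base ring. -/
def fibreHom : CoverBaseRing ℓ hh →+* FibreRing π hh :=
  IsLocalization.lift (M := Purity.fibreSubmonoid (ℓ : Zloc ℓ) hh) (isUnit_fibre S)

theorem fibreHom_algebraMap (p : (Zloc ℓ)[X]) :
    fibreHom S (algebraMap (Zloc ℓ)[X] (CoverBaseRing ℓ hh) p) =
      algebraMap k[X] (FibreRing π hh) (p.map π) :=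
  IsLocalization.lift_eq _ _

/-- The rational functions in `x̄` acting on the reduced algebra. -/
def fracToRed : FractionRing k[X] →+* AdjoinRoot (g.map red) :=
  IsLocalization.lift (M := nonZeroDivisors k[X])
    (g := (aeval (AdjoinRoot.root (g.map red))).toRingHom)
    fun p => isUnit_aeval_root S (nonZeroDivisors.coe_ne_zero p)

theorem fracToRed_algebraMap (p : k[X]) :
    fracToRed S (algebraMap k[X] (FractionRing k[X]) p) =
      aeval (AdjoinRoot.root (g.map red)) p :=
  IsLocalization.lift_eq _ _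

include S in
theorem powers_le_nonZeroDivisors : Submonoid.powers (hh.map π) ≤ nonZeroDivisors k[X] :=
  powers_le_nonZeroDivisors_of_noZeroDivisors S.hbar

/-- The fibre ring inside the rational functions. -/
def fibreToFrac : FibreRing π hh →+* FractionRing k[X] :=
  IsLocalization.lift (M := Submonoid.powers (hh.map π))
    (g := algebraMap k[X] (FractionRing k[X])) fun p =>
      IsLocalization.map_units (FractionRing k[X])
        (⟨p.1, powers_le_nonZeroDivisors S p.2⟩ : nonZeroDivisors k[X])

theorem fibreToFrac_algebraMap (p : k[X]) :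
    fibreToFrac S (algebraMap k[X] (FibreRing π hh) p) = algebraMap k[X] (FractionRing k[X]) p :=
  IsLocalization.lift_eq _ _

/-- The fibre ring mapped to the reduced algebra. -/
def fibreToRed : FibreRing π hh →+* AdjoinRoot (g.map red) :=
  (fracToRed S).comp (fibreToFrac S)

theorem fibreToRed_algebraMap (p : k[X]) :
    fibreToRed S (algebraMap k[X] (FibreRing π hh) p) = aeval (AdjoinRoot.root (g.map red)) p := by
  rw [fibreToRed, RingHom.comp_apply, fibreToFrac_algebraMap, fracToRed_algebraMap]

include S in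
/-- Clearing denominators of an element integral over the base ring. -/
theorem exists_mul_isIntegral {b : L}
    (hb : letI := S.baseToField.toAlgebra; IsIntegral (CoverBaseRing ℓ hh) b) :
    ∃ m : Purity.fibreSubmonoid (ℓ : Zloc ℓ) hh,
      IsIntegral A (evalX sA x (m : (Zloc ℓ)[X]) * b) := by
  letI := S.baseToField.toAlgebra
  letI : Algebra (Zloc ℓ)[X] L := (evalX sA x).toAlgebra
  haveI : IsScalarTower (Zloc ℓ)[X] (CoverBaseRing ℓ hh) L :=
    IsScalarTower.of_algebraMap_eq fun p => (baseToField_algebraMap S p).symm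
  obtain ⟨m, hm⟩ := hb.exists_multiple_integral_of_isLocalization
    (Purity.fibreSubmonoid (ℓ : Zloc ℓ) hh)
  refine ⟨m, ?_⟩
  have h1 : IsIntegral (integralClosure A L) (evalX sA x (m : (Zloc ℓ)[X]) * b) := by
    have hm' : IsIntegral (Zloc ℓ)[X] (evalX sA x (m : (Zloc ℓ)[X]) * b) := by
      rwa [Submonoid.smul_def, Algebra.smul_def] at hm
    exact hm'.map_of_comp_eq (evalB S) (RingHom.id L)
      (RingHom.ext fun p => coe_evalB S p)
  exact isIntegral_trans (R := A) (A := integralClosure A L) _ h1

end CoverSetting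

end FLTA.Smooth
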