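import Fermat.Agent.Smooth.CoverUpHom

/-!
# The reduction of the integral closure of the cover ring
-/

set_option autoImplicit false

noncomputable section

open Polynomial

namespace FLTA.Smooth

variable {ℓ : ℕ} {k A F L K' : Type*} [Field k] [CommRing A] [IsDomain A] [IsIntegrallyClosed A]
  [Field F] [Algebra A F] [IsFractionRing A F] [CharZero F]
  [Field L] [Algebra F L] [Algebra A L] [IsScalarTower A F L]
  [Field K'] [Algebra k K']
  {π : Zloc ℓ →+* k} {sA : (Zloc ℓ)[X] →+* A} {θ : A} {Q : ((Zloc ℓ)[X])[X]}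
  {num den hh : (Zloc ℓ)[X]} {g : A[X]} {x : L} {red : A →+* K'} {t : K'}
  [Fact ℓ.Prime] [CharP k ℓ] [IsAlgClosed k]

namespace CoverSetting

variable (S : CoverSetting (F := F) π sA θ Q num den hh g x red t)

/-- The integral closure of the cover ring in `L`. -/
abbrev topRing : Subring L :=
  letI := S.baseToField.toAlgebra
  (integralClosure (CoverBaseRing ℓ hh) L).toSubring

theorem mem_topRing_iff {b : L} :
    b ∈ topRing S ↔ (letI := S.baseToField.toAlgebra; IsIntegral (CoverBaseRing ℓ hh) b) :=
  Iff.rfl

/-- A denominator of an element of the top ring. -/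
def denom (b : topRing S) : Purity.fibreSubmonoid (ℓ : Zloc ℓ) hh :=
  Classical.choose (exists_mul_isIntegral S b.2)

/-- The numerator of an element of the top ring. -/
def numer (b : topRing S) : integralClosure A L :=
  ⟨evalX sA x (denom S b : (Zloc ℓ)[X]) * b, Classical.choose_spec (exists_mul_isIntegral S b.2)⟩

/-- The value of the reduction on the top ring. -/
def topRedFun (b : topRing S) : AdjoinRoot (g.map red) :=
  Ring.inverse (aeval (AdjoinRoot.root (g.map red)) ((denom S b : (Zloc ℓ)[X]).map π)) *
    coverRed S.root (numer S b)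

include S in
theorem map_fibre_ne_zero (m : Purity.fibreSubmonoid (ℓ : Zloc ℓ) hh) :
    (m : (Zloc ℓ)[X]).map π ≠ 0 := by
  obtain ⟨u, i, hu, hm⟩ := map_fibre_isUnit S m
  rw [hm]
  exact mul_ne_zero (C_ne_zero.mpr hu) (pow_ne_zero _ S.hbar)

theorem topRedFun_mul (b : topRing S) (m : Purity.fibreSubmonoid (ℓ : Zloc ℓ) hh)
    (z : integralClosure A L) (hz : (z : L) = evalX sA x (m : (Zloc ℓ)[X]) * b) :
    topRedFun S b * aeval (AdjoinRoot.root (g.map red)) ((m : (Zloc ℓ)[X]).map π) =
      coverRed S.root z := by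
  have hu := isUnit_aeval_root S (map_fibre_ne_zero S (denom S b))
  have key : evalB S (denom S b : (Zloc ℓ)[X]) * z = evalB S (m : (Zloc ℓ)[X]) * numer S b := by
    apply Subtype.ext
    rw [Subalgebra.coe_mul, Subalgebra.coe_mul, coe_evalB, coe_evalB, hz]
    show _ = _ * (evalX sA x _ * (b : L))
    ring
  have key' := congrArg (coverRed S.root) key
  rw [map_mul, map_mul, coverRed_evalB, coverRed_evalB] at key'
  rw [topRedFun]
  calc _ = Ring.inverse (aeval (AdjoinRoot.root (g.map red)) ((denom S b : (Zloc ℓ)[X]).map π)) *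
        (aeval (AdjoinRoot.root (g.map red)) ((m : (Zloc ℓ)[X]).map π) *
          coverRed S.root (numer S b)) := by ring
    _ = _ := by rw [← key', ← mul_assoc, Ring.inverse_mul_cancel _ hu, one_mul]

theorem topRedFun_unique (b : topRing S) (m : Purity.fibreSubmonoid (ℓ : Zloc ℓ) hh)
    (z : integralClosure A L) (hz : (z : L) = evalX sA x (m : (Zloc ℓ)[X]) * b)
    (e : AdjoinRoot (g.map red))
    (he : e * aeval (AdjoinRoot.root (g.map red)) ((m : (Zloc ℓ)[X]).map π) = coverRed S.root z) :
    topRedFun S b = e :=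
  (isUnit_aeval_root S (map_fibre_ne_zero S m)).mul_right_cancel
    ((topRedFun_mul S b m z hz).trans he.symm)

theorem coe_numer (b : topRing S) :
    (numer S b : L) = evalX sA x (denom S b : (Zloc ℓ)[X]) * b := rfl

/-- The reduction `B → E` on the top ring. -/
def topRed : topRing S →+* AdjoinRoot (g.map red) where
  toFun := topRedFun S
  map_one' := topRedFun_unique S 1 1 1 (by simp) 1 (by simp)
  map_zero' := topRedFun_unique S 0 1 0 (by simp) 0 (by simp)
  map_mul' a b := topRedFun_unique S (a * b) (denom S a * denom S b) (numer S a * numer S b)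
    (by
      rw [Subalgebra.coe_mul, coe_numer, coe_numer, Submonoid.coe_mul, map_mul, Subring.coe_mul]
      ring) _ (by
      rw [Submonoid.coe_mul, Polynomial.map_mul, map_mul, map_mul,
        ← topRedFun_mul S a _ _ (coe_numer S a), ← topRedFun_mul S b _ _ (coe_numer S b)]
      ring)
  map_add' a b := topRedFun_unique S (a + b) (denom S a * denom S b)
    (evalB S (denom S b : (Zloc ℓ)[X]) * numer S a + evalB S (denom S a : (Zloc ℓ)[X]) * numer S b)
    (by
      rw [Subalgebra.coe_add, Subalgebra.coe_mul, Subalgebra.coe_mul,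
        coe_evalB, coe_evalB, coe_numer, coe_numer, Submonoid.coe_mul, map_mul, Subring.coe_add]
      ring) _ (by
      rw [Submonoid.coe_mul, Polynomial.map_mul, map_mul, map_add, map_mul, map_mul,
        coverRed_evalB, coverRed_evalB, ← topRedFun_mul S a _ _ (coe_numer S a),
        ← topRedFun_mul S b _ _ (coe_numer S b)]
      ring)

theorem topRed_of_coe (b : topRing S) (z : integralClosure A L) (hz : (z : L) = b) :
    topRed S b = coverRed S.root z :=
  topRedFun_unique S b 1 z (by simp [hz]) _ (by simp)

theorem topRed_baseToField (r : CoverBaseRing ℓ hh)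
    (hr : S.baseToField r ∈ topRing S) :
    topRed S ⟨_, hr⟩ = fibreToRed S (fibreHom S r) := by
  obtain ⟨⟨p, m⟩, hpm⟩ := IsLocalization.surj (Purity.fibreSubmonoid (ℓ : Zloc ℓ) hh) r
  refine topRedFun_unique S _ m (evalB S p) ?_ _ ?_
  · rw [coe_evalB, ← baseToField_algebraMap S p, ← hpm, map_mul, baseToField_algebraMap]
    exact mul_comm _ _
  · have h2 := congrArg (fun y => fibreToRed S (fibreHom S y)) hpm
    simp only [map_mul, fibreHom_algebraMap, fibreToRed_algebraMap] at h2
    rw [h2, coverRed_evalB]

end CoverSetting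

end FLTA.Smooth
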