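import Fermat.Agent.Smooth.CoverUpRed
import Mathlib.RingTheory.Localization.Module
import Mathlib.LinearAlgebra.Finsupp.LinearCombination

/-!
# The special fibre upstairs is spanned by reductions, and its dimension
-/

set_option autoImplicit false

noncomputable section

open Polynomial

namespace FLTA.Smooth

variable {ℓ : ℕ} {k A F L K' : Type*} [Field k] [CommRing A] [IsDomain A] [IsIntegrallyClosed A]
  [Field F] [Algebra A F] [IsFractionRing A F] [CharZero F]
  [Field L] [Algebra F L] [Algebra A L] [IsScalarTower A F L]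
  [Field K'] [Algebra k K']
  {π : Zloc ℓ →+* k} {sA : (Zloc ℓ)[X] →+* A} {θ : A} {Q : ((Zloc ℓ)[X])[X]}
  {num den hh : (Zloc ℓ)[X]} {g : A[X]} {x : L} {red : A →+* K'} {t : K'}
  [Fact ℓ.Prime] [CharP k ℓ] [IsAlgClosed k]

/-- If `κ` acts on `E` through fractions from `F₀[x]`, then `F₀`-independent families in `E` have
at most `deg q · [E : κ]` members. -/
theorem card_le_mul_finrank {F₀ κ E ι : Type*} [Field F₀] [Field κ] [CommRing E] [Algebra F₀ E]
    [Algebra κ E] [Module.Finite κ E] [Fintype ι] (x : E) {q : F₀[X]} (hq : q.Monic)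
    (hroot : aeval x q = 0)
    (hκ : ∀ c : κ, ∃ a ∈ Algebra.adjoin F₀ {x}, ∃ b ∈ Algebra.adjoin F₀ {x},
      IsUnit b ∧ algebraMap κ E c * b = a)
    {u : ι → E} (hu : LinearIndependent F₀ u) :
    Fintype.card ι ≤ q.natDegree * Module.finrank κ E := by
  classical
  rcases subsingleton_or_nontrivial E with hE | hE
  · have : IsEmpty ι := ⟨fun i => hu.ne_zero i (Subsingleton.elim _ _)⟩
    simp
  have hq1 : q ≠ 1 := fun h1 => one_ne_zero (α := E) (by simpa [h1] using hroot)
  have hint : IsIntegral F₀ x := ⟨q, hq, hroot⟩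
  set R₀ := Algebra.adjoin F₀ ({x} : Set E)
  haveI : Module.Finite F₀ R₀ := Module.Finite.iff_fg.mpr hint.fg_adjoin_singleton
  have hmem : ∀ c : κ, algebraMap κ E c ∈ R₀ := by
    intro c
    obtain ⟨a, ha, b, hb, hbu, hab⟩ := hκ c
    let φ : R₀ →ₗ[F₀] R₀ := LinearMap.mulLeft F₀ (⟨b, hb⟩ : R₀)
    have hinj : Function.Injective φ := fun y z hyz =>
      Subtype.ext (hbu.mul_left_cancel (congrArg Subtype.val hyz))
    obtain ⟨w, hw⟩ := LinearMap.injective_iff_surjective.mp hinj ⟨a, ha⟩
    have hw' : b * (w : E) = a := congrArg Subtype.val hw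
    rw [hbu.mul_left_cancel (show b * algebraMap κ E c = b * (w : E) by rw [hw', mul_comm]; exact hab)]
    exact w.2
  let bκ := Module.Free.chooseBasis κ E
  let Φ : ((Fin q.natDegree × Module.Free.ChooseBasisIndex κ E) → F₀) →ₗ[F₀] E :=
    Fintype.linearCombination F₀ fun p => x ^ (p.1 : ℕ) * bκ p.2
  have hΦ : Function.Surjective Φ := by
    intro y
    have hex : ∀ j, ∃ p : F₀[X], aeval x p = algebraMap κ E (bκ.repr y j) := fun j => by
      have h := hmem (bκ.repr y j)
      simp only [R₀, Algebra.adjoin_singleton_eq_range_aeval] at h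
      exact h
    choose p hp using hex
    refine ⟨fun i => ((p i.2) %ₘ q).coeff i.1, ?_⟩
    simp only [Φ, Fintype.linearCombination_apply, Fintype.sum_prod_type]
    rw [Finset.sum_comm]
    conv_rhs => rw [← bκ.sum_repr y]
    refine Finset.sum_congr rfl fun j _ => ?_
    rw [Algebra.smul_def (bκ.repr y j)]
    have hp' : algebraMap κ E (bκ.repr y j) = aeval x (p j %ₘ q) := by
      rw [modByMonic_eq_sub_mul_div, map_sub, map_mul, hroot, zero_mul, sub_zero]
      exact (hp j).symm
    rw [hp', aeval_eq_sum_range' (n := q.natDegree), Finset.sum_mul, Finset.sum_range]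
    · simp [smul_mul_assoc]
    · exact natDegree_modByMonic_lt _ hq hq1
  haveI : Module.Finite F₀ E := Module.Finite.of_surjective Φ hΦ
  refine hu.fintype_card_le_finrank.trans ?_
  refine (LinearMap.finrank_le_finrank_of_surjective hΦ).trans ?_
  rw [Module.finrank_fintype_fun_eq_card, Fintype.card_prod, Fintype.card_fin,
    Module.finrank_eq_card_chooseBasisIndex]

/-- The same, with independence and fractions over a subring. -/
theorem card_le_mul_finrank_of_fraction {R₀ F₀ κ E ι : Type*} [CommRing R₀] [Field F₀]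
    [Algebra R₀ F₀] [IsFractionRing R₀ F₀] [Field κ] [CommRing E] [Algebra R₀ E] [Algebra F₀ E]
    [IsScalarTower R₀ F₀ E] [Algebra κ E] [Module.Finite κ E] [Fintype ι] (x : E) {q : R₀[X]}
    (hq : q.Monic) (hroot : aeval x q = 0)
    (hκ : ∀ c : κ, ∃ a ∈ Algebra.adjoin R₀ {x}, ∃ b ∈ Algebra.adjoin R₀ {x},
      IsUnit b ∧ algebraMap κ E c * b = a)
    {u : ι → E} (hu : LinearIndependent R₀ u) :
    Fintype.card ι ≤ q.natDegree * Module.finrank κ E := by
  have hle : ∀ a, a ∈ Algebra.adjoin R₀ ({x} : Set E) → a ∈ Algebra.adjoin F₀ ({x} : Set E) := by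
    intro a ha
    rw [Algebra.adjoin_singleton_eq_range_aeval] at ha
    obtain ⟨p, rfl⟩ := ha
    rw [Algebra.adjoin_singleton_eq_range_aeval]
    exact ⟨p.map (algebraMap R₀ F₀), by simp [aeval_map_algebraMap]⟩
  by_cases hE : Subsingleton E
  · haveI : Nontrivial R₀ := (algebraMap R₀ F₀).domain_nontrivial
    have : IsEmpty ι := ⟨fun i => hu.ne_zero i (Subsingleton.elim _ _)⟩
    simp
  have := card_le_mul_finrank (F₀ := F₀) (κ := κ) x (hq.map (algebraMap R₀ F₀))
    (by rwa [aeval_map_algebraMap])
    (fun c => let ⟨a, ha, b, hb, h1, h2⟩ := hκ c; ⟨a, hle a ha, b, hle b hb, h1, h2⟩)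
    (LinearIndependent.iff_fractionRing (R := R₀) (K := F₀) |>.mp hu)
  rwa [hq.natDegree_map] at this

/-- A ring map out of `k[X]` lands in any subring containing the images of constants and `X`. -/
theorem map_mem_subring {R E : Type*} [CommRing R] [CommRing E] (φ : R[X] →+* E) (B : Subring E)
    (hC : ∀ c, φ (C c) ∈ B) (hX : φ X ∈ B) (p : R[X]) : φ p ∈ B := by
  induction p using Polynomial.induction_on' with
  | add a b ha hb => rw [map_add]; exact B.add_mem ha hb
  | monomial i c =>
    rw [← C_mul_X_pow_eq_monomial, map_mul, map_pow]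
    exact B.mul_mem (hC c) (B.pow_mem hX i)

namespace CoverSetting

variable (S : CoverSetting (F := F) π sA θ Q num den hh g x red t)

/-- `den` as an element of the fibre units. -/
def denUnit : Purity.fibreSubmonoid (ℓ : Zloc ℓ) hh :=
  ⟨den, 1, S.den_pow.choose, isUnit_one, by
    rw [map_one, one_mul, ← S.den_pow.choose_spec, sub_self]; exact dvd_zero _⟩

/-- Substituting `num / den` for the variable. -/
def substHom : (Zloc ℓ)[X] →+* CoverBaseRing ℓ hh :=
  eval₂RingHom ((algebraMap (Zloc ℓ)[X] (CoverBaseRing ℓ hh)).comp C)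
    (IsLocalization.mk' (CoverBaseRing ℓ hh) num (denUnit S))

theorem baseToField_substHom (p : (Zloc ℓ)[X]) :
    S.baseToField (substHom S p) = algebraMap A L (sA p) := by
  have : S.baseToField.comp (substHom S) = (algebraMap A L).comp sA := by
    refine Polynomial.ringHom_ext (fun a => ?_) ?_
    · simp [substHom, baseToField_algebraMap, evalX]
    · simp only [substHom, RingHom.comp_apply, coe_eval₂RingHom, eval₂_X, baseToField]
      rw [IsLocalization.lift_mk'_spec]
      show evalX sA x num = evalX sA x den * _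
      rw [S.rel, mul_comm]
  exact RingHom.congr_fun this p

include S in
theorem algebraMap_mem_topRing (a : A) : algebraMap A L a ∈ topRing S := by
  rw [mem_topRing_iff]
  letI := S.baseToField.toAlgebra
  obtain ⟨P, hP, hPa⟩ := S.finite a
  refine ⟨P.map (substHom S), hP.map _, ?_⟩
  rw [eval₂_map, RingHom.algebraMap_toAlgebra,
    show S.baseToField.comp (substHom S) = (algebraMap A L).comp sA from
      RingHom.ext (baseToField_substHom S), ← hom_eval₂, hPa, map_zero]

include S in
theorem baseToField_mem_topRing (r : CoverBaseRing ℓ hh) : S.baseToField r ∈ topRing S := by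
  rw [mem_topRing_iff]
  letI := S.baseToField.toAlgebra
  exact isIntegral_algebraMap

include S in
theorem x_mem_topRing : x ∈ topRing S := by
  have h := baseToField_mem_topRing S (algebraMap (Zloc ℓ)[X] (CoverBaseRing ℓ hh) X)
  rwa [baseToField_algebraMap, show evalX sA x X = x by simp [evalX]] at h

include S in
theorem topRed_algebraMap (a : A) :
    topRed S ⟨_, algebraMap_mem_topRing S a⟩ =
      algebraMap K' (AdjoinRoot (g.map red)) (red a) := by
  rw [topRed_of_coe S _ (algebraMap A (integralClosure A L) a) rfl, coverRed_algebraMap]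

include S in
theorem topRed_x : topRed S ⟨_, x_mem_topRing S⟩ = AdjoinRoot.root (g.map red) := by
  rw [topRed_of_coe S _ (coverX S.root) rfl, coverRed_coverX]

include S in
/-- The reductions span over `k(x̄)`. -/
theorem span_range_topRed {n : ℕ}
    (e : letI := S.baseToField.toAlgebra
      Module.Basis (Fin n) (CoverBaseRing ℓ hh) (integralClosure (CoverBaseRing ℓ hh) L)) :
    letI := (fracToRed S).toAlgebra
    Submodule.span (FractionRing k[X]) (Set.range (topRed S)) = ⊤ := by
  classical
  letI := S.baseToField.toAlgebra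
  letI := (fracToRed S).toAlgebra
  set κ := FractionRing k[X]
  set E := AdjoinRoot (g.map red)
  set M := Submodule.span κ (Set.range (topRed S)) with hM
  have hmul : ∀ a b : E, a ∈ M → b ∈ M → a * b ∈ M := by
    intro a b ha hb
    have : M * M ≤ M := by
      rw [hM, Submodule.span_mul_span]
      refine Submodule.span_mono ?_
      rintro _ ⟨_, ⟨u, rfl⟩, _, ⟨v, rfl⟩, rfl⟩
      exact ⟨u * v, map_mul _ _ _⟩
    exact this (Submodule.mul_mem_mul ha hb)
  have hone : (1 : E) ∈ M := Submodule.subset_span ⟨1, map_one _⟩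
  have hconst : ∀ c : k, algebraMap k E c ∈ M := by
    intro c
    have : algebraMap k E c = fracToRed S (algebraMap k[X] κ (C c)) • (1 : E) := by
      rw [fracToRed_algebraMap, smul_eq_mul, mul_one, aeval_C]
    rw [this]
    exact Submodule.smul_mem M (algebraMap k[X] κ (C c)) hone
  have hfin : Module.Finite κ M := by
    rw [Module.Finite.iff_fg]
    refine ⟨Finset.univ.image fun i => topRed S (e i), le_antisymm ?_ ?_⟩
    · rw [Submodule.span_le]
      intro y hy
      simp only [Finset.coe_image, Finset.coe_univ, Set.image_univ] at hy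
      obtain ⟨i, rfl⟩ := hy
      exact Submodule.subset_span ⟨_, rfl⟩
    · rw [hM, Submodule.span_le]
      rintro _ ⟨b, rfl⟩
      have hb : (⟨(b : L), b.2⟩ : integralClosure (CoverBaseRing ℓ hh) L) =
          ∑ i, e.repr ⟨(b : L), b.2⟩ i • e i := (e.sum_repr _).symm
      have hb' : b = ∑ i, (⟨_, baseToField_mem_topRing S (e.repr ⟨(b : L), b.2⟩ i)⟩ : topRing S) *
          (⟨(e i : L), (e i).2⟩ : topRing S) := by
        apply Subtype.ext
        rw [AddSubmonoidClass.coe_finsetSum]
        have := congrArg Subtype.val hb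
        simp only [AddSubmonoidClass.coe_finsetSum, Subalgebra.coe_smul, Algebra.smul_def,
          RingHom.algebraMap_toAlgebra] at this
        exact this
      rw [hb', map_sum]
      refine Submodule.sum_mem _ fun i _ => ?_
      rw [map_mul, topRed_baseToField, fibreToRed, RingHom.comp_apply]
      show fibreToFrac S _ • topRed S _ ∈ _
      exact Submodule.smul_mem _ _ (Submodule.subset_span (by simp))
  let P : IntermediateField k K' :=
    { carrier := {z | algebraMap K' E z ∈ M}
      mul_mem' := fun {a b} ha hb => by simp only [Set.mem_setOf_eq, map_mul]; exact hmul _ _ ha hb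
      one_mem' := by simp only [Set.mem_setOf_eq, map_one]; exact hone
      add_mem' := fun {a b} ha hb => by
        simp only [Set.mem_setOf_eq, map_add]; exact M.add_mem ha hb
      zero_mem' := by simp
      algebraMap_mem' := fun c => by
        simp only [Set.mem_setOf_eq, ← IsScalarTower.algebraMap_apply k K' E]; exact hconst c
      inv_mem' := fun z hz => by
        by_cases h0 : z = 0
        · subst h0; simp
        have hz' : algebraMap K' E z ∈ M := hz
        let φ : M →ₗ[κ] M :=
          { toFun := fun w => ⟨algebraMap K' E z * w, hmul _ _ hz' w.2⟩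
            map_add' := fun u v => Subtype.ext (mul_add _ _ _)
            map_smul' := fun c u => Subtype.ext (mul_smul_comm _ _ _) }
        have hinj : Function.Injective φ := fun u v huv => Subtype.ext <|
          ((IsUnit.mk0 z h0).map (algebraMap K' E)).mul_left_cancel (congrArg Subtype.val huv)
        obtain ⟨w, hw⟩ := LinearMap.injective_iff_surjective.mp hinj ⟨1, hone⟩
        have hwv : algebraMap K' E z * (w : E) = 1 := congrArg Subtype.val hw
        show algebraMap K' E z⁻¹ ∈ M
        have : algebraMap K' E z⁻¹ = (w : E) := by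
          calc algebraMap K' E z⁻¹ = algebraMap K' E z⁻¹ * (algebraMap K' E z * w) := by
                rw [hwv, mul_one]
            _ = _ := by rw [← mul_assoc, ← map_mul, inv_mul_cancel₀ h0, map_one, one_mul]
        rw [this]; exact w.2 }
  have hP : P = ⊤ := by
    rw [eq_top_iff, ← S.gen_k, IntermediateField.adjoin_le_iff]
    rintro z (rfl | rfl)
    · show algebraMap K' E z ∈ M
      have : algebraMap K' E z = algebraMap K' E (red (sA X)) := by
        rw [S.red_sA]; simp
      rw [this, ← topRed_algebraMap S]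
      exact Submodule.subset_span ⟨_, rfl⟩
    · show algebraMap K' E (red θ) ∈ M
      rw [← topRed_algebraMap S]
      exact Submodule.subset_span ⟨_, rfl⟩
  have hK' : ∀ z : K', algebraMap K' E z ∈ M := fun z => (hP ▸ IntermediateField.mem_top : z ∈ P)
  rw [eq_top_iff]
  intro y _
  rw [← (redBasis S.root).sum_repr y]
  refine Submodule.sum_mem _ fun i _ => ?_
  rw [Algebra.smul_def, redBasis_apply, modelBasis_apply, map_pow, modelRed_root]
  refine hmul _ _ (hK' _) ?_
  rw [← topRed_x S, ← map_pow]
  exact Submodule.subset_span ⟨_, rfl⟩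

theorem fracToRed_C (c : k) :
    fracToRed S (algebraMap k[X] (FractionRing k[X]) (C c)) =
      algebraMap K' (AdjoinRoot (g.map red)) (aeval t (C c)) := by
  rw [fracToRed_algebraMap, aeval_C, aeval_C]
  exact IsScalarTower.algebraMap_apply k K' (AdjoinRoot (g.map red)) c

theorem fracToRed_X :
    fracToRed S (algebraMap k[X] (FractionRing k[X]) X) = AdjoinRoot.root (g.map red) := by
  rw [fracToRed_algebraMap, aeval_X]

include S in
/-- The dimension over `k(x̄)` is at least the degree upstairs. -/
theorem le_finrank {n : ℕ} {q : ((Zloc ℓ)[X])[X]} (hq : q.Monic)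
    (hqx : q.eval₂ ((algebraMap A L).comp sA) x = 0)
    (hn : n * q.natDegree ≤ g.natDegree * Q.natDegree)
    (hfin : letI := (fracToRed S).toAlgebra
      Module.Finite (FractionRing k[X]) (AdjoinRoot (g.map red))) :
    letI := (fracToRed S).toAlgebra
    n ≤ Module.finrank (FractionRing k[X]) (AdjoinRoot (g.map red)) := by
  classical
  letI := (fracToRed S).toAlgebra
  haveI := hfin
  have haevt : Function.Injective (aeval t : k[X] →ₐ[k] K') :=
    transcendental_iff_injective.mp S.trans
  let tHom : RatFunc k →+* K' :=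
    IsLocalization.lift (M := nonZeroDivisors k[X]) (g := (aeval t).toRingHom) fun p =>
      IsUnit.mk0 _ fun h0 => nonZeroDivisors.coe_ne_zero p (haevt (by simpa using h0))
  have htHom : ∀ p : k[X], tHom (algebraMap k[X] (RatFunc k) p) = aeval t p :=
    fun p => IsLocalization.lift_eq _ _
  letI : Algebra k[X] (AdjoinRoot (g.map red)) :=
    ((algebraMap K' (AdjoinRoot (g.map red))).comp (aeval t).toRingHom).toAlgebra
  have halg : ∀ p : k[X], algebraMap k[X] (AdjoinRoot (g.map red)) p =
      algebraMap K' (AdjoinRoot (g.map red)) (aeval t p) := fun p => rfl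
  set x₁ : AdjoinRoot (g.map red) := AdjoinRoot.root (g.map red) with hx₁
  have hroot : aeval x₁ (q.map (mapRingHom π)) = 0 := by
    rw [aeval_def, eval₂_map]
    have h1 : q.eval₂ ((algebraMap A (integralClosure A L)).comp sA) (coverX S.root) = 0 := by
      apply Subtype.ext
      show (integralClosure A L).val.toRingHom _ = (0 : L)
      rw [hom_eval₂]
      exact hqx
    have h2 := congrArg (coverRed S.root) h1
    rw [hom_eval₂, map_zero, coverRed_coverX] at h2
    refine Eq.trans (congrArg (fun φ => q.eval₂ φ x₁) (RingHom.ext fun p => ?_)) h2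
    simp [coverRed_algebraMap, S.red_sA, halg]
  have hq0 : 0 < q.natDegree := by
    rcases Nat.eq_zero_or_pos q.natDegree with h0 | h0
    · rw [hq.natDegree_eq_zero.mp h0, eval₂_one] at hqx
      exact absurd hqx one_ne_zero
    · exact h0
  have hli : LinearIndependent k[X] fun p : Fin g.natDegree × Fin Q.natDegree =>
      algebraMap K' (AdjoinRoot (g.map red)) (red θ ^ (p.2 : ℕ)) * x₁ ^ (p.1 : ℕ) := by
    rw [Fintype.linearIndependent_iff]
    intro c hc
    have hc' : ∑ i : Fin g.natDegree,
        (∑ l : Fin Q.natDegree, aeval t (c (i, l)) * red θ ^ (l : ℕ)) • redBasis S.root i = 0 := by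
      rw [← hc, Fintype.sum_prod_type]
      refine Finset.sum_congr rfl fun i _ => ?_
      rw [Finset.sum_smul]
      refine Finset.sum_congr rfl fun l _ => ?_
      rw [Algebra.smul_def, Algebra.smul_def, halg, redBasis_apply,
        modelBasis_apply, map_pow, modelRed_root, map_mul, map_pow]
      simp [hx₁, mul_assoc]
    rintro ⟨i, l⟩
    exact congrFun (S.li _ (Fintype.linearIndependent_iff.mp
      (redBasis S.root).linearIndependent _ hc' i)) l
  have hκ : ∀ c : FractionRing k[X], ∃ a ∈ Algebra.adjoin k[X] {x₁},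
      ∃ b ∈ Algebra.adjoin k[X] {x₁}, IsUnit b ∧ fracToRed S c * b = a := by
    intro c
    have hmem : ∀ p : k[X], fracToRed S (algebraMap k[X] (FractionRing k[X]) p) ∈
        (Algebra.adjoin k[X] ({x₁} : Set (AdjoinRoot (g.map red)))).toSubring := fun p =>
      map_mem_subring ((fracToRed S).comp (algebraMap k[X] (FractionRing k[X]))) _
        (fun c => by
          rw [RingHom.comp_apply, fracToRed_C, ← halg]
          exact Subalgebra.algebraMap_mem _ _)
        (by rw [RingHom.comp_apply, fracToRed_X]; exact Algebra.subset_adjoin rfl) p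
    obtain ⟨p, p', hp', rfl⟩ := IsFractionRing.div_surjective (A := k[X]) c
    have hp0 := IsFractionRing.to_map_ne_zero_of_mem_nonZeroDivisors
      (K := FractionRing k[X]) hp'
    refine ⟨_, hmem p, _, hmem p', (IsUnit.mk0 _ hp0).map (fracToRed S), ?_⟩
    rw [← map_mul, div_mul_cancel₀ _ hp0]
  letI : Algebra (RatFunc k) (AdjoinRoot (g.map red)) :=
    ((algebraMap K' (AdjoinRoot (g.map red))).comp tHom).toAlgebra
  haveI : IsScalarTower k[X] (RatFunc k) (AdjoinRoot (g.map red)) :=
    IsScalarTower.of_algebraMap_eq fun p => by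
      rw [halg, ← htHom p]; rfl
  have h1 := card_le_mul_finrank_of_fraction (F₀ := RatFunc k) (κ := FractionRing k[X]) x₁
    (hq.map (mapRingHom π)) hroot hκ hli
  rw [hq.natDegree_map, Fintype.card_prod, Fintype.card_fin, Fintype.card_fin] at h1
  exact Nat.le_of_mul_le_mul_right (le_trans hn (by rwa [mul_comm (Module.finrank _ _)])) hq0

end CoverSetting

end FLTA.Smooth
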