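import Mathlib.RingTheory.DedekindDomain.IntegralClosure
import Mathlib.FieldTheory.IntermediateField.Adjoin.Algebra
import Mathlib.RingTheory.FiniteType
import Mathlib.Algebra.Polynomial.FieldDivision

/-!
# The normalisation of `k[t]` in a finite separable extension of `k(t)`
-/

set_option autoImplicit false

noncomputable section

open IntermediateField
open scoped algebraAdjoinAdjoin

namespace FLTA.Smooth

variable {k F : Type*} [Field k] [Field F] [Algebra k F] (t : F)

/-- `k[t]` is a principal ideal domain. -/
theorem isPrincipalIdealRing_adjoin_singleton :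
    IsPrincipalIdealRing (Algebra.adjoin k ({t} : Set F)) := by
  let f : Polynomial k →ₐ[k] Algebra.adjoin k ({t} : Set F) :=
    Polynomial.aeval ⟨t, Algebra.self_mem_adjoin_singleton k t⟩
  refine IsPrincipalIdealRing.of_surjective f.toRingHom fun x => ?_
  obtain ⟨p, hp⟩ : (x : F) ∈ (Polynomial.aeval (R := k) t).range :=
    Algebra.adjoin_singleton_eq_range_aeval k t ▸ x.2
  refine ⟨p, Subtype.ext ?_⟩
  show ((Algebra.adjoin k ({t} : Set F)).val (f p)) = (x : F)
  rw [← Polynomial.aeval_algHom_apply]
  exact hp

/-- The normalisation of `k[t]` in `F`, as a `k`-subalgebra. -/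
abbrev normalizationIn : Subalgebra k F :=
  (integralClosure (Algebra.adjoin k ({t} : Set F)) F).restrictScalars k

theorem le_normalizationIn_of_isIntegral {S : Set F}
    (h : ∀ x ∈ S, IsIntegral (Algebra.adjoin k ({t} : Set F)) x) :
    Algebra.adjoin k S ≤ normalizationIn (k := k) t :=
  Algebra.adjoin_le h

/-- The image of a ring integral over a polynomial ring lands in the normalisation. -/
theorem isIntegral_of_map {O C : Type*} [CommRing O] [CommRing C] (P : Polynomial O →+* C)
    (hP : P.IsIntegral) (φ : C →+* F) (π : O →+* k)
    (h : ∀ p, φ (P p) = Polynomial.aeval t (p.map π)) (y : C) :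
    IsIntegral (Algebra.adjoin k ({t} : Set F)) (φ y) := by
  obtain ⟨q, hq, hq0⟩ := hP y
  let ψ : Polynomial O →+* Algebra.adjoin k ({t} : Set F) :=
    ((Polynomial.aeval (⟨t, Algebra.self_mem_adjoin_singleton k t⟩ :
      Algebra.adjoin k ({t} : Set F))).toRingHom).comp (Polynomial.mapRingHom π)
  refine ⟨q.map ψ, hq.map _, ?_⟩
  rw [Polynomial.eval₂_map]
  have hψ : (algebraMap (Algebra.adjoin k ({t} : Set F)) F).comp ψ = φ.comp P := by
    refine RingHom.ext fun p => ?_
    show ((Algebra.adjoin k ({t} : Set F)).val (Polynomial.aeval _ (p.map π))) = φ (P p)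
    rw [← Polynomial.aeval_algHom_apply, h]
    rfl
  rw [hψ, ← Polynomial.hom_eval₂, hq0, map_zero]

variable [FiniteDimensional k⟮t⟯ F]

theorem isFractionRing_normalizationIn : IsFractionRing (normalizationIn (k := k) t) F :=
  integralClosure.isFractionRing_of_finite_extension (A := Algebra.adjoin k ({t} : Set F)) k⟮t⟯ F

variable [Algebra.IsSeparable k⟮t⟯ F]

theorem isDedekindDomain_normalizationIn : IsDedekindDomain (normalizationIn (k := k) t) := by
  haveI := isPrincipalIdealRing_adjoin_singleton (k := k) t
  exact integralClosure.isDedekindDomain (Algebra.adjoin k ({t} : Set F)) k⟮t⟯ F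

theorem finite_integralClosure_adjoin :
    Module.Finite (Algebra.adjoin k ({t} : Set F))
      (integralClosure (Algebra.adjoin k ({t} : Set F)) F) := by
  haveI := isPrincipalIdealRing_adjoin_singleton (k := k) t
  exact IsIntegralClosure.finite (Algebra.adjoin k ({t} : Set F)) k⟮t⟯ F _

theorem finiteType_normalizationIn : Algebra.FiniteType k (normalizationIn (k := k) t) := by
  haveI : Algebra.FiniteType k (Algebra.adjoin k ({t} : Set F)) :=
    Algebra.FiniteType.adjoin_of_finite (Set.finite_singleton t)
  haveI := finite_integralClosure_adjoin (k := k) t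
  haveI : Algebra.FiniteType (Algebra.adjoin k ({t} : Set F))
      (integralClosure (Algebra.adjoin k ({t} : Set F)) F) := inferInstance
  show Algebra.FiniteType k (integralClosure (Algebra.adjoin k ({t} : Set F)) F)
  exact Algebra.FiniteType.trans (R := k) (S := Algebra.adjoin k ({t} : Set F)) inferInstance
    inferInstance

/-- The normalisation is module-finite over any subalgebra containing `t`. -/
theorem finite_inclusion_normalizationIn {S : Subalgebra k F} (ht : t ∈ S)
    (hS : S ≤ normalizationIn (k := k) t) : (Subalgebra.inclusion hS).toRingHom.Finite := by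
  have hle : Algebra.adjoin k ({t} : Set F) ≤ S :=
    Algebra.adjoin_le (Set.singleton_subset_iff.mpr ht)
  have hfin : ((Subalgebra.inclusion hS).toRingHom.comp
      (Subalgebra.inclusion hle).toRingHom).Finite := by
    have h := finite_integralClosure_adjoin (k := k) t
    rw [← RingHom.finite_algebraMap] at h
    exact h
  exact RingHom.Finite.of_comp_finite hfin

end FLTA.Smooth
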