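import Fermat.Agent.Smooth.ChartReduction
import Fermat.Agent.Smooth.NormalizationLemmas

/-!
# The charts of `X₀(N)` over `ℤ_(ℓ)` and their reduction, downstairs data

For `s = j` or `s = j⁻¹`: the chart `chartAlg N ℓ {s}` has `q`-expansions in `ℤ_(ℓ)((q))`, is
finite over `ℤ_(ℓ)[s]`, its reduction lands in `modularFunctionFieldFullC k N`, and it contains a
generator whose equation stays irreducible and separable mod `ℓ`.
-/

set_option autoImplicit false

noncomputable section

open ModularCurve ModularCurve.IgusaScheme Polynomial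

namespace FLTA.Smooth

variable {N : ℕ} [NeZero N] {ℓ : ℕ} [Fact ℓ.Prime] {s : ↥(modularFunctionFieldFull N)}
variable {k : Type} [Field k] (π : ↥(GaloisRep.ratLocalizedAt ℓ) →+* k)

theorem evalZ_eq_comp {E : Type*} [CommRing E] [Algebra k E] (u : E) :
    (((Polynomial.aeval u).toRingHom).comp (Polynomial.mapRingHom π)).comp
      (Polynomial.mapRingHom (Int.castRingHom ↥(GaloisRep.ratLocalizedAt ℓ))) = evalZ u :=
  Polynomial.ringHom_ext' (Subsingleton.elim _ _) (by simp)

variable [CharP k ℓ]

/-- A generator of the chart's field whose equation stays irreducible and separable mod `ℓ`. -/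
theorem exists_chartGenerator [PerfectField k] (hN : ¬ ℓ ∣ N) (hs : IsChartParam N s) :
    ∃ (θ : ↥(chartAlg N ℓ {s}))
      (Q : Polynomial (Polynomial ↥(GaloisRep.ratLocalizedAt ℓ))),
      Q.Monic ∧ Q.natDegree = dedekindPsi N ∧
      Q.eval₂ (polyHom N ℓ s).toRingHom θ = 0 ∧
      IntermediateField.adjoin ℚ {s, (θ : ↥(modularFunctionFieldFull N))} = ⊤ ∧
      Module.finrank (IntermediateField.adjoin ℚ {s}) ↥(modularFunctionFieldFull N) =
        dedekindPsi N ∧
      IntermediateField.adjoin k {redParam π hN hs, redHom π hN hs θ} = ⊤ ∧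
      (Q.map (redPolyHom π hN hs)).Separable ∧
      minpoly (IntermediateField.adjoin k {redParam π hN hs}) (redHom π hN hs θ) =
        Q.map (redPolyHom π hN hs) := by
  obtain ⟨e⟩ := nonempty_chartEquation hs
  have hNk : (N : k) ≠ 0 := natCast_ne_zero_of_not_dvd hN
  have hθ : redHom π hN hs (thetaElem e) = e.θElem k hNk :=
    Subtype.ext (redSeries_thetaElem π hs e)
  have ht := redParam_eq_tElem π hN hs e
  refine ⟨thetaElem e,
    e.Q.map (Polynomial.mapRingHom (Int.castRingHom ↥(GaloisRep.ratLocalizedAt ℓ))),
    e.monic.map _, (e.monic.natDegree_map _).trans e.natDegree_eq, ?_, adjoin_param_θ e,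
    finrank_adjoin_param hs, ?_, ?_, ?_⟩
  · apply Subtype.val_injective
    exact (Polynomial.hom_eval₂ _ _ (algebraMap ↥(chartAlg N ℓ {s})
      ↥(modularFunctionFieldFull N)) _).trans (eval₂_polyHom_θ e)
  · rw [ht, hθ]; exact e.adjoin_tElem_θElem k hNk
  all_goals rw [Polynomial.map_map]
  · have key : ∀ (u : ↥(modularFunctionFieldFullC k N)), u = e.tElem k →
        (e.Q.map ((((Polynomial.aeval (IntermediateField.AdjoinSimple.gen k u)).toRingHom).comp
          (Polynomial.mapRingHom π)).comp
          (Polynomial.mapRingHom (Int.castRingHom ↥(GaloisRep.ratLocalizedAt ℓ))))).Separable := by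
      rintro u rfl
      rw [evalZ_eq_comp]
      exact e.separable_eqOver k hNk ℓ
    exact key _ ht
  · have key : ∀ (u : ↥(modularFunctionFieldFullC k N)), u = e.tElem k →
        minpoly (IntermediateField.adjoin k {u}) (e.θElem k hNk) =
        e.Q.map ((((Polynomial.aeval (IntermediateField.AdjoinSimple.gen k u)).toRingHom).comp
          (Polynomial.mapRingHom π)).comp
          (Polynomial.mapRingHom (Int.castRingHom ↥(GaloisRep.ratLocalizedAt ℓ)))) := by
      rintro u rfl
      rw [evalZ_eq_comp]
      exact e.minpoly_θElem k hNk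
    rw [hθ]
    exact key _ ht

theorem finiteDimensional_redParam (hN : ¬ ℓ ∣ N) (hs : IsChartParam N s) :
    FiniteDimensional (IntermediateField.adjoin k {redParam π hN hs})
      ↥(modularFunctionFieldFullC k N) := by
  obtain ⟨e⟩ := nonempty_chartEquation hs
  rw [redParam_eq_tElem π hN hs e]
  exact e.finiteDimensional_tField k (natCast_ne_zero_of_not_dvd hN)

theorem isSeparable_redParam [PerfectField k] (hN : ¬ ℓ ∣ N) (hs : IsChartParam N s) :
    Algebra.IsSeparable (IntermediateField.adjoin k {redParam π hN hs})
      ↥(modularFunctionFieldFullC k N) := by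
  obtain ⟨e⟩ := nonempty_chartEquation hs
  rw [redParam_eq_tElem π hN hs e]
  exact e.isSeparable_tField k (natCast_ne_zero_of_not_dvd hN) ℓ

/-- The normalisation of `k[t]` in the function field mod `ℓ`. -/
def normalization (hN : ¬ ℓ ∣ N) (hs : IsChartParam N s) :
    Subalgebra k ↥(modularFunctionFieldFullC k N) :=
  (integralClosure (Algebra.adjoin k {redParam π hN hs})
    ↥(modularFunctionFieldFullC k N)).restrictScalars k

theorem mem_normalization_iff (hN : ¬ ℓ ∣ N) (hs : IsChartParam N s)
    {x : ↥(modularFunctionFieldFullC k N)} :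
    x ∈ normalization π hN hs ↔ IsIntegral (Algebra.adjoin k {redParam π hN hs}) x :=
  Iff.rfl

theorem redAlg_le_normalization (hN : ¬ ℓ ∣ N) (hs : IsChartParam N s) :
    redAlg π hN hs ≤ normalization π hN hs := by
  refine le_normalizationIn_of_isIntegral (redParam π hN hs) ?_
  rintro _ ⟨y, rfl⟩
  exact isIntegral_of_map _ (polyHom N ℓ s).toRingHom (polyHom_finite hs).to_isIntegral
    (redHom π hN hs) π (redHom_polyHom π hN hs) y

theorem isDedekindDomain_normalization [PerfectField k] (hN : ¬ ℓ ∣ N) (hs : IsChartParam N s) :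
    IsDedekindDomain ↥(normalization π hN hs) := by
  have := finiteDimensional_redParam π hN hs
  have := isSeparable_redParam π hN hs
  exact isDedekindDomain_normalizationIn (redParam π hN hs)

theorem isFractionRing_normalization (hN : ¬ ℓ ∣ N) (hs : IsChartParam N s) :
    IsFractionRing ↥(normalization π hN hs) ↥(modularFunctionFieldFullC k N) := by
  have := finiteDimensional_redParam π hN hs
  exact isFractionRing_normalizationIn (redParam π hN hs)

theorem finite_normalization [PerfectField k] (hN : ¬ ℓ ∣ N) (hs : IsChartParam N s) :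
    (Subalgebra.inclusion (redAlg_le_normalization π hN hs)).toRingHom.Finite := by
  have := finiteDimensional_redParam π hN hs
  have := isSeparable_redParam π hN hs
  exact finite_inclusion_normalizationIn (redParam π hN hs)
    (Algebra.subset_adjoin (Set.mem_range_self (paramElem N ℓ s))) (redAlg_le_normalization π hN hs)

theorem finiteType_normalization [PerfectField k] (hN : ¬ ℓ ∣ N) (hs : IsChartParam N s) :
    Algebra.FiniteType k ↥(normalization π hN hs) := by
  have := finiteDimensional_redParam π hN hs
  have := isSeparable_redParam π hN hs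
  exact finiteType_normalizationIn (redParam π hN hs)

end FLTA.Smooth
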