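import Fermat.Agent.Smooth.CoverDescent
import Fermat.Agent.Smooth.CoverInstances
import Fermat.Agent.Smooth.Downstairs

/-!
# Normality of the finite chart mod `ℓ`
-/

set_option autoImplicit false

noncomputable section

open Polynomial ModularCurve ModularCurve.IgusaScheme

namespace FLTA.Smooth

variable (N : ℕ) [NeZero N] (ℓ : ℕ) [Fact ℓ.Prime]
variable {k : Type} [Field k] (π : ↥(GaloisRep.ratLocalizedAt ℓ) →+* k) [CharP k ℓ]

/-- Integrality over `k[t]` can be tested in Laurent series. -/
theorem isIntegral_redParam_iff (hN : ¬ ℓ ∣ N) {s : ↥(modularFunctionFieldFull N)}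
    (hs : IsChartParam N s) (y : ↥(modularFunctionFieldFullC k N))
    (hint : IsIntegral (Algebra.adjoin k ({(redParam π hN hs : LaurentSeries k)} : Set _))
      (y : LaurentSeries k)) :
    IsIntegral (Algebra.adjoin k {redParam π hN hs}) y := by
  let K' := modularFunctionFieldFullC k N
  let t := redParam π hN hs
  let R := Algebra.adjoin k ({t} : Set K')
  have hmap : R.map K'.val = Algebra.adjoin k ({(t : LaurentSeries k)} : Set _) := by
    rw [AlgHom.map_adjoin]; simp
  let e := (R.equivMapOfInjective K'.val Subtype.val_injective).trans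
    (Subalgebra.equivOfEq _ _ hmap)
  let φ : ↥(Algebra.adjoin k ({(t : LaurentSeries k)} : Set _)) →+* ↥R :=
    e.symm.toAlgHom.toRingHom
  have hφ : ∀ c, ((φ c : K') : LaurentSeries k) = c := fun c =>
    congrArg Subtype.val (e.apply_symm_apply c)
  have h1 : IsIntegral R (y : LaurentSeries k) :=
    hint.map_of_comp_eq φ (RingHom.id _) (RingHom.ext fun c => hφ c)
  exact (isIntegral_algebraMap_iff (R := R) (A := K') (B := LaurentSeries k)
    Subtype.val_injective).mp h1

variable [IsAlgClosed k]

/-- Normality of the finite chart mod `ℓ`. -/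
theorem mem_span_reductions_fin_main (hN : ¬ ℓ ∣ N) {x : LaurentSeries k}
    (hx : x ∈ modularFunctionFieldFullC k N)
    (hint : IsIntegral (Algebra.adjoin k {jqModC k}) x) :
    x ∈ Submodule.span k (reductions N ℓ π {jFull N}) := by
  have hs := isChartParam_jFull N
  have hint' : IsIntegral (Algebra.adjoin k {redParam π hN hs})
      (⟨x, hx⟩ : ↥(modularFunctionFieldFullC k N)) := by
    refine isIntegral_redParam_iff N ℓ π hN hs _ ?_
    rwa [coe_redParam_fin π hN]
  refine (coe_mem_span_reductions_iff π hN hs ⟨x, hx⟩).mpr ?_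
  haveI := isIntegrallyClosed_chart (ℓ := ℓ) hs
  haveI := isFractionRing_chartAlg (ℓ := ℓ) hs
  haveI := isNoetherianRing_chartAlg (ℓ := ℓ) hs
  haveI := isDedekindDomain_normalization π hN hs
  haveI := isFractionRing_normalization π hN hs
  haveI := finiteType_normalization π hN hs
  obtain ⟨L, _, _, iF, θ, Q, num, den, hh, g, x', S, hemb, hw⟩ :=
    hasCover_fin (k := k) π hN
  exact CoverSetting.le_adjoin_range_red S hemb hw (normalization π hN hs)
    (redAlg_le_normalization π hN hs) (finite_normalization π hN hs)
    (fun c hc => (mem_normalization_iff π hN hs).mp hc)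
    ((mem_normalization_iff π hN hs).mpr hint')

end FLTA.Smooth
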