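import Fermat.Agent.Smooth.ModularEquation
import Fermat.Agent.Smooth.SeparableCriterion
import Mathlib.FieldTheory.Minpoly.IsConjRoot
import Mathlib.FieldTheory.IntermediateField.Adjoin.Algebra

/-!
# The chart equation over a field: irreducibility and separability
-/

set_option autoImplicit false

noncomputable section

open ModularCurve ModularCurve.IgusaScheme Polynomial IntermediateField

namespace FLTA.Smooth

theorem transcendental_jqModC_self (K : Type*) [Field K] : Transcendental K (jqModC K) := by
  rw [transcendental_iff]
  intro p hp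
  by_contra hne
  have h := congrArg (fun s : LaurentSeries K => s.coeff (-(p.natDegree : ℤ))) hp
  simp only [aeval_eq_sum_range, HahnSeries.coeff_sum, HahnSeries.coeff_zero] at h
  rw [Finset.sum_eq_single p.natDegree] at h
  · rw [Algebra.smul_def, algebraMap_laurentSeries_eq_single, HahnSeries.coeff_single_mul,
      sub_zero, coeff_jqModC_pow_self, mul_one] at h
    exact hne (leadingCoeff_eq_zero.mp h)
  · intro i hi hne'
    rw [Algebra.smul_def, algebraMap_laurentSeries_eq_single, HahnSeries.coeff_single_mul,
      sub_zero, coeff_jqModC_pow_of_lt, mul_zero]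
    have := Finset.mem_range.mp hi
    omega
  · intro h'
    exact absurd (Finset.mem_range.mpr (Nat.lt_succ_self _)) h'

namespace ChartEquation

variable {N : ℕ} [NeZero N] {s : ↥(modularFunctionFieldFull N)} (e : ChartEquation N s)
variable (K : Type) [Field K]

theorem transcendental_σ : Transcendental K (seriesTo K e.σ) := by
  intro halg
  have h : IsAlgebraic K (jqModC K) := by
    have hm : jqModC K ∈ IntermediateField.adjoin K {seriesTo K e.σ} := by
      rw [← e.jField_eq K]
      exact IntermediateField.mem_adjoin_simple_self K (jqModC K)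
    have := IntermediateField.adjoin.finiteDimensional halg.isIntegral
    exact isAlgebraic_iff.mp (IsAlgebraic.of_finite K
      (⟨jqModC K, hm⟩ : IntermediateField.adjoin K {seriesTo K e.σ}))
  exact transcendental_jqModC_self K h

theorem σ_mem : seriesTo K e.σ ∈ modularFunctionFieldFullC K N := by
  have h : Igusa.jField K ≤ modularFunctionFieldFullC K N :=
    IntermediateField.adjoin_simple_le_iff.mpr (jqModC_mem_full K N)
  exact h (e.jField_eq K ▸ IntermediateField.mem_adjoin_simple_self K _)

set_option maxHeartbeats 1000000

variable (hN : (N : K) ≠ 0)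

include hN in
theorem τ_mem : seriesTo K e.τ ∈ modularFunctionFieldFullC K N := by
  rw [← e.adjoin_eq K hN]
  exact IntermediateField.subset_adjoin K _ (Set.mem_insert_of_mem _ rfl)

/-- The parameter in the level-`N` field over `K`. -/
def tElem : ↥(modularFunctionFieldFullC K N) := ⟨seriesTo K e.σ, e.σ_mem K⟩

/-- The generator in the level-`N` field over `K`. -/
def θElem : ↥(modularFunctionFieldFullC K N) := ⟨seriesTo K e.τ, e.τ_mem K hN⟩

/-- `K(t)` inside the level-`N` field. -/
abbrev tField : IntermediateField K ↥(modularFunctionFieldFullC K N) :=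
  IntermediateField.adjoin K {e.tElem K}

/-- The equation with coefficients in `K(t)`. -/
def eqOver : Polynomial (e.tField K) :=
  e.Q.map (evalZ (AdjoinSimple.gen K (e.tElem K)))

theorem eqOver_monic : (e.eqOver K).Monic := e.monic.map _

theorem eqOver_natDegree : (e.eqOver K).natDegree = dedekindPsi N := by
  rw [eqOver, e.monic.natDegree_map, e.natDegree_eq]

theorem transcendental_tElem : Transcendental K (e.tElem K) := fun h =>
  e.transcendental_σ K (h.algHom (modularFunctionFieldFullC K N).val)

theorem evalZ_map {R S : Type*} [CommRing R] [CommRing S] (f : R →+* S) (x : R) :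
    f.comp (evalZ x) = evalZ (f x) :=
  Polynomial.ringHom_ext' (Subsingleton.elim _ _) (by simp)

theorem aeval_eqOver : aeval (e.θElem K hN) (e.eqOver K) = 0 := by
  apply Subtype.val_injective
  rw [eqOver, Polynomial.aeval_def, Polynomial.eval₂_map]
  have h := congrArg (seriesTo K) e.eval_eq_zero
  rw [Polynomial.hom_eval₂, map_zero] at h
  refine Eq.trans ?_ h
  refine (Polynomial.hom_eval₂ e.Q _ (algebraMap _ (LaurentSeries K)) (e.θElem K hN)).trans ?_
  exact congrArg (fun f => Polynomial.eval₂ f (seriesTo K e.τ) e.Q) (Polynomial.ringHom_ext' (Subsingleton.elim _ _) (by simp [tElem]))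

theorem tField_le_jField (x : e.tField K) :
    ((x : ↥(modularFunctionFieldFullC K N)) : LaurentSeries K) ∈ Igusa.jField K := by
  rw [e.jField_eq K]
  have h := (IntermediateField.adjoin_map K {e.tElem K} (modularFunctionFieldFullC K N).val).le
    ⟨x, x.2, rfl⟩
  rwa [Set.image_singleton] at h

/-- `K(t) → K(j)`. -/
def toJField : e.tField K →+* Igusa.jField K where
  toFun x := ⟨_, e.tField_le_jField K x⟩
  map_one' := rfl
  map_mul' _ _ := rfl
  map_zero' := rfl
  map_add' _ _ := rfl

theorem aeval_map_toJField (g : Polynomial (e.tField K)) :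
    aeval (seriesTo K e.τ) (g.map (e.toJField K)) =
      ((aeval (e.θElem K hN) g : ↥(modularFunctionFieldFullC K N)) : LaurentSeries K) := by
  rw [aeval_def, eval₂_map, aeval_def]
  exact (Polynomial.hom_eval₂ g (algebraMap _ ↥(modularFunctionFieldFullC K N))
    (algebraMap ↥(modularFunctionFieldFullC K N) (LaurentSeries K)) (e.θElem K hN)).symm

include hN in
theorem isIntegral_τ : IsIntegral (Igusa.jField K) (seriesTo K e.τ) :=
  ⟨(e.eqOver K).map (e.toJField K), (e.eqOver_monic K).map _, by
    rw [← aeval_def, e.aeval_map_toJField K hN, e.aeval_eqOver K hN]; rfl⟩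

include hN in
theorem natDegree_minpoly_τ :
    (minpoly (Igusa.jField K) (seriesTo K e.τ)).natDegree = dedekindPsi N := by
  rw [← IntermediateField.adjoin.finrank (e.isIntegral_τ K hN),
    ← Igusa.finrank_fullOver K N hN]
  have h : IntermediateField.adjoin (Igusa.jField K) {seriesTo K e.τ} = Igusa.fullOver K N := by
    apply IntermediateField.restrictScalars_injective K
    have h2 : (Igusa.fullOver K N).restrictScalars K = modularFunctionFieldFullC K N := by
      ext x
      exact Igusa.mem_fullOver_iff K N
    rw [IntermediateField.restrictScalars_adjoin_eq_sup, h2, e.jField_eq K,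
      ← IntermediateField.adjoin_union, ← Set.insert_eq, e.adjoin_eq K hN]
  rw [h]

include hN in
/-- Every monic relation of the generator over `K(t)` has degree at least `ψ(N)`. -/
theorem psi_le_natDegree {g : Polynomial (e.tField K)} (hg : g.Monic)
    (h0 : aeval (e.θElem K hN) g = 0) : dedekindPsi N ≤ g.natDegree := by
  rw [← e.natDegree_minpoly_τ K hN, ← hg.natDegree_map (e.toJField K)]
  exact Polynomial.natDegree_le_natDegree (minpoly.min _ _ (hg.map _)
    (by rw [e.aeval_map_toJField K hN, h0]; rfl))

theorem isIntegral_θElem : IsIntegral (e.tField K) (e.θElem K hN) :=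
  ⟨e.eqOver K, e.eqOver_monic K, e.aeval_eqOver K hN⟩

theorem minpoly_θElem : minpoly (e.tField K) (e.θElem K hN) = e.eqOver K := by
  have hm : (minpoly (e.tField K) (e.θElem K hN)).Monic :=
    minpoly.monic (e.isIntegral_θElem K hN)
  have hd : minpoly (e.tField K) (e.θElem K hN) ∣ e.eqOver K :=
    minpoly.dvd _ _ (e.aeval_eqOver K hN)
  have hle : (e.eqOver K).natDegree ≤ (minpoly (e.tField K) (e.θElem K hN)).natDegree :=
    le_of_eq_of_le (e.eqOver_natDegree K) (e.psi_le_natDegree K hN hm (minpoly.aeval _ _))
  exact (Polynomial.eq_of_monic_of_dvd_of_natDegree_le hm (e.eqOver_monic K) hd hle).symm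

theorem adjoin_tElem_θElem :
    IntermediateField.adjoin K {e.tElem K, e.θElem K hN} = ⊤ := by
  apply IntermediateField.map_injective (modularFunctionFieldFullC K N).val
  rw [IntermediateField.adjoin_map, Set.image_pair, ← IntermediateField.adjoin_univ,
    IntermediateField.adjoin_map, Set.image_univ]
  refine (e.adjoin_eq K hN).trans ?_
  refine le_antisymm ?_ ?_
  · exact fun x hx => IntermediateField.subset_adjoin K _ ⟨⟨x, hx⟩, rfl⟩
  · exact IntermediateField.adjoin_le_iff.mpr (by rintro _ ⟨y, rfl⟩; exact y.2)

theorem adjoin_θElem : IntermediateField.adjoin (e.tField K) {e.θElem K hN} = ⊤ := by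
  apply IntermediateField.restrictScalars_injective K
  rw [IntermediateField.restrictScalars_adjoin_eq_sup, ← IntermediateField.adjoin_union,
    ← Set.insert_eq, e.adjoin_tElem_θElem K hN, IntermediateField.restrictScalars_top]

include hN in
theorem finiteDimensional_tField :
    FiniteDimensional (e.tField K) ↥(modularFunctionFieldFullC K N) := by
  have h := IntermediateField.adjoin.finiteDimensional (e.isIntegral_θElem K hN)
  rw [e.adjoin_θElem K hN] at h
  exact (IntermediateField.topEquiv (F := e.tField K)
    (E := ↥(modularFunctionFieldFullC K N))).toLinearEquiv.finiteDimensional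

include hN in
theorem finrank_tField :
    Module.finrank (e.tField K) ↥(modularFunctionFieldFullC K N) = dedekindPsi N := by
  rw [← IntermediateField.finrank_top' (F := e.tField K), ← e.adjoin_θElem K hN,
    IntermediateField.adjoin.finrank (e.isIntegral_θElem K hN), e.minpoly_θElem K hN,
    e.eqOver_natDegree K]

include hN in
theorem isSeparable_tField (p : ℕ) [Fact p.Prime] [CharP K p] [PerfectField K] :
    Algebra.IsSeparable (e.tField K) ↥(modularFunctionFieldFullC K N) := by
  have := e.finiteDimensional_tField K hN
  have : CharP ↥(modularFunctionFieldFullC K N) p :=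
    charP_of_injective_algebraMap (algebraMap K _).injective p
  refine ⟨fun y => isSeparable_of_forall_pow_ne p (fun z hz => ?_) (IsIntegral.of_finite _ y)⟩
  exact e.pow_ne K p Fact.out z (congrArg Subtype.val hz)

include hN in
theorem separable_eqOver (p : ℕ) [Fact p.Prime] [CharP K p] [PerfectField K] :
    (e.eqOver K).Separable := by
  have := e.isSeparable_tField K hN p
  rw [← e.minpoly_θElem K hN]
  exact Algebra.IsSeparable.isSeparable _ _

end ChartEquation

end FLTA.Smooth
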