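import Mathlib.RingTheory.Trace.Basic
import Mathlib.RingTheory.Discriminant
import Mathlib.RingTheory.IntegralClosure.IntegrallyClosed
import Mathlib.LinearAlgebra.Matrix.Charpoly.Eigs
import Mathlib.FieldTheory.IsAlgClosed.AlgebraicClosure
import Mathlib.LinearAlgebra.Matrix.Nondegenerate
import Mathlib.FieldTheory.IsAlgClosed.Spectrum
import Mathlib.LinearAlgebra.Dimension.Constructions
import Mathlib.LinearAlgebra.FiniteDimensional.Lemmas
import Mathlib.LinearAlgebra.Dimension.OrzechProperty

/-!
# Specialisation of a finite free algebra with unit discriminant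

If `B` is free over `R` with unit discriminant and `ρ : B → E` lies over `R → R'` into a finite
algebra `E` over `κ = Frac R'` which it spans, then the images of the basis form a basis of the
integral closure of `R'` in `E`, and this closure is unramified over `R'`.
-/

set_option autoImplicit false

noncomputable section

namespace FLTA.Smooth

open Matrix

/-- The trace of an integral element of a finite algebra over a field is integral. -/
theorem isIntegral_trace_of_finite {R κ E : Type*} [CommRing R] [Field κ] [Algebra R κ]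
    [CommRing E] [Algebra κ E] [Module.Finite κ E] [Algebra R E] [IsScalarTower R κ E]
    {z : E} (hz : IsIntegral R z) : IsIntegral R (Algebra.trace κ E z) := by
  classical
  obtain ⟨p, hp, hpz⟩ := hz
  rw [← isIntegral_algebraMap_iff (algebraMap κ (AlgebraicClosure κ)).injective]
  set b := Module.Free.chooseBasis κ E
  set M := (Algebra.leftMulMatrix b z).map (algebraMap κ (AlgebraicClosure κ)) with hM
  have htr : algebraMap κ (AlgebraicClosure κ) (Algebra.trace κ E z) = M.trace := by
    rw [Algebra.trace_eq_matrix_trace b, hM, AddMonoidHom.map_trace]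
  rw [htr, Matrix.trace_eq_sum_roots_charpoly]
  refine IsIntegral.multiset_sum fun μ hμ => ⟨p, hp, ?_⟩
  rw [Polynomial.mem_roots (Matrix.charpoly_monic M).ne_zero] at hμ
  have hspec : μ ∈ spectrum (AlgebraicClosure κ) M := Matrix.mem_spectrum_iff_isRoot_charpoly.mpr hμ
  have haev : Polynomial.aeval M (p.map (algebraMap R (AlgebraicClosure κ))) = 0 := by
    rw [Polynomial.aeval_map_algebraMap]
    let φ : E →+* Matrix _ _ (AlgebraicClosure κ) :=
      ((algebraMap κ (AlgebraicClosure κ)).mapMatrix).comp (Algebra.leftMulMatrix b).toRingHom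
    have hφ : φ z = M := rfl
    rw [← hφ, Polynomial.aeval_def]
    have hcomp : φ.comp (algebraMap R E) = algebraMap R (Matrix _ _ (AlgebraicClosure κ)) := by
      ext1 r
      simp only [φ, RingHom.comp_apply, AlgHom.toRingHom_eq_coe, RingHom.coe_coe,
        IsScalarTower.algebraMap_apply R κ E, AlgHom.commutes, RingHom.mapMatrix_apply]
      rw [Matrix.algebraMap_eq_diagonal, Matrix.algebraMap_eq_diagonal,
        Matrix.diagonal_map (map_zero _)]
      rfl
    rw [← hcomp, ← Polynomial.hom_eval₂, hpz, map_zero]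
  have h0 := spectrum.subset_polynomial_aeval M (p.map (algebraMap R (AlgebraicClosure κ)))
    ⟨μ, hspec, rfl⟩
  haveI : Nonempty (Module.Free.ChooseBasisIndex κ E) := by
    by_contra hne
    rw [not_nonempty_iff] at hne
    simp [Matrix.charpoly, Matrix.det_isEmpty] at hμ
  rw [haev, spectrum.zero_eq, Set.mem_singleton_iff] at h0
  simpa [Polynomial.eval_map] using h0

variable {R B Rb κ E ι : Type*} [CommRing R] [CommRing B] [Algebra R B]
  [CommRing Rb] [IsDomain Rb] [Field κ] [Algebra Rb κ]
  [IsFractionRing Rb κ] [IsIntegrallyClosed Rb]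
  [CommRing E] [Algebra κ E] [Module.Finite κ E] [Algebra Rb E] [IsScalarTower Rb κ E]
  [Fintype ι] [DecidableEq ι]

variable (ρR : R →+* Rb) (ρ : B →+* E)
  (hcomp : ∀ r, ρ (algebraMap R B r) = algebraMap Rb E (ρR r))
  (e : Module.Basis ι R B)
  (hspan : Submodule.span κ (Set.range ρ) = ⊤) (hdim : Fintype.card ι ≤ Module.finrank κ E)

include hcomp in
omit [IsIntegrallyClosed Rb] [Module.Finite κ E] [DecidableEq ι] in
theorem map_eq_sum (b : B) :
    ρ b = ∑ i, algebraMap Rb κ (ρR (e.repr b i)) • ρ (e i) := by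
  conv_lhs => rw [← e.sum_repr b]
  simp only [map_sum, Algebra.smul_def, map_mul, hcomp,
    IsScalarTower.algebraMap_apply Rb κ E]

include hcomp hspan hdim in
omit [IsIntegrallyClosed Rb] [DecidableEq ι] in
theorem exists_basis_map : ∃ eE : Module.Basis ι κ E, ∀ i, eE i = ρ (e i) := by
  classical
  have hle : ⊤ ≤ Submodule.span κ (Set.range (fun i => ρ (e i))) := by
    rw [← hspan, Submodule.span_le]
    rintro _ ⟨b, rfl⟩
    rw [map_eq_sum (κ := κ) ρR ρ hcomp e b]
    exact Submodule.sum_mem _ fun i _ => Submodule.smul_mem _ _ (Submodule.subset_span ⟨i, rfl⟩)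
  have hcard : Fintype.card ι = Module.finrank κ E := by
    refine le_antisymm hdim ?_
    have := finrank_range_le_card (R := κ) (fun i => ρ (e i))
    rwa [Set.finrank, top_le_iff.mp hle, finrank_top] at this
  exact ⟨basisOfTopLeSpanOfCardEqFinrank _ hle hcard,
    fun i => congrFun (coe_basisOfTopLeSpanOfCardEqFinrank _ hle hcard) i⟩

include hcomp in
omit [IsIntegrallyClosed Rb] in
theorem leftMulMatrix_map (eE : Module.Basis ι κ E) (heE : ∀ i, eE i = ρ (e i)) (b : B) :
    Algebra.leftMulMatrix eE (ρ b) =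
      (Algebra.leftMulMatrix e b).map ((algebraMap Rb κ).comp ρR) := by
  ext i j
  rw [Algebra.leftMulMatrix_eq_repr_mul, Matrix.map_apply, Algebra.leftMulMatrix_eq_repr_mul,
    heE, ← map_mul, map_eq_sum (κ := κ) ρR ρ hcomp e (b * e j)]
  simp only [← heE]
  exact congrFun (eE.repr_sum_self _) i

include hcomp in
omit [IsIntegrallyClosed Rb] in
theorem trace_map (eE : Module.Basis ι κ E) (heE : ∀ i, eE i = ρ (e i)) (b : B) :
    Algebra.trace κ E (ρ b) = algebraMap Rb κ (ρR (Algebra.trace R B b)) := by
  rw [Algebra.trace_eq_matrix_trace eE, Algebra.trace_eq_matrix_trace e,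
    leftMulMatrix_map (κ := κ) ρR ρ hcomp e eE heE b]
  exact (AddMonoidHom.map_trace ((algebraMap Rb κ).comp ρR).toAddMonoidHom _).symm

include hcomp in
theorem isIntegral_map (b : B) (e : Module.Basis ι R B) : IsIntegral Rb (ρ b) := by
  have hb : IsIntegral R b := by
    haveI := Module.Finite.of_basis e
    exact IsIntegral.of_finite R b
  exact hb.map_of_comp_eq ρR ρ (RingHom.ext fun r => (hcomp r).symm)

include hcomp hspan hdim in
/-- An element of `E` integral over `Rb` is an `Rb`-combination of the images of the basis. -/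
theorem exists_coeff_of_isIntegral (he : IsUnit (Algebra.discr R e)) {z : E}
    (hz : IsIntegral Rb z) : ∃ c : ι → Rb, z = ∑ i, c i • ρ (e i) := by
  obtain ⟨eE, heE⟩ := exists_basis_map (κ := κ) ρR ρ hcomp e hspan hdim
  set T : Matrix ι ι Rb := (Algebra.traceMatrix R e).map ρR with hT
  have hdet : IsUnit T.det := by
    rw [hT, ← RingHom.mapMatrix_apply, ← RingHom.map_det]
    exact (Algebra.discr_def R e ▸ he).map ρR
  have hv : ∀ l, ∃ v : Rb, algebraMap Rb κ v = Algebra.trace κ E (z * ρ (e l)) := by
    intro l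
    exact (IsIntegrallyClosed.isIntegral_iff (R := Rb) (K := κ)).mp
      (isIntegral_trace_of_finite (κ := κ) (hz.mul (isIntegral_map (Rb := Rb) ρR ρ hcomp (e l) e)))
  choose v hv using hv
  refine ⟨T⁻¹ *ᵥ v, ?_⟩
  have hTc : T.map (algebraMap Rb κ) *ᵥ (fun i => eE.repr z i) = fun l => algebraMap Rb κ (v l) := by
    funext l
    rw [hv]
    conv_rhs => rw [← eE.sum_repr z, Finset.sum_mul, map_sum]
    simp only [Matrix.mulVec, dotProduct]
    refine Finset.sum_congr rfl fun i _ => ?_
    rw [smul_mul_assoc, map_smul, heE, ← map_mul, trace_map ρR ρ hcomp e eE heE, hT,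
      Matrix.map_apply, Matrix.map_apply, Algebra.traceMatrix_apply, Algebra.traceForm_apply,
      mul_comm (e i) (e l), smul_eq_mul, mul_comm]
  have key : (fun i => eE.repr z i) = fun i => algebraMap Rb κ ((T⁻¹ *ᵥ v) i) := by
    have h1 : (T⁻¹).map (algebraMap Rb κ) *ᵥ (T.map (algebraMap Rb κ) *ᵥ fun i => eE.repr z i) =
        fun i => eE.repr z i := by
      rw [Matrix.mulVec_mulVec, ← Matrix.map_mul, Matrix.nonsing_inv_mul _ hdet,
        Matrix.map_one _ (map_zero _) (map_one _), Matrix.one_mulVec]
    rw [← h1, hTc]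
    funext i
    exact (RingHom.map_mulVec (algebraMap Rb κ) T⁻¹ v i).symm
  conv_lhs => rw [← eE.sum_repr z]
  refine Finset.sum_congr rfl fun i _ => ?_
  rw [congrFun key i, heE, algebraMap_smul]

include hcomp hspan hdim in
/-- Above a prime element of `Rb` the integral closure is unramified. -/
theorem trace_mem_of_pow_mem (he : IsUnit (Algebra.discr R e)) {t : Rb} (ht : Prime t)
    {z : E} (hz : IsIntegral Rb z) {n : ℕ} {w : E} (hw : IsIntegral Rb w)
    (hpow : z ^ n = t • w) : ∃ w' : E, IsIntegral Rb w' ∧ z = t • w' := by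
  obtain ⟨eE, heE⟩ := exists_basis_map (κ := κ) ρR ρ hcomp e hspan hdim
  have hcoord : ∀ {y : E}, IsIntegral Rb y → ∀ i, ∃ c : Rb, algebraMap Rb κ c = eE.repr y i := by
    intro y hy i
    obtain ⟨c, hc⟩ := exists_coeff_of_isIntegral ρR ρ hcomp e hspan hdim he hy
    refine ⟨c i, ?_⟩
    rw [hc]
    simp only [← heE, ← algebraMap_smul κ (c _)]
    exact (congrFun (eE.repr_sum_self fun j => algebraMap Rb κ (c j)) i).symm
  have hmat : ∀ {y : E}, IsIntegral Rb y → ∃ M : Matrix ι ι Rb,
      M.map (algebraMap Rb κ) = Algebra.leftMulMatrix eE y := by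
    intro y hy
    have h := fun i j => hcoord (hy.mul (isIntegral_map (Rb := Rb) ρR ρ hcomp (e j) e)) i
    choose M hM using h
    refine ⟨fun i j => M i j, ?_⟩
    ext i j
    show algebraMap Rb κ (M i j) = _
    rw [Algebra.leftMulMatrix_eq_repr_mul, heE, hM]
  have htr : ∀ l, t ∣ Classical.choose ((IsIntegrallyClosed.isIntegral_iff (R := Rb) (K := κ)).mp
      (isIntegral_trace_of_finite (κ := κ) (hz.mul (isIntegral_map (Rb := Rb) ρR ρ hcomp (e l) e)))) := by
    intro l
    set y := z * ρ (e l) with hy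
    have hyi : IsIntegral Rb y := hz.mul (isIntegral_map (Rb := Rb) ρR ρ hcomp (e l) e)
    obtain ⟨M, hM⟩ := hmat hyi
    obtain ⟨W, hW⟩ := hmat (hw.mul ((isIntegral_map (Rb := Rb) ρR ρ hcomp (e l) e).pow n))
    have hMn : M ^ n = t • W := by
      apply Matrix.map_injective (IsFractionRing.injective Rb κ)
      dsimp only
      rw [← RingHom.mapMatrix_apply, map_pow, RingHom.mapMatrix_apply, hM, ← map_pow, hy,
        mul_pow, hpow, smul_mul_assoc, ← algebraMap_smul κ t, map_smul, ← hW]
      ext i j
      simp [Matrix.map_apply, Matrix.smul_apply, smul_eq_mul]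
    let q := Ideal.Quotient.mk (Ideal.span {t})
    have hnil : IsNilpotent (q.mapMatrix M) := by
      refine ⟨n, ?_⟩
      rw [← map_pow, hMn]
      ext i j
      simp [q, Matrix.map_apply, Ideal.Quotient.eq_zero_iff_mem, Ideal.mem_span_singleton]
    have hq : (q M.trace) = 0 := by
      haveI : (Ideal.span {t}).IsPrime := (Ideal.span_singleton_prime ht.ne_zero).mpr ht
      have h := Matrix.isNilpotent_trace_of_isNilpotent hnil
      have htq : (q.mapMatrix M).trace = q M.trace :=
        (AddMonoidHom.map_trace q.toAddMonoidHom M).symm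
      rw [htq] at h
      exact h.eq_zero
    have heq : M.trace = Classical.choose ((IsIntegrallyClosed.isIntegral_iff (R := Rb) (K := κ)).mp
        (isIntegral_trace_of_finite (κ := κ) hyi)) := by
      apply IsFractionRing.injective Rb κ
      rw [Classical.choose_spec ((IsIntegrallyClosed.isIntegral_iff (R := Rb) (K := κ)).mp
        (isIntegral_trace_of_finite (κ := κ) hyi)), Algebra.trace_eq_matrix_trace eE, ← hM]
      exact AddMonoidHom.map_trace (algebraMap Rb κ).toAddMonoidHom _
    rw [← heq]
    exact Ideal.mem_span_singleton.mp (Ideal.Quotient.eq_zero_iff_mem.mp hq)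
  choose u hu using htr
  set T : Matrix ι ι Rb := (Algebra.traceMatrix R e).map ρR with hT
  have hdet : IsUnit T.det := by
    rw [hT, ← RingHom.mapMatrix_apply, ← RingHom.map_det]
    exact (Algebra.discr_def R e ▸ he).map ρR
  obtain ⟨c, hc⟩ := exists_coeff_of_isIntegral ρR ρ hcomp e hspan hdim he hz
  have hTc : T *ᵥ c = t • u := by
    funext l
    apply IsFractionRing.injective Rb κ
    rw [Pi.smul_apply, smul_eq_mul, ← hu l, Classical.choose_spec ((IsIntegrallyClosed.isIntegral_iff (R := Rb) (K := κ)).mp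
      (isIntegral_trace_of_finite (κ := κ) (hz.mul (isIntegral_map (Rb := Rb) ρR ρ hcomp (e l) e))))]
    rw [RingHom.map_mulVec]
    conv_rhs => rw [hc, Finset.sum_mul, map_sum]
    simp only [Matrix.mulVec, dotProduct]
    refine Finset.sum_congr rfl fun i _ => ?_
    rw [smul_mul_assoc, ← algebraMap_smul κ (c i), map_smul, ← map_mul,
      trace_map ρR ρ hcomp e eE heE, hT,
      Matrix.map_apply, Matrix.map_apply, Algebra.traceMatrix_apply, Algebra.traceForm_apply,
      mul_comm (e i) (e l), smul_eq_mul, mul_comm]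
    rfl
  have hc' : c = t • (T⁻¹ *ᵥ u) := by
    rw [← Matrix.mulVec_smul, ← hTc, Matrix.mulVec_mulVec, Matrix.nonsing_inv_mul _ hdet,
      Matrix.one_mulVec]
  refine ⟨∑ i, (T⁻¹ *ᵥ u) i • ρ (e i), ?_, ?_⟩
  · refine IsIntegral.sum _ fun i _ => ?_
    exact (isIntegral_map (Rb := Rb) ρR ρ hcomp (e i) e).smul _
  · rw [hc, hc', Finset.smul_sum]
    refine Finset.sum_congr rfl fun i _ => ?_
    rw [Pi.smul_apply, smul_eq_mul, mul_smul]

end FLTA.Smooth
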